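/-
Twisted cocycles of a group with values in a module, modulo coboundaries, and weighted
double coset operators between them.
-/
import Mathlib

set_option autoImplicit false

noncomputable section

namespace Fermat.Agent.Ribet.Twisted

section

variable {Γ : Type*} [Group Γ] {A : Type*} [CommRing A] (Φ : Γ →* A)
  (M : Type*) [AddCommGroup M] [Module A M]

/-- Cocycles `z (g h) = z g + Φ g • z h`. -/
def cocycles : Submodule A (Γ → M) where
  carrier := {z | ∀ g h, z (g * h) = z g + Φ g • z h}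
  zero_mem' := by intro g h; simp
  add_mem' := by
    intro y z hy hz g h
    simp only [Pi.add_apply, hy g h, hz g h, smul_add]
    abel
  smul_mem' := by
    intro c z hz g h
    simp only [Pi.smul_apply, hz g h, smul_add, smul_comm c (Φ g)]

variable {Φ M}

theorem mem_cocycles {z : Γ → M} : z ∈ cocycles Φ M ↔ ∀ g h, z (g * h) = z g + Φ g • z h :=
  Iff.rfl

theorem cocycle_one (z : cocycles Φ M) : (z : Γ → M) 1 = 0 := by
  have := z.2 1 1
  simpa using this

theorem cocycle_inv (z : cocycles Φ M) (g : Γ) :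
    (z : Γ → M) g⁻¹ = -(Φ g⁻¹ • (z : Γ → M) g) := by
  have := z.2 g⁻¹ g
  rw [inv_mul_cancel, cocycle_one] at this
  exact eq_neg_of_add_eq_zero_left this.symm

variable (Φ M)

/-- The coboundary of an element. -/
def coboundary : M →ₗ[A] cocycles Φ M where
  toFun a := ⟨fun g => Φ g • a - a, fun g h => by
    simp only [map_mul, mul_smul, smul_sub]; abel⟩
  map_add' a b := Subtype.ext (funext fun g => by simp [smul_add]; abel)
  map_smul' c a := Subtype.ext (funext fun g => by simp [smul_comm c (Φ g), smul_sub])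

@[simp] theorem coboundary_apply (a : M) (g : Γ) :
    (coboundary Φ M a : Γ → M) g = Φ g • a - a := rfl

/-- The first cohomology of `Γ` with values in `M` twisted by `Φ`. -/
abbrev Coh : Type _ := cocycles Φ M ⧸ LinearMap.range (coboundary Φ M)

/-- The class of a cocycle. -/
def Coh.mk : cocycles Φ M →ₗ[A] Coh Φ M := Submodule.mkQ _

variable {Φ M}

theorem Coh.mk_surjective : Function.Surjective (Coh.mk Φ M) := Submodule.mkQ_surjective _

theorem Coh.mk_eq_zero {z : cocycles Φ M} : Coh.mk Φ M z = 0 ↔ ∃ a, coboundary Φ M a = z := by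
  rw [Coh.mk, Submodule.mkQ_apply, Submodule.Quotient.mk_eq_zero]
  exact LinearMap.mem_range

variable {B : Type*} [CommRing B] {φ : A →+* B} {Ψ : Γ →* B}
  {N : Type*} [AddCommGroup N] [Module B N]

/-- Change of coefficients on cocycles. -/
def cocyclesMap (hΨ : ∀ g, Ψ g = φ (Φ g)) (f : M →ₛₗ[φ] N) :
    cocycles Φ M →ₛₗ[φ] cocycles Ψ N where
  toFun z := ⟨fun g => f ((z : Γ → M) g), fun g h => by
    simp only [z.2 g h, map_add, LinearMap.map_smulₛₗ, hΨ]⟩
  map_add' y z := Subtype.ext (funext fun g => map_add f _ _)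
  map_smul' c z := Subtype.ext (funext fun g => LinearMap.map_smulₛₗ f c _)

@[simp] theorem cocyclesMap_apply (hΨ : ∀ g, Ψ g = φ (Φ g)) (f : M →ₛₗ[φ] N)
    (z : cocycles Φ M) (g : Γ) :
    (cocyclesMap hΨ f z : Γ → N) g = f ((z : Γ → M) g) := rfl

/-- Change of coefficients on cohomology. -/
def Coh.map (hΨ : ∀ g, Ψ g = φ (Φ g)) (f : M →ₛₗ[φ] N) : Coh Φ M →ₛₗ[φ] Coh Ψ N :=
  Submodule.mapQ _ _ (cocyclesMap hΨ f) (by
    rintro _ ⟨a, rfl⟩
    refine ⟨f a, Subtype.ext (funext fun g => ?_)⟩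
    simp [map_sub, LinearMap.map_smulₛₗ, hΨ])

@[simp] theorem Coh.map_mk (hΨ : ∀ g, Ψ g = φ (Φ g)) (f : M →ₛₗ[φ] N) (z : cocycles Φ M) :
    Coh.map hΨ f (Coh.mk Φ M z) = Coh.mk Ψ N (cocyclesMap hΨ f z) := rfl

end

section Op

variable {Γ Γ' G I : Type*} [Group Γ] [Group Γ'] [Group G]
  {A : Type*} [CommRing A] {M : Type*} [AddCommGroup M] [Module A M]

/-- A weighted system of representatives: gives an operator from the cohomology of `Γ` to that
of `Γ'`. -/
structure OpData (ι : Γ →* G) (ι' : Γ' →* G) (β : I → G) (Φ : Γ →* A) (Φ' : Γ' →* A)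
    (w : I → A) : Prop where
  inj : Function.Injective ι
  exists_step : ∀ (γ : Γ') (i : I), ∃ (c : Γ) (j : I), β i * ι' γ = ι c * β j
  eq_of_eq : ∀ (c : Γ) (i j : I), β i = ι c * β j → i = j
  weight : ∀ (γ : Γ') (c : Γ) (i j : I), β i * ι' γ = ι c * β j → w i * Φ c = Φ' γ * w j

namespace OpData

variable {ι : Γ →* G} {ι' : Γ' →* G} {β : I → G} {Φ : Γ →* A} {Φ' : Γ' →* A} {w : I → A}
  (h : OpData ι ι' β Φ Φ' w)
include h

/-- The element `c (γ, i)`. -/
def step (γ : Γ') (i : I) : Γ := (h.exists_step γ i).choose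

/-- The index `σ_γ i`. -/
def perm (γ : Γ') (i : I) : I := (h.exists_step γ i).choose_spec.choose

theorem spec (γ : Γ') (i : I) : β i * ι' γ = ι (h.step γ i) * β (h.perm γ i) :=
  (h.exists_step γ i).choose_spec.choose_spec

theorem eq_of_step {γ : Γ'} {c : Γ} {i j : I} (e : β i * ι' γ = ι c * β j) :
    h.perm γ i = j ∧ h.step γ i = c := by
  have e' : β (h.perm γ i) = ι ((h.step γ i)⁻¹ * c) * β j := by
    rw [map_mul, map_inv, mul_assoc, ← e, h.spec γ i, inv_mul_cancel_left]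
  have hj := h.eq_of_eq _ _ _ e'
  refine ⟨hj, h.inj ?_⟩
  rw [h.spec γ i, hj] at e
  exact mul_right_cancel e

theorem perm_eq {γ : Γ'} {c : Γ} {i j : I} (e : β i * ι' γ = ι c * β j) : h.perm γ i = j :=
  (h.eq_of_step e).1

theorem step_eq {γ : Γ'} {c : Γ} {i j : I} (e : β i * ι' γ = ι c * β j) : h.step γ i = c :=
  (h.eq_of_step e).2

theorem spec_mul (γ δ : Γ') (i : I) :
    β i * ι' (γ * δ)
      = ι (h.step γ i * h.step δ (h.perm γ i)) * β (h.perm δ (h.perm γ i)) := by
  rw [map_mul, ← mul_assoc, h.spec γ i, mul_assoc, h.spec δ, ← mul_assoc, map_mul]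

theorem perm_mul (γ δ : Γ') (i : I) : h.perm (γ * δ) i = h.perm δ (h.perm γ i) :=
  h.perm_eq (h.spec_mul γ δ i)

theorem step_mul (γ δ : Γ') (i : I) :
    h.step (γ * δ) i = h.step γ i * h.step δ (h.perm γ i) :=
  h.step_eq (h.spec_mul γ δ i)

theorem perm_one (i : I) : h.perm 1 i = i :=
  h.perm_eq (c := 1) (by simp)

/-- `σ_γ` as a permutation. -/
def permEquiv (γ : Γ') : Equiv.Perm I where
  toFun := h.perm γ
  invFun := h.perm γ⁻¹
  left_inv i := by rw [← h.perm_mul, mul_inv_cancel, h.perm_one]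
  right_inv i := by rw [← h.perm_mul, inv_mul_cancel, h.perm_one]

theorem weight_step (γ : Γ') (i : I) :
    w i * Φ (h.step γ i) = Φ' γ * w (h.perm γ i) :=
  h.weight γ _ i _ (h.spec γ i)

theorem sum_perm [Fintype I] {X : Type*} [AddCommMonoid X] (γ : Γ') (F : I → X) :
    ∑ i, F (h.perm γ i) = ∑ i, F i :=
  Equiv.sum_comp (h.permEquiv γ) F

variable [Fintype I] (M)

/-- The operator on cocycles. -/
def opCocycle : cocycles Φ M →ₗ[A] cocycles Φ' M where
  toFun z := ⟨fun γ => ∑ i, w i • (z : Γ → M) (h.step γ i), fun γ δ => by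
    simp only [h.step_mul, z.2 _ _, smul_add, ← mul_smul, h.weight_step, Finset.sum_add_distrib]
    simp only [mul_smul, ← Finset.smul_sum]
    rw [h.sum_perm γ fun i => w i • (z : Γ → M) (h.step δ i)]⟩
  map_add' y z := Subtype.ext (funext fun γ => by simp [Finset.sum_add_distrib])
  map_smul' c z := Subtype.ext (funext fun γ => by
    simp [Finset.smul_sum, smul_comm c])

variable {M}

@[simp] theorem opCocycle_apply (z : cocycles Φ M) (γ : Γ') :
    (h.opCocycle M z : Γ' → M) γ = ∑ i, w i • (z : Γ → M) (h.step γ i) := rfl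

/-- The operator is computed by any witnesses. -/
theorem opCocycle_eq_sum (z : cocycles Φ M) (γ : Γ') (c : I → Γ) (σ : I → I)
    (e : ∀ i, β i * ι' γ = ι (c i) * β (σ i)) :
    (h.opCocycle M z : Γ' → M) γ = ∑ i, w i • (z : Γ → M) (c i) := by
  rw [h.opCocycle_apply]
  exact Finset.sum_congr rfl fun i _ => by rw [h.step_eq (e i)]

theorem opCocycle_coboundary (a : M) :
    h.opCocycle M (coboundary Φ M a) = coboundary Φ' M ((∑ i, w i) • a) := by
  refine Subtype.ext (funext fun γ => ?_)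
  simp only [h.opCocycle_apply, coboundary_apply, smul_sub, ← mul_smul, h.weight_step,
    Finset.sum_sub_distrib]
  rw [← Finset.sum_smul, ← Finset.sum_smul, ← Finset.mul_sum, h.sum_perm γ w]

variable (M)

/-- The operator on cohomology. -/
def op : Coh Φ M →ₗ[A] Coh Φ' M :=
  Submodule.mapQ _ _ (h.opCocycle M) (by
    rintro _ ⟨a, rfl⟩
    exact ⟨_, (h.opCocycle_coboundary a).symm⟩)

variable {M}

@[simp] theorem op_mk (z : cocycles Φ M) :
    h.op M (Coh.mk Φ M z) = Coh.mk Φ' M (h.opCocycle M z) := rfl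

/-- Compatibility with a change of coefficients. -/
theorem map_op {B : Type*} [CommRing B] {φ : A →+* B} {Ψ : Γ →* B} {Ψ' : Γ' →* B}
    {N : Type*} [AddCommGroup N] [Module B N] (hB : OpData ι ι' β Ψ Ψ' fun i => φ (w i))
    (hΨ : ∀ g, Ψ g = φ (Φ g)) (hΨ' : ∀ g, Ψ' g = φ (Φ' g)) (f : M →ₛₗ[φ] N) (x : Coh Φ M) :
    Coh.map hΨ' f (h.op M x) = hB.op N (Coh.map hΨ f x) := by
  obtain ⟨z, rfl⟩ := Coh.mk_surjective x
  rw [h.op_mk, Coh.map_mk, Coh.map_mk, hB.op_mk]
  refine congrArg _ (Subtype.ext (funext fun γ => ?_))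
  rw [cocyclesMap_apply, h.opCocycle_apply, map_sum,
    hB.opCocycle_eq_sum _ γ (h.step γ) (h.perm γ) (h.spec γ)]
  simp [LinearMap.map_smulₛₗ]

/-- The same system with weights pushed along a ring map. -/
theorem pushforward {B : Type*} [CommRing B] (φ : A →+* B) {Ψ : Γ →* B} {Ψ' : Γ' →* B}
    (hΨ : ∀ g, Ψ g = φ (Φ g)) (hΨ' : ∀ g, Ψ' g = φ (Φ' g)) :
    OpData ι ι' β Ψ Ψ' fun i => φ (w i) where
  inj := h.inj
  exists_step := h.exists_step
  eq_of_eq := h.eq_of_eq
  weight γ c i j e := by simp only [hΨ, hΨ', ← map_mul, h.weight γ c i j e]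

/-- Two systems differing by left translations give the same operator on cohomology. -/
theorem op_eq_of_equiv {J : Type*} [Fintype J] {β₂ : J → G} {w₂ : J → A}
    (h₂ : OpData ι ι' β₂ Φ Φ' w₂) (π : I ≃ J) (u : I → Γ)
    (hβ : ∀ i, β₂ (π i) = ι (u i) * β i) (hw : ∀ i, w₂ (π i) * Φ (u i) = w i) :
    h.op M = h₂.op M := by
  refine LinearMap.ext fun x => ?_
  obtain ⟨z, rfl⟩ := Coh.mk_surjective x
  rw [h.op_mk, h₂.op_mk, ← sub_eq_zero, ← map_sub, Coh.mk_eq_zero]
  refine ⟨∑ i, w₂ (π i) • (z : Γ → M) (u i), Subtype.ext (funext fun γ => ?_)⟩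
  have e : ∀ i, β₂ (π i) * ι' γ
      = ι (u i * h.step γ i * (u (h.perm γ i))⁻¹) * β₂ (π (h.perm γ i)) := by
    intro i
    rw [hβ, hβ, mul_assoc, h.spec γ i, map_mul, map_mul, map_inv]
    simp [mul_assoc]
  have key : ∀ i, w₂ (π i) • (z : Γ → M) (h₂.step γ (π i))
      = w₂ (π i) • (z : Γ → M) (u i) + w i • (z : Γ → M) (h.step γ i)
        - Φ' γ • (w₂ (π (h.perm γ i)) • (z : Γ → M) (u (h.perm γ i))) := by
    intro i
    rw [h₂.step_eq (e i), z.2, z.2, cocycle_inv, smul_add, smul_add, ← mul_smul, hw, smul_neg,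
      smul_neg, ← mul_smul, ← mul_smul, ← sub_eq_add_neg]
    congr 1
    rw [← mul_smul]
    congr 1
    rw [map_mul, ← mul_assoc (w₂ (π i)), hw, h.weight_step, ← hw (h.perm γ i),
      show Φ' γ * (w₂ (π (h.perm γ i)) * Φ (u (h.perm γ i))) * Φ (u (h.perm γ i))⁻¹
        = Φ' γ * (w₂ (π (h.perm γ i)) * (Φ (u (h.perm γ i)) * Φ (u (h.perm γ i))⁻¹)) by ring,
      ← map_mul Φ, mul_inv_cancel, map_one, mul_one]
  simp only [Submodule.coe_sub, Pi.sub_apply, h.opCocycle_apply, coboundary_apply,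
    h₂.opCocycle_apply, Finset.smul_sum]
  rw [← Equiv.sum_comp π fun j => w₂ j • (z : Γ → M) (h₂.step γ j)]
  simp only [key, Finset.sum_sub_distrib, Finset.sum_add_distrib]
  rw [h.sum_perm γ fun i => Φ' γ • (w₂ (π i) • (z : Γ → M) (u i))]
  abel

end OpData

section Comp

variable {Γ'' : Type*} [Group Γ''] {J : Type*} [Fintype I] [Fintype J]
  {ι : Γ →* G} {ι' : Γ' →* G} {ι'' : Γ'' →* G} {β : I → G} {β' : J → G}
  {Φ : Γ →* A} {Φ' : Γ' →* A} {Φ'' : Γ'' →* A} {w : I → A} {w' : J → A}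

/-- Composites of operators are the operators of product systems. -/
theorem op_comp (h : OpData ι ι' β Φ Φ' w) (h' : OpData ι' ι'' β' Φ' Φ'' w')
    (hP : OpData ι ι'' (fun x : I × J => β x.1 * β' x.2) Φ Φ'' fun x => w x.1 * w' x.2) :
    (h'.op M).comp (h.op M) = hP.op M := by
  refine LinearMap.ext fun x => ?_
  obtain ⟨z, rfl⟩ := Coh.mk_surjective x
  rw [LinearMap.comp_apply, h.op_mk, h'.op_mk, hP.op_mk]
  refine congrArg _ (Subtype.ext (funext fun γ => ?_))
  have e : ∀ x : I × J, β x.1 * β' x.2 * ι'' γ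
      = ι (h.step (h'.step γ x.2) x.1)
        * (β (h.perm (h'.step γ x.2) x.1) * β' (h'.perm γ x.2)) := by
    intro x
    rw [mul_assoc, h'.spec, ← mul_assoc, h.spec, mul_assoc]
  rw [hP.opCocycle_eq_sum z γ _ (fun x => (h.perm (h'.step γ x.2) x.1, h'.perm γ x.2)) e,
    h'.opCocycle_apply, Fintype.sum_prod_type, Finset.sum_comm]
  refine Finset.sum_congr rfl fun j _ => ?_
  simp [h.opCocycle_apply, Finset.smul_sum, ← mul_smul, mul_comm (w' j)]

/-- A product system is a system as soon as its representatives give distinct classes. -/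
theorem opData_prod (h : OpData ι ι' β Φ Φ' w) (h' : OpData ι' ι'' β' Φ' Φ'' w')
    (hne : ∀ (c : Γ) (x y : I × J), β x.1 * β' x.2 = ι c * (β y.1 * β' y.2) → x = y) :
    OpData ι ι'' (fun x : I × J => β x.1 * β' x.2) Φ Φ'' fun x => w x.1 * w' x.2 where
  inj := h.inj
  exists_step γ x := ⟨h.step (h'.step γ x.2) x.1, (h.perm (h'.step γ x.2) x.1, h'.perm γ x.2), by
    rw [mul_assoc, h'.spec, ← mul_assoc, h.spec, mul_assoc]⟩
  eq_of_eq := hne
  weight γ c x y e := by
    have hspec : β x.1 * β' x.2 * ι'' γ = ι (h.step (h'.step γ x.2) x.1)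
        * (β (h.perm (h'.step γ x.2) x.1) * β' (h'.perm γ x.2)) := by
      rw [mul_assoc, h'.spec, ← mul_assoc, h.spec, mul_assoc]
    have h2 : β (h.perm (h'.step γ x.2) x.1) * β' (h'.perm γ x.2)
        = ι ((h.step (h'.step γ x.2) x.1)⁻¹ * c) * (β y.1 * β' y.2) := by
      rw [map_mul, map_inv, mul_assoc, ← e, hspec, inv_mul_cancel_left]
    have hy := hne _ (h.perm (h'.step γ x.2) x.1, h'.perm γ x.2) y h2
    have hc : c = h.step (h'.step γ x.2) x.1 := by
      refine h.inj (mul_right_cancel (b := β y.1 * β' y.2) ?_)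
      rw [← e, hspec, ← hy]
    subst hc
    subst hy
    calc w x.1 * w' x.2 * Φ (h.step (h'.step γ x.2) x.1)
        = w' x.2 * (w x.1 * Φ (h.step (h'.step γ x.2) x.1)) := by ring
      _ = w' x.2 * Φ' (h'.step γ x.2) * w (h.perm (h'.step γ x.2) x.1) := by
          rw [h.weight_step]; ring
      _ = Φ'' γ * (w (h.perm (h'.step γ x.2) x.1) * w' (h'.perm γ x.2)) := by
          rw [h'.weight_step]; ring

end Comp

end Op

end Fermat.Agent.Ribet.Twisted
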