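/-
Cohomology of Γ₀(L) with nebentype ψ² and its Hecke operators, normalised so that a system
`a` corresponds to the twist by ψ⁻¹ (trivial nebentype) of the form with nebentype ψ².
-/
import Fermat.Agent.Ribet.Twisted.Cocycle
import Fermat.Agent.HeckeCohom.Operators

set_option autoImplicit false

noncomputable section

namespace Fermat.Agent.Ribet.Twisted

open CongruenceSubgroup ModularForm
open scoped MatrixGroups
open Fermat.Agent.HeckeCohom (gamma0GL gamma0GL_entry dvd_apply_one_zero HeckeIdx heckeBeta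
  isCosetSystem)

variable {L D : ℕ} {A : Type*} [CommRing A]

/-- The lower right entry of an element of `Γ₀(L)` modulo `D ∣ L`. -/
def diag11 (hD : D ∣ L) : Gamma0 L →* ZMod D :=
  (ZMod.castHom hD (ZMod D)).toMonoidHom.comp (Gamma0Map L)

theorem diag11_apply (hD : D ∣ L) (γ : Gamma0 L) :
    diag11 hD γ = (((γ : SL(2, ℤ)) 1 1 : ℤ) : ZMod D) := by
  show ZMod.castHom hD (ZMod D) (((γ : SL(2, ℤ)) 1 1 : ℤ) : ZMod L) = _
  exact map_intCast _ _

/-- The nebentype `γ ↦ ψ(d)²`. -/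
def chr (hD : D ∣ L) (ψ : DirichletCharacter A D) : Gamma0 L →* A :=
  (ψ.toMonoidHom.comp (diag11 hD)) ^ 2

theorem chr_apply (hD : D ∣ L) (ψ : DirichletCharacter A D) (γ : Gamma0 L) :
    chr hD ψ γ = ψ (((γ : SL(2, ℤ)) 1 1 : ℤ) : ZMod D) ^ 2 := by
  show ψ (diag11 hD γ) ^ 2 = _
  rw [diag11_apply]

theorem chr_ringHomComp {B : Type*} [CommRing B] (φ : A →+* B) (hD : D ∣ L)
    (ψ : DirichletCharacter A D) (γ : Gamma0 L) :
    chr hD (ψ.ringHomComp φ) γ = φ (chr hD ψ γ) := by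
  simp [chr_apply, map_pow]

/-- Cohomology of `Γ₀(L)` with coefficients in `M` and nebentype `ψ²`. -/
abbrev CohL (hD : D ∣ L) (ψ : DirichletCharacter A D) (M : Type*) [AddCommGroup M] [Module A M] :
    Type _ :=
  Coh (chr hD ψ) M

/-- The weights of the representatives. -/
def heckeWeight (L : ℕ) (ψ : DirichletCharacter A D) (ℓ : ℕ) (i : HeckeIdx L ℓ) : A :=
  i.1.elim (ψ (ℓ : ZMod D)) fun _ => ψ⁻¹ (ℓ : ZMod D)

theorem inv_apply_mul_apply {ℓ : ℕ} (hℓ : ℓ.Prime) (hℓD : ¬ ℓ ∣ D) (ψ : DirichletCharacter A D) :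
    ψ⁻¹ (ℓ : ZMod D) * ψ (ℓ : ZMod D) = 1 := by
  rw [← MulChar.mul_apply, inv_mul_cancel,
    MulChar.one_apply ((ZMod.isUnit_iff_coprime ℓ D).mpr ((Nat.Prime.coprime_iff_not_dvd hℓ).mpr hℓD))]

theorem heckeOpData (hD : D ∣ L) (ψ : DirichletCharacter A D) {ℓ : ℕ} (hℓ : ℓ.Prime)
    (hℓD : ¬ ℓ ∣ D) :
    OpData (gamma0GL L) (gamma0GL L) (heckeBeta L ℓ) (chr hD ψ) (chr hD ψ)
      (heckeWeight L ψ ℓ) :=
  haveI : Fact ℓ.Prime := ⟨hℓ⟩
  { inj := (isCosetSystem L ℓ).inj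
    exists_step := (isCosetSystem L ℓ).exists_step
    eq_of_eq := (isCosetSystem L ℓ).eq_of_eq
    weight := by
      intro γ c i j e
      have hℓ0 : ℓ ≠ 0 := hℓ.ne_zero
      have e' := congrArg (fun M : GL (Fin 2) ℝ => (M : Matrix (Fin 2) (Fin 2) ℝ)) e
      have e10 := congrFun (congrFun e' 1) 0
      have e11 := congrFun (congrFun e' 1) 1
      have hinv := inv_apply_mul_apply hℓ hℓD ψ
      have hγ : (((γ : SL(2, ℤ)) 1 0 : ℤ) : ZMod D) = 0 :=
        (ZMod.intCast_zmod_eq_zero_iff_dvd _ _).mpr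
          ((Int.natCast_dvd_natCast.mpr hD).trans (dvd_apply_one_zero L γ))
      have hc : (((c : SL(2, ℤ)) 1 0 : ℤ) : ZMod D) = 0 :=
        (ZMod.intCast_zmod_eq_zero_iff_dvd _ _).mpr
          ((Int.natCast_dvd_natCast.mpr hD).trans (dvd_apply_one_zero L c))
      obtain ⟨i, hi⟩ := i
      obtain ⟨j, hj⟩ := j
      rcases i with _ | x <;> rcases j with _ | y <;>
        simp [heckeBeta, heckeWeight, Matrix.mul_apply, Fin.sum_univ_two, hℓ0,
          -ZMod.natCast_val] at e10 e11 ⊢ <;>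
        norm_cast at e11
      · simp [chr_apply, ← e11]
        ring
      · -- `d ≡ ℓ C`
        have h : (((γ : SL(2, ℤ)) 1 1 : ℤ) : ZMod D) = ((c : SL(2, ℤ)) 1 1 : ℤ) * (ℓ : ZMod D) := by
          have := congrArg (Int.cast : ℤ → ZMod D) e11
          push_cast at this
          rw [hc, zero_mul, zero_add] at this
          exact this
        rw [chr_apply, chr_apply, h, map_mul, mul_pow]
        linear_combination (-(ψ (ℓ : ZMod D)) * ψ (((c : SL(2, ℤ)) 1 1 : ℤ) : ZMod D) ^ 2) * hinv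
      · -- `C = ℓ d`
        have h : (((c : SL(2, ℤ)) 1 1 : ℤ) : ZMod D) = (ℓ : ZMod D) * ((γ : SL(2, ℤ)) 1 1 : ℤ) := by
          have := congrArg (Int.cast : ℤ → ZMod D) e11
          push_cast at this
          exact this.symm
        rw [chr_apply, chr_apply, h, map_mul, mul_pow]
        linear_combination (ψ (ℓ : ZMod D) * ψ (((γ : SL(2, ℤ)) 1 1 : ℤ) : ZMod D) ^ 2) * hinv
      · have h : (((c : SL(2, ℤ)) 1 1 : ℤ) : ZMod D) = ((γ : SL(2, ℤ)) 1 1 : ℤ) := by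
          have := congrArg (Int.cast : ℤ → ZMod D) e11
          push_cast at this
          rw [hc, zero_mul, zero_add] at this
          have hu : IsUnit (ℓ : ZMod D) :=
            (ZMod.isUnit_iff_coprime ℓ D).mpr ((Nat.Prime.coprime_iff_not_dvd hℓ).mpr hℓD)
          exact hu.mul_right_cancel (by linear_combination -this)
        rw [chr_apply, chr_apply, h]
        ring }

open Classical in
/-- The normalised operator `T'_ℓ` (`U'_ℓ` for `ℓ ∣ L`), zero for `ℓ ∣ D`. -/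
def heckeT' (hD : D ∣ L) (ψ : DirichletCharacter A D) (M : Type*) [AddCommGroup M] [Module A M]
    (ℓ : ℕ) : Module.End A (CohL hD ψ M) :=
  if h : ℓ.Prime ∧ ¬ ℓ ∣ D then
    haveI : Fact ℓ.Prime := ⟨h.1⟩
    (heckeOpData hD ψ h.1 h.2).op M
  else 0

theorem heckeT'_eq (hD : D ∣ L) (ψ : DirichletCharacter A D) (M : Type*) [AddCommGroup M]
    [Module A M] {ℓ : ℕ} [Fact ℓ.Prime] (hℓD : ¬ ℓ ∣ D) :
    heckeT' hD ψ M ℓ = (heckeOpData hD ψ Fact.out hℓD).op M := by
  rw [heckeT', dif_pos ⟨Fact.out, hℓD⟩]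

/-- `a` is a system of eigenvalues of the `T'_ℓ`, `ℓ` a prime outside `S`, on the cohomology with
values in a field. -/
def HasSystem {K : Type*} [Field K] (hD : D ∣ L) (ψ : DirichletCharacter K D) (S : Finset ℕ)
    (a : ℕ → K) : Prop :=
  ∃ x : CohL hD ψ K, x ≠ 0 ∧
    ∀ ℓ : ℕ, ℓ.Prime → ℓ ∉ S → heckeT' hD ψ K ℓ x = a ℓ • x

end Fermat.Agent.Ribet.Twisted
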