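/-
Characters primitive at every prime, also after squaring.
-/
import Fermat.Agent.Ribet.Twisted.Hecke

set_option autoImplicit false

noncomputable section

namespace Fermat.Agent.Ribet.Twisted

open CongruenceSubgroup

/-- Every prime of `D` is primitive for the nebentype `ψ²`. -/
def IsPrimitiveSq {A : Type*} [CommRing A] {D : ℕ} (ψ : DirichletCharacter A D) : Prop :=
  ∀ q : ℕ, q.Prime → q ∣ D → ∃ d : ℤ, (d : ZMod (D / q)) = 1 ∧ IsUnit (d : ZMod D) ∧
    ψ (d : ZMod D) ^ 2 ≠ 1

end Fermat.Agent.Ribet.Twisted
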