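/-
The twisting operator `R = ∑_b ψ(b) (1 b/D; 0 1)` from twisted cohomology of Γ₀(L) to
homomorphisms of Γ₀(L * D), and its compatibility with the Hecke operators.
-/
import Fermat.Agent.Ribet.Twisted.Hecke

set_option autoImplicit false

noncomputable section

namespace Fermat.Agent.Ribet.Twisted

open CongruenceSubgroup ModularForm
open scoped MatrixGroups
open Fermat.Agent.HeckeCohom (gamma0GL gamma0GL_entry dvd_apply_one_zero HeckeIdx heckeBeta
  isCosetSystem heckeHom det_eq_one)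

variable {L D : ℕ}

/-- The matrix `(1 x; 0 1)`. -/
def transGL (x : ℝ) : GL (Fin 2) ℝ := upperTriangularGL 1 x 1 (by norm_num)

@[simp] theorem val_transGL (x : ℝ) :
    ((transGL x : GL (Fin 2) ℝ) : Matrix (Fin 2) (Fin 2) ℝ) = !![1, x; 0, 1] :=
  val_upperTriangularGL _ _ _ _

/-- The representatives `(1 b/D; 0 1)`. -/
def twistBeta (D : ℕ) (b : ZMod D) : GL (Fin 2) ℝ := transGL ((b.val : ℝ) / D)

/-- The translation `(1 t; 0 1)` in `Γ₀(L)`. -/
def transl (L : ℕ) (t : ℤ) : Gamma0 L :=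
  ⟨⟨!![1, t; 0, 1], by simp [Matrix.det_fin_two_of]⟩, Gamma0_mem.mpr (by simp)⟩

theorem gamma0GL_transl (L : ℕ) (t : ℤ) : gamma0GL L (transl L t) = transGL t := by
  ext i j
  rw [gamma0GL_entry, val_transGL]
  fin_cases i <;> fin_cases j <;> simp [transl]

variable {A : Type*} [CommRing A]

theorem chr_transl (hD : D ∣ L) (ψ : DirichletCharacter A D) (t : ℤ) :
    chr hD ψ (transl L t) = 1 := by
  simp [chr_apply, transl]

theorem gamma0_ext_real {N : ℕ} {x y : GL (Fin 2) ℝ} (_ : N = N)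
    (h : ∀ i j, (x : Matrix (Fin 2) (Fin 2) ℝ) i j = (y : Matrix (Fin 2) (Fin 2) ℝ) i j) : x = y :=
  Units.ext (Matrix.ext h)

/-- Right multiplication by `Γ₀(L * D)` permutes the representatives. -/
theorem twist_step [NeZero D] (hD : D ∣ L) (γ : Gamma0 (L * D)) (b : ZMod D) :
    ∃ c : Gamma0 L,
      twistBeta D b * gamma0GL (L * D) γ
          = gamma0GL L c
            * twistBeta D (b * ((((γ : SL(2, ℤ)) 1 1 : ℤ) : ZMod D)) ^ 2) ∧
        (((c : SL(2, ℤ)) 1 1 : ℤ) : ZMod D) = (((γ : SL(2, ℤ)) 1 1 : ℤ) : ZMod D) := by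
  set g : SL(2, ℤ) := (γ : SL(2, ℤ)) with hg
  have hdet := det_eq_one g
  obtain ⟨m, hm⟩ : ((L * D : ℕ) : ℤ) ∣ g 1 0 := dvd_apply_one_zero _ γ
  push_cast at hm
  obtain ⟨l, hl⟩ : (D : ℤ) ∣ (L : ℤ) := Int.natCast_dvd_natCast.mpr hD
  set b' : ZMod D := b * ((g 1 1 : ℤ) : ZMod D) ^ 2 with hb'
  have hadD : ((g 0 0 : ℤ) : ZMod D) * ((g 1 1 : ℤ) : ZMod D) = 1 := by
    have h := congrArg (Int.cast : ℤ → ZMod D) hdet
    push_cast at h
    have hc : ((g 1 0 : ℤ) : ZMod D) = 0 := by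
      rw [hm]; push_cast; simp [(ZMod.natCast_eq_zero_iff D D).mpr (dvd_refl D)]
    linear_combination h + ((g 0 1 : ℤ) : ZMod D) * hc
  obtain ⟨e, he⟩ : (D : ℤ) ∣ g 0 1 * D + b.val * g 1 1 - g 0 0 * b'.val
      - (L : ℤ) * m * b.val * b'.val := by
    rw [← ZMod.intCast_zmod_eq_zero_iff_dvd]
    push_cast
    rw [ZMod.natCast_self, ZMod.natCast_zmod_val, ZMod.natCast_zmod_val,
      show ((L : ℕ) : ZMod D) = 0 from (ZMod.natCast_eq_zero_iff L D).mpr hD, hb']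
    linear_combination (-(b * ((g 1 1 : ℤ) : ZMod D))) * hadD
  let M : Matrix (Fin 2) (Fin 2) ℤ :=
    !![g 0 0 + b.val * (L * m), e; g 1 0, g 1 1 - L * m * b'.val]
  have hMdet : M.det = 1 := by
    rw [Matrix.det_fin_two_of]
    have hDpos : (D : ℤ) ≠ 0 := by exact_mod_cast NeZero.ne D
    apply mul_left_cancel₀ hDpos
    rw [hm]
    linear_combination (D : ℤ) * hdet + (D : ℤ) * ((g 0 1) * hm) + (L : ℤ) * D * m * he
  have hc : (⟨M, hMdet⟩ : SL(2, ℤ)) ∈ Gamma0 L := by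
    refine Gamma0_mem.mpr ?_
    show ((g 1 0 : ℤ) : ZMod L) = 0
    rw [hm]
    simp
  refine ⟨⟨⟨M, hMdet⟩, hc⟩, ?_, ?_⟩
  · refine gamma0_ext_real (N := L) rfl fun i j => ?_
    have hDR : (D : ℝ) ≠ 0 := Nat.cast_ne_zero.mpr (NeZero.ne D)
    have heR := congrArg (Int.cast : ℤ → ℝ) he
    push_cast at heR
    have hmR := congrArg (Int.cast : ℤ → ℝ) hm
    push_cast at hmR
    simp only [Units.val_mul, Matrix.mul_apply, Fin.sum_univ_two, gamma0GL_entry, twistBeta,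
      val_transGL]
    fin_cases i <;> fin_cases j <;>
      simp [M, ← hg, -ZMod.natCast_val] <;>
      field_simp
    all_goals first
      | linear_combination heR
      | linear_combination (b.val : ℝ) * hmR
      | linear_combination (-(b'.val : ℝ)) * hmR
      | linear_combination (b'.val : ℝ) * hmR
      | ring
  · show ((g 1 1 - L * m * b'.val : ℤ) : ZMod D) = _
    push_cast
    rw [show ((L : ℕ) : ZMod D) = 0 from (ZMod.natCast_eq_zero_iff L D).mpr hD]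
    ring

theorem twistBeta_eq_of_eq [NeZero D] (c : Gamma0 L) (b b' : ZMod D)
    (e : twistBeta D b = gamma0GL L c * twistBeta D b') : b = b' := by
  have hDR : (D : ℝ) ≠ 0 := Nat.cast_ne_zero.mpr (NeZero.ne D)
  have e' := congrArg (fun M : GL (Fin 2) ℝ => (M : Matrix (Fin 2) (Fin 2) ℝ)) e
  have e00 := congrFun (congrFun e' 0) 0
  have e01 := congrFun (congrFun e' 0) 1
  simp [twistBeta, Matrix.mul_apply, Fin.sum_univ_two, -ZMod.natCast_val] at e00 e01
  rw [← e00, one_mul] at e01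
  field_simp at e01
  have e01' : ((b.val : ℕ) : ℤ) = b'.val + D * (c : SL(2, ℤ)) 0 1 := by
    rw [← @Int.cast_inj ℝ]
    push_cast
    linear_combination e01
  have := congrArg (Int.cast : ℤ → ZMod D) e01'
  simpa using this

/-- The twisting system. -/
theorem twistOpData [NeZero D] (hD : D ∣ L) (ψ : DirichletCharacter A D) :
    OpData (gamma0GL L) (gamma0GL (L * D)) (twistBeta D) (chr hD ψ) (1 : Gamma0 (L * D) →* A)
      (fun b : ZMod D => ψ b) where
  inj := Matrix.SpecialLinearGroup.mapGL_injective.comp Subtype.val_injective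
  exists_step γ b := by
    obtain ⟨c, hc, -⟩ := twist_step hD γ b
    exact ⟨c, _, hc⟩
  eq_of_eq c b b' e := twistBeta_eq_of_eq c b b' e
  weight γ c b j e := by
    obtain ⟨c', hc', hd⟩ := twist_step hD γ b
    have hj := twistBeta_eq_of_eq ((c'⁻¹) * c) _ j (by
      rw [map_mul, map_inv, mul_assoc, ← e, hc', inv_mul_cancel_left])
    subst hj
    have hcc : c = c' := by
      refine Matrix.SpecialLinearGroup.mapGL_injective.comp Subtype.val_injective
        (mul_right_cancel (e.symm.trans hc'))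
    subst hcc
    simp [chr_apply, hd, map_mul, map_pow]

/-- Homomorphisms from cohomology with trivial character. -/
def homOfCoh {Γ : Type*} [Group Γ] (M : Type*) [AddCommGroup M] [Module A M] :
    Coh (1 : Γ →* A) M →ₗ[A] (Additive Γ →+ M) :=
  Submodule.liftQ _
    { toFun := fun z => AddMonoidHom.mk' (fun g => (z : Γ → M) (Additive.toMul g)) fun g h => by
        simpa using z.2 (Additive.toMul g) (Additive.toMul h)
      map_add' := fun _ _ => rfl
      map_smul' := fun _ _ => rfl } (by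
      rintro _ ⟨a, rfl⟩
      refine LinearMap.mem_ker.mpr (AddMonoidHom.ext fun g => ?_)
      show (coboundary (1 : Γ →* A) M a : Γ → M) (Additive.toMul g) = 0
      simp)

@[simp] theorem homOfCoh_mk {Γ : Type*} [Group Γ] {M : Type*} [AddCommGroup M] [Module A M]
    (z : cocycles (1 : Γ →* A) M) (g : Γ) :
    homOfCoh M (Coh.mk (1 : Γ →* A) M z) (Additive.ofMul g) = (z : Γ → M) g := rfl

theorem homOfCoh_injective {Γ : Type*} [Group Γ] {M : Type*} [AddCommGroup M] [Module A M] :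
    Function.Injective (homOfCoh (A := A) (Γ := Γ) M) := by
  rw [injective_iff_map_eq_zero]
  intro x hx
  obtain ⟨z, rfl⟩ := Coh.mk_surjective x
  have : z = 0 := Subtype.ext (funext fun g => by
    simpa using DFunLike.congr_fun hx (Additive.ofMul g))
  rw [this, map_zero]

/-- The twisting operator `R`. -/
def twistMap [NeZero D] (hD : D ∣ L) (ψ : DirichletCharacter A D) (M : Type*) [AddCommGroup M]
    [Module A M] : CohL hD ψ M →ₗ[A] (Additive (Gamma0 (L * D)) →+ M) :=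
  (homOfCoh M).comp ((twistOpData hD ψ).op M)

/-- The formula for `R`. -/
theorem twistMap_mk [NeZero D] (hD : D ∣ L) (ψ : DirichletCharacter A D) {M : Type*}
    [AddCommGroup M] [Module A M] (z : cocycles (chr hD ψ) M) (γ : Gamma0 (L * D))
    (c : ZMod D → Gamma0 L) (σ : ZMod D → ZMod D)
    (e : ∀ b, twistBeta D b * gamma0GL (L * D) γ = gamma0GL L (c b) * twistBeta D (σ b)) :
    twistMap hD ψ M (Coh.mk (chr hD ψ) M z) (Additive.ofMul γ)
      = ∑ b : ZMod D, ψ b • (z : Gamma0 L → M) (c b) :=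
  (twistOpData hD ψ).opCocycle_eq_sum z γ c σ e

/-- The Hecke system with trivial weights. -/
theorem trivOpData (A : Type*) [CommRing A] (N : ℕ) (ℓ : ℕ) [Fact ℓ.Prime] :
    OpData (gamma0GL N) (gamma0GL N) (heckeBeta N ℓ) (1 : Gamma0 N →* A) (1 : Gamma0 N →* A)
      (fun _ : HeckeIdx N ℓ => (1 : A)) where
  inj := (isCosetSystem N ℓ).inj
  exists_step := (isCosetSystem N ℓ).exists_step
  eq_of_eq := (isCosetSystem N ℓ).eq_of_eq
  weight _ _ _ _ _ := by simp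

theorem homOfCoh_op (N : ℕ) (ℓ : Nat.Primes) [Fact (ℓ : ℕ).Prime] {M : Type*} [AddCommGroup M]
    [Module A M] (x : Coh (1 : Gamma0 N →* A) M) :
    homOfCoh M ((trivOpData A N ℓ).op M x) = heckeHom N A M ℓ (homOfCoh M x) := by
  haveI : NeZero (ℓ : ℕ) := ⟨ℓ.2.ne_zero⟩
  obtain ⟨z, rfl⟩ := Coh.mk_surjective x
  refine AddMonoidHom.ext fun g => ?_
  obtain ⟨g, rfl⟩ := Additive.ofMul.surjective g
  rw [HeckeCohom.heckeHom_eq_sum ℓ _ g _ _ ((trivOpData A N ℓ).spec g)]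
  simp

theorem heckeBeta_twistBeta_injective [NeZero D] {ℓ : ℕ} [Fact ℓ.Prime] (hℓD : ¬ ℓ ∣ D)
    (c : Gamma0 L) (x y : HeckeIdx L ℓ × ZMod D)
    (e : heckeBeta L ℓ x.1 * twistBeta D x.2
      = gamma0GL L c * (heckeBeta L ℓ y.1 * twistBeta D y.2)) : x = y := by
  haveI : NeZero ℓ := ⟨(Fact.out : ℓ.Prime).ne_zero⟩
  have hℓ : ℓ ≠ 0 := NeZero.ne ℓ
  have h2 : 2 ≤ ℓ := (Fact.out : ℓ.Prime).two_le
  have hDR : (D : ℝ) ≠ 0 := Nat.cast_ne_zero.mpr (NeZero.ne D)
  obtain ⟨⟨i, hi⟩, b⟩ := x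
  obtain ⟨⟨j, hj⟩, b'⟩ := y
  have hd := det_eq_one (c : SL(2, ℤ))
  have e' := congrArg (fun M : GL (Fin 2) ℝ => (M : Matrix (Fin 2) (Fin 2) ℝ)) e
  have e00 := congrFun (congrFun e' 0) 0
  have e01 := congrFun (congrFun e' 0) 1
  have e10 := congrFun (congrFun e' 1) 0
  rcases i with _ | u <;> rcases j with _ | v <;>
    simp [heckeBeta, twistBeta, Matrix.mul_apply, Fin.sum_univ_two, hℓ, -ZMod.natCast_val]
      at e00 e01 e10 ⊢
  · rw [e00] at e01
    push_cast at e01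
    field_simp at e01
    have hz : (ℓ : ℤ) * (b.val : ℤ) = ℓ * b'.val + D * (c : SL(2, ℤ)) 0 1 := by
      rw [← @Int.cast_inj ℝ]
      push_cast
      linear_combination e01
    have hu : IsUnit (ℓ : ZMod D) := (ZMod.isUnit_iff_coprime ℓ D).mpr
      ((Nat.Prime.coprime_iff_not_dvd Fact.out).mpr hℓD)
    have := congrArg (Int.cast : ℤ → ZMod D) hz
    simp at this
    exact hu.mul_left_cancel this
  · norm_cast at e00 e10
    have hpd : (ℓ : ℤ) ∣ 1 :=
      ⟨(c : SL(2, ℤ)) 1 1, by rw [e00]; linear_combination -hd + (c : SL(2, ℤ)) 0 1 * e10⟩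
    have := Int.le_of_dvd one_pos hpd
    omega
  · norm_cast at e00
    have hpd : (ℓ : ℤ) ∣ 1 := ⟨(c : SL(2, ℤ)) 0 0, by linear_combination e00⟩
    have := Int.le_of_dvd one_pos hpd
    omega
  · rw [← e00] at e01
    push_cast at e01
    field_simp at e01
    have hz : (b.val : ℤ) + D * u.val
        = b'.val + D * v.val + D * ((c : SL(2, ℤ)) 0 1 * ℓ) := by
      rw [← @Int.cast_inj ℝ]
      push_cast
      linear_combination e01
    have hb := congrArg (Int.cast : ℤ → ZMod D) hz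
    simp at hb
    subst hb
    have hz' : (u.val : ℤ) = v.val + (c : SL(2, ℤ)) 0 1 * ℓ := by
      have hD0 : (D : ℤ) ≠ 0 := by exact_mod_cast NeZero.ne D
      apply mul_left_cancel₀ hD0
      linear_combination hz
    have hu := congrArg (Int.cast : ℤ → ZMod ℓ) hz'
    simp at hu
    exact ⟨hu, rfl⟩

/-- The shift `k` in `ℓ b - b' = k D`. -/
def shiftK (D ℓ : ℕ) (b' : ZMod D) : ℤ :=
  (((ℓ : ℤ) * ((b' * ((ℓ : ZMod D))⁻¹).val : ℤ) - (b'.val : ℤ))) / D

theorem shiftK_spec [NeZero D] {ℓ : ℕ} (hℓ : Nat.Coprime ℓ D) (b' : ZMod D) :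
    (ℓ : ℤ) * ((b' * ((ℓ : ZMod D))⁻¹).val : ℤ) - (b'.val : ℤ) = shiftK D ℓ b' * D := by
  refine (Int.ediv_mul_cancel ?_).symm
  rw [← ZMod.intCast_zmod_eq_zero_iff_dvd]
  push_cast
  rw [ZMod.natCast_zmod_val, ZMod.natCast_zmod_val]
  linear_combination b' * ZMod.coe_mul_inv_eq_one ℓ hℓ

/-- The bijection between the representatives of the two composites. -/
def commEquiv [NeZero D] {ℓ : ℕ} (hℓ : Nat.Coprime ℓ D) (hiff : ℓ ∣ L * D ↔ ℓ ∣ L) :
    HeckeIdx L ℓ × ZMod D ≃ ZMod D × HeckeIdx (L * D) ℓ where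
  toFun x :=
    match x with
    | (⟨none, h⟩, b') => (b' * ℓ, ⟨none, fun e h' => h e (hiff.mp h')⟩)
    | (⟨some j, _⟩, b') => (b' * (ℓ : ZMod D)⁻¹, ⟨some (j - shiftK D ℓ b'), by simp⟩)
  invFun y :=
    match y with
    | (b, ⟨none, h⟩) => (⟨none, fun e h' => h e (hiff.mpr h')⟩, b * (ℓ : ZMod D)⁻¹)
    | (b, ⟨some j, _⟩) => (⟨some (j + shiftK D ℓ (b * ℓ)), by simp⟩, b * ℓ)
  left_inv x := by
    obtain ⟨⟨_ | j, h⟩, b'⟩ := x
    · simp [mul_assoc, ZMod.coe_mul_inv_eq_one ℓ hℓ]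
    · simp [mul_assoc, mul_comm (ℓ : ZMod D)⁻¹, ZMod.coe_mul_inv_eq_one ℓ hℓ]
  right_inv y := by
    obtain ⟨b, ⟨_ | j, h⟩⟩ := y
    · simp [mul_assoc, mul_comm (ℓ : ZMod D)⁻¹, ZMod.coe_mul_inv_eq_one ℓ hℓ]
    · simp [mul_assoc, ZMod.coe_mul_inv_eq_one ℓ hℓ]

/-- `R` intertwines `T'_ℓ` with `T_ℓ` (also `U`), for `ℓ ∤ D`. -/
theorem twistMap_heckeT' [NeZero D] (hD : D ∣ L) (ψ : DirichletCharacter A D) {M : Type*}
    [AddCommGroup M] [Module A M] (ℓ : Nat.Primes) (hℓD : ¬ (ℓ : ℕ) ∣ D) (x : CohL hD ψ M) :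
    twistMap hD ψ M (heckeT' hD ψ M ℓ x) = heckeHom (L * D) A M ℓ (twistMap hD ψ M x) := by
  haveI : Fact (ℓ : ℕ).Prime := ⟨ℓ.2⟩
  haveI : NeZero (ℓ : ℕ) := ⟨ℓ.2.ne_zero⟩
  have hℓ0 : (ℓ : ℕ) ≠ 0 := ℓ.2.ne_zero
  have hDR : (D : ℝ) ≠ 0 := Nat.cast_ne_zero.mpr (NeZero.ne D)
  have hcop : Nat.Coprime ℓ D := (Nat.Prime.coprime_iff_not_dvd ℓ.2).mpr hℓD
  have hiff : (ℓ : ℕ) ∣ L * D ↔ (ℓ : ℕ) ∣ L :=
    ⟨fun h => (ℓ.2.dvd_mul.mp h).resolve_right hℓD, fun h => h.mul_right D⟩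
  let π := commEquiv (L := L) hcop hiff
  have hu : ∀ p : HeckeIdx L ℓ × ZMod D, ∃ t : ℤ,
      twistBeta D (π p).1 * heckeBeta (L * D) ℓ (π p).2
        = gamma0GL L (transl L t) * (heckeBeta L ℓ p.1 * twistBeta D p.2) := by
    rintro ⟨⟨_ | j, h⟩, b'⟩
    · obtain ⟨t, ht⟩ : (D : ℤ) ∣ ((b' * (ℓ : ℕ)).val : ℤ) - (ℓ : ℕ) * (b'.val : ℤ) := by
        rw [← ZMod.intCast_zmod_eq_zero_iff_dvd]
        push_cast
        rw [ZMod.natCast_zmod_val, ZMod.natCast_zmod_val]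
        ring
      have htR := congrArg (Int.cast : ℤ → ℝ) ht
      push_cast at htR
      refine ⟨t, gamma0_ext_real (N := L) rfl fun u v => ?_⟩
      rw [gamma0GL_transl]
      fin_cases u <;> fin_cases v <;>
        simp [π, commEquiv, heckeBeta, twistBeta, Matrix.mul_apply, Fin.sum_univ_two, hℓ0,
          -ZMod.natCast_val]
      field_simp
      linear_combination htR
    · set j' : ZMod ℓ := j - shiftK D ℓ b' with hj'
      obtain ⟨t, ht⟩ : ((ℓ : ℕ) : ℤ) ∣ shiftK D ℓ b' + (j'.val : ℤ) - j.val := by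
        rw [← ZMod.intCast_zmod_eq_zero_iff_dvd]
        push_cast
        rw [ZMod.natCast_zmod_val, ZMod.natCast_zmod_val, hj']
        ring
      have hkR := congrArg (Int.cast : ℤ → ℝ) (shiftK_spec hcop b')
      push_cast at hkR
      have htR := congrArg (Int.cast : ℤ → ℝ) ht
      push_cast at htR
      refine ⟨t, gamma0_ext_real (N := L) rfl fun u v => ?_⟩
      rw [gamma0GL_transl]
      fin_cases u <;> fin_cases v <;>
        simp [π, commEquiv, heckeBeta, twistBeta, Matrix.mul_apply, Fin.sum_univ_two, hℓ0, ← hj',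
          -ZMod.natCast_val]
      field_simp
      linear_combination hkR + (D : ℝ) * htR
  choose t ht using hu
  have h1 := heckeOpData hD ψ ℓ.2 hℓD
  have h2 := twistOpData hD ψ
  have h3 := trivOpData A (L * D) ℓ
  have hP1 := opData_prod h1 h2 (heckeBeta_twistBeta_injective hℓD)
  have hP2 := opData_prod h2 h3 (fun c p q e => by
    obtain ⟨p, rfl⟩ := π.surjective p
    obtain ⟨q, rfl⟩ := π.surjective q
    rw [ht, ht] at e
    refine congrArg π (heckeBeta_twistBeta_injective hℓD ((transl L (t p))⁻¹ * c * transl L (t q))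
      p q ?_)
    rw [map_mul, map_mul, map_inv, mul_assoc, mul_assoc, ← e, inv_mul_cancel_left])
  have key : hP1.op M = hP2.op M := by
    refine hP1.op_eq_of_equiv hP2 π (fun p => transl L (t p)) ht fun p => ?_
    rw [chr_transl, mul_one]
    obtain ⟨⟨_ | j, h⟩, b'⟩ := p
    · simp [π, commEquiv, heckeWeight, map_mul, mul_comm]
    · have hinv := inv_apply_mul_apply ℓ.2 hℓD ψ
      have : ψ ((ℓ : ℕ) : ZMod D)⁻¹ = ψ⁻¹ ((ℓ : ℕ) : ZMod D) := by
        have h1' : ψ ((ℓ : ℕ) : ZMod D) * ψ (((ℓ : ℕ) : ZMod D)⁻¹) = 1 := by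
          rw [← map_mul, ZMod.coe_mul_inv_eq_one _ hcop, map_one]
        linear_combination (ψ⁻¹ ((ℓ : ℕ) : ZMod D)) * h1'
          - ψ (((ℓ : ℕ) : ZMod D)⁻¹) * hinv
      simp [π, commEquiv, heckeWeight, map_mul, this, mul_comm]
  rw [heckeT'_eq hD ψ M hℓD]
  show homOfCoh M (h2.op M (h1.op M x)) = heckeHom (L * D) A M ℓ (homOfCoh M (h2.op M x))
  rw [← homOfCoh_op]
  exact congrArg (homOfCoh M) ((LinearMap.congr_fun (op_comp h1 h2 hP1) x).trans
    ((LinearMap.congr_fun key x).trans (LinearMap.congr_fun (op_comp h2 h3 hP2) x).symm))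

end Fermat.Agent.Ribet.Twisted
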