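/-
Injectivity of the twisting operator in characteristic zero, for a nebentype which is primitive at
every prime of `D`. Fourier analysis on `ZMod D` shows that a class in the kernel is killed by the
product of the differences along the translations by `D / q`, and equivariance under `Γ₀(L)`
removes these differences one prime at a time.
-/
import Fermat.Agent.Ribet.Twisted.TwistOp
import Fermat.Agent.Ribet.Twisted.TwistDefs

set_option autoImplicit false

noncomputable section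

namespace Fermat.Agent.Ribet.Twisted

open CongruenceSubgroup
open scoped MatrixGroups
open Fermat.Agent.HeckeCohom (gamma0GL gamma0GL_entry dvd_apply_one_zero det_eq_one)

section Fourier

variable {D : ℕ} [NeZero D]

/-- A character primitive at every prime, even after squaring, is primitive. -/
theorem IsPrimitiveSq.isPrimitive {A : Type*} [CommRing A] {ψ : DirichletCharacter A D}
    (hψ : IsPrimitiveSq ψ) : ψ.IsPrimitive := by
  rw [DirichletCharacter.isPrimitive_def]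
  by_contra hne
  have hdvd := ψ.conductor_dvd_level
  have hlt : ψ.conductor < D := lt_of_le_of_ne (Nat.le_of_dvd (NeZero.pos D) hdvd) hne
  obtain ⟨k, hk⟩ := hdvd
  have hk2 : k ≠ 1 := fun h => hne (by rw [h, mul_one] at hk; exact hk.symm)
  obtain ⟨q, hq, hqk⟩ := Nat.exists_prime_and_dvd hk2
  have hqD : q ∣ D := hk ▸ hqk.mul_left _
  obtain ⟨d, hd1, hdu, hdne⟩ := hψ q hq hqD
  obtain ⟨h, χ₀, hχ₀⟩ := DirichletCharacter.factorsThrough_conductor ψ
  apply hdne
  have hcq : ψ.conductor ∣ D / q := by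
    obtain ⟨k', rfl⟩ := hqk
    exact ⟨k', Nat.div_eq_of_eq_mul_right hq.pos (hk.trans (by ring))⟩
  have hdc : ((d : ℤ) : ZMod ψ.conductor) = 1 := by
    have := congrArg (ZMod.castHom hcq (ZMod ψ.conductor)) hd1
    rwa [map_intCast, map_one] at this
  have e : DirichletCharacter.changeLevel h χ₀ (hdu.unit : ZMod D) = 1 := by
    rw [DirichletCharacter.changeLevel_eq_cast_of_dvd _ h, IsUnit.unit_spec, ZMod.cast_intCast h,
      hdc, map_one]
  rw [hχ₀, ← hdu.unit_spec, e, one_pow]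

/-- Difference along a translation. -/
def shiftDiff {R : Type*} [CommRing R] (t : ZMod D) (F : ZMod D → R) : ZMod D → R :=
  fun a => F a - F (a + t)

theorem sum_shiftDiff {R : Type*} [CommRing R] (e : AddChar (ZMod D) R) (m t : ZMod D)
    (F : ZMod D → R) :
    ∑ a, e (-(m * a)) * shiftDiff t F a = (1 - e (m * t)) * ∑ a, e (-(m * a)) * F a := by
  simp only [shiftDiff, mul_sub, Finset.sum_sub_distrib, sub_mul, one_mul, Finset.mul_sum]
  congr 1
  refine Fintype.sum_equiv (Equiv.addRight t) _ _ fun a => ?_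
  rw [Equiv.coe_addRight, ← mul_assoc, ← e.map_add_eq_mul]
  congr 2
  ring

theorem sum_foldr_shiftDiff {R : Type*} [CommRing R] (e : AddChar (ZMod D) R) (m : ZMod D)
    (F : ZMod D → R) (ts : List (ZMod D)) :
    ∑ a, e (-(m * a)) * ts.foldr shiftDiff F a
      = (ts.map fun t => 1 - e (m * t)).prod * ∑ a, e (-(m * a)) * F a := by
  induction ts with
  | nil => simp
  | cons t ts ih => rw [List.foldr_cons, sum_shiftDiff, ih, List.map_cons, List.prod_cons, mul_assoc]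

theorem eq_zero_of_transform {R : Type*} [CommRing R] [IsDomain R] [CharZero R]
    {e : AddChar (ZMod D) R} (he : e.IsPrimitive) (F : ZMod D → R)
    (h : ∀ m, ∑ a, e (-(m * a)) * F a = 0) : F = 0 := by
  funext x
  have h1 : ∑ m, e (m * x) * ∑ a, e (-(m * a)) * F a = 0 :=
    Finset.sum_eq_zero fun m _ => by rw [h m, mul_zero]
  simp only [Finset.mul_sum, ← mul_assoc, ← e.map_add_eq_mul] at h1
  rw [Finset.sum_comm] at h1
  simp only [← Finset.sum_mul, show ∀ m a : ZMod D, m * x + -(m * a) = m * (x - a) from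
    fun m a => by ring, AddChar.sum_mulShift _ he] at h1
  simp [sub_eq_zero] at h1
  exact h1.resolve_left (NeZero.ne D)

/-- A primitive character has a nonzero Gauss sum. -/
theorem gaussSum_ne_zero_of_primitive {R : Type*} [CommRing R] [IsDomain R] [CharZero R]
    {e : AddChar (ZMod D) R} (he : e.IsPrimitive) {χ : DirichletCharacter R D}
    (hχ : χ.IsPrimitive) : gaussSum χ e ≠ 0 := by
  intro h0
  have hz : (fun b : ZMod D => χ b) = 0 := by
    refine eq_zero_of_transform he _ fun m => ?_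
    have h := gaussSum_mulShift_of_isPrimitive e hχ (-m)
    rw [h0, mul_zero] at h
    refine Eq.trans (Finset.sum_congr rfl fun b _ => ?_) h
    rw [AddChar.mulShift_apply, neg_mul, mul_comm]
  exact one_ne_zero (α := R) (by simpa using congrFun hz 1)

theorem foldr_shiftDiff_eq_zero_of_addChar {R : Type*} [CommRing R] [IsDomain R] [CharZero R]
    {e : AddChar (ZMod D) R} (he : e.IsPrimitive) {χ : DirichletCharacter R D}
    (hχ : χ.IsPrimitive) (ts : List (ZMod D))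
    (hts : ∀ q : ℕ, q.Prime → q ∣ D → ((D / q : ℕ) : ZMod D) ∈ ts) (F : ZMod D → R)
    (hF : ∀ a, ∑ b, χ b * F (a + b) = 0) : ts.foldr shiftDiff F = 0 := by
  have hshift : ∀ m, ∑ b, χ b * e (m * b) = χ⁻¹ m * gaussSum χ e := fun m =>
    gaussSum_mulShift_of_isPrimitive e hχ m
  have hg := gaussSum_ne_zero_of_primitive he hχ
  have hFR : ∀ m, IsUnit m → ∑ a, e (-(m * a)) * F a = 0 := by
    intro m hm
    have h1 : ∑ a, e (-(m * a)) * ∑ b, χ b * F (a + b) = 0 :=
      Finset.sum_eq_zero fun a _ => by rw [hF a, mul_zero]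
    have h2 : ∑ a, e (-(m * a)) * ∑ b, χ b * F (a + b)
        = (∑ b, χ b * e (m * b)) * ∑ a, e (-(m * a)) * F a := by
      rw [Finset.sum_mul]
      simp only [Finset.mul_sum]
      rw [Finset.sum_comm]
      refine Finset.sum_congr rfl fun b _ => Fintype.sum_equiv (Equiv.addRight b) _ _ fun a => ?_
      rw [Equiv.coe_addRight, show -(m * a) = m * b + -(m * (a + b)) by ring, e.map_add_eq_mul]
      ring
    rw [h2, hshift] at h1
    exact (mul_eq_zero.mp h1).resolve_left (mul_ne_zero (IsUnit.ne_zero (hm.map χ⁻¹)) hg)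
  refine eq_zero_of_transform he _ fun m => ?_
  rw [sum_foldr_shiftDiff]
  by_cases hm : IsUnit m
  · rw [hFR m hm, mul_zero]
  · have hcop : ¬ m.val.Coprime D := fun h => hm (by
      rw [← ZMod.natCast_zmod_val m]; exact (ZMod.isUnit_iff_coprime _ _).mpr h)
    obtain ⟨q, hq, hqm, hqD⟩ := Nat.Prime.not_coprime_iff_dvd.mp hcop
    have hmt : m * ((D / q : ℕ) : ZMod D) = 0 := by
      obtain ⟨k, hk⟩ := hqm
      rw [← ZMod.natCast_zmod_val m, hk, ← Nat.cast_mul, mul_right_comm, Nat.mul_div_cancel' hqD]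
      simp
    rw [List.prod_eq_zero (List.mem_map.mpr ⟨_, hts q hq hqD, by rw [hmt]; simp⟩), zero_mul]

/-- A function orthogonal to all translates of a primitive character is killed by the product of
the differences along `D / q`. -/
theorem foldr_shiftDiff_eq_zero {K : Type*} [Field K] [CharZero K]
    {ψ : DirichletCharacter K D} (hψ : ψ.IsPrimitive) (ts : List (ZMod D))
    (hts : ∀ q : ℕ, q.Prime → q ∣ D → ((D / q : ℕ) : ZMod D) ∈ ts) (F : ZMod D → K)
    (hF : ∀ a, ∑ b, ψ b * F (a + b) = 0) : ts.foldr shiftDiff F = 0 := by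
  set j : K →+* AlgebraicClosure K := algebraMap K (AlgebraicClosure K) with hj
  haveI : CharZero (AlgebraicClosure K) := charZero_of_injective_ringHom j.injective
  haveI : NeZero (D : AlgebraicClosure K) := ⟨Nat.cast_ne_zero.mpr (NeZero.ne D)⟩
  obtain ⟨ζ, hζ⟩ := HasEnoughRootsOfUnity.exists_primitiveRoot (AlgebraicClosure K) D
  have hχ : DirichletCharacter.IsPrimitive (ψ.ringHomComp j) := by
    rw [DirichletCharacter.isPrimitive_def]
    refine le_antisymm (Nat.le_of_dvd (NeZero.pos D) (DirichletCharacter.conductor_dvd_level _)) ?_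
    have h := DirichletCharacter.factorsThrough_conductor (χ := ψ.ringHomComp j)
    have h' : ψ.FactorsThrough (DirichletCharacter.conductor (ψ.ringHomComp j)) := by
      have hd := h.dvd
      rw [DirichletCharacter.factorsThrough_iff_ker_unitsMap hd] at h ⊢
      intro u hu
      have := h hu
      rw [MonoidHom.mem_ker, Units.ext_iff] at this ⊢
      exact j.injective (by simpa using this)
    exact hψ.symm.le.trans (Nat.sInf_le h')
  have h := foldr_shiftDiff_eq_zero_of_addChar (AddChar.zmodChar_primitive_of_primitive_root D hζ)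
    hχ ts hts (fun a => j (F a)) fun a => by
      rw [← map_zero j, ← hF a, map_sum]
      simp [MulChar.ringHomComp_apply]
  have hmap : ∀ ts : List (ZMod D), (fun a => j (ts.foldr shiftDiff F a))
      = ts.foldr shiftDiff (fun a => j (F a)) := by
    intro ts
    induction ts with
    | nil => rfl
    | cons t ts ih => funext a; simp [shiftDiff, ← ih]
  funext a
  exact j.injective (((congrFun (hmap ts) a).trans (congrFun h a)).trans (map_zero j).symm)

end Fourier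

section Descent

variable {L D : ℕ}

/-- `T ^ t`. -/
def upT (t : ℤ) : SL(2, ℤ) := ⟨!![1, t; 0, 1], by simp [Matrix.det_fin_two_of]⟩

/-- `(1 0; y 1)`. -/
def lowT (y : ℤ) : SL(2, ℤ) := ⟨!![1, 0; y, 1], by simp [Matrix.det_fin_two_of]⟩

@[simp] theorem coe_upT (t : ℤ) : (upT t : Matrix (Fin 2) (Fin 2) ℤ) = !![1, t; 0, 1] := rfl

@[simp] theorem coe_lowT (y : ℤ) : (lowT y : Matrix (Fin 2) (Fin 2) ℤ) = !![1, 0; y, 1] := rfl

theorem mapGL_entry (g : SL(2, ℤ)) (i j : Fin 2) :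
    ((Matrix.SpecialLinearGroup.mapGL ℝ g : GL (Fin 2) ℝ) : Matrix (Fin 2) (Fin 2) ℝ) i j
      = ((g i j : ℤ) : ℝ) := by
  simp

theorem upT_add (s t : ℤ) : upT (s + t) = upT s * upT t := by
  apply Subtype.ext
  rw [Matrix.SpecialLinearGroup.coe_mul]
  ext i j
  fin_cases i <;> fin_cases j <;> simp [upT, Matrix.mul_apply, Fin.sum_univ_two, add_comm]

theorem upT_zero : upT 0 = 1 := by
  apply Subtype.ext
  ext i j
  fin_cases i <;> fin_cases j <;> simp [upT]

theorem upT_inv (t : ℤ) : (upT t)⁻¹ = upT (-t) :=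
  inv_eq_of_mul_eq_one_right (by rw [← upT_add, add_neg_cancel, upT_zero])

/-- Reduction modulo `n`. -/
def redSL (n : ℕ) : SL(2, ℤ) →* Matrix.SpecialLinearGroup (Fin 2) (ZMod n) :=
  Matrix.SpecialLinearGroup.map (Int.castRingHom (ZMod n))

theorem redSL_eq_one_iff {n : ℕ} {g : SL(2, ℤ)} :
    redSL n g = 1 ↔ (n : ℤ) ∣ g 0 0 - 1 ∧ (n : ℤ) ∣ g 0 1 ∧ (n : ℤ) ∣ g 1 0 ∧ (n : ℤ) ∣ g 1 1 - 1 := by
  simp only [← ZMod.intCast_zmod_eq_zero_iff_dvd, Int.cast_sub, Int.cast_one, sub_eq_zero]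
  constructor
  · intro h
    have h' := fun i j => congrArg (fun M : Matrix.SpecialLinearGroup (Fin 2) (ZMod n) => M i j) h
    exact ⟨by simpa [redSL] using h' 0 0, by simpa [redSL] using h' 0 1,
      by simpa [redSL] using h' 1 0, by simpa [redSL] using h' 1 1⟩
  · rintro ⟨h00, h01, h10, h11⟩
    apply Subtype.ext
    ext i j
    fin_cases i <;> fin_cases j <;> simp [redSL, h00, h01, h10, h11]

theorem redSL_eq_one_of_mul {m n : ℕ} (h : Nat.Coprime m n) {g : SL(2, ℤ)} (hm : redSL m g = 1)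
    (hn : redSL n g = 1) : redSL (m * n) g = 1 := by
  rw [redSL_eq_one_iff] at *
  have key : ∀ x : ℤ, (m : ℤ) ∣ x → (n : ℤ) ∣ x → ((m * n : ℕ) : ℤ) ∣ x := fun x h1 h2 => by
    push_cast
    exact (Nat.isCoprime_iff_coprime.mpr h).mul_dvd h1 h2
  exact ⟨key _ hm.1 hn.1, key _ hm.2.1 hn.2.1, key _ hm.2.2.1 hn.2.2.1, key _ hm.2.2.2 hn.2.2.2⟩

theorem redSL_upT {n : ℕ} {t : ℤ} (h : (n : ℤ) ∣ t) : redSL n (upT t) = 1 := by
  rw [redSL_eq_one_iff]
  simpa [upT] using h

theorem redSL_lowT {n : ℕ} {t : ℤ} (h : (n : ℤ) ∣ t) : redSL n (lowT t) = 1 := by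
  rw [redSL_eq_one_iff]
  simpa [lowT] using h

/-- `Γ₀(N) ∩ Γ(D)`. -/
def kerGrp (N D : ℕ) : Subgroup SL(2, ℤ) := Gamma0 N ⊓ (redSL D).ker

variable {K : Type*} [Field K]

/-- Invariance under `kerGrp` and equivariance under the elements concentrated at one prime. -/
structure IsLocallyEquivariant (N : ℕ) (ψ : DirichletCharacter K D) (ts : List ℕ)
    (f : SL(2, ℤ) → K) : Prop where
  inv : ∀ g₀ ∈ kerGrp N D, ∀ g, f (g₀ * g) = f g
  equiv : ∀ q ∈ ts, ∀ g₀ : SL(2, ℤ), g₀ ∈ Gamma0 N → (D : ℤ) ∣ g₀ 0 1 → redSL (D / q) g₀ = 1 →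
    ∀ g, f (g₀ * g) = ψ ((g₀ 1 1 : ℤ) : ZMod D) ^ 2 * f g

/-- The difference along `T ^ t`. -/
def leftDiff (t : ℤ) (f : SL(2, ℤ) → K) : SL(2, ℤ) → K := fun g => f g - f (upT t * g)

theorem upT_mem_Gamma0 (N : ℕ) (t : ℤ) : upT t ∈ Gamma0 N := Gamma0_mem.mpr (by simp [upT])

theorem IsLocallyEquivariant.leftDiff [NeZero D] (hsq : Squarefree D) {N : ℕ}
    {ψ : DirichletCharacter K D} {q₀ : ℕ} {ts : List ℕ} {f : SL(2, ℤ) → K}
    (hq₀ : q₀.Prime) (hq₀D : q₀ ∣ D) (hts : ∀ q ∈ ts, q.Prime ∧ q ∣ D ∧ q ≠ q₀)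
    (h : IsLocallyEquivariant N ψ (q₀ :: ts) f) :
    IsLocallyEquivariant N ψ ts (leftDiff ((D / q₀ : ℕ) : ℤ) f) where
  inv g₀ hg₀ g := by
    set T := upT ((D / q₀ : ℕ) : ℤ)
    have hmem : T * g₀ * T⁻¹ ∈ kerGrp N D := by
      refine Subgroup.mem_inf.mpr ⟨?_, ?_⟩
      · exact mul_mem (mul_mem (upT_mem_Gamma0 N _) (Subgroup.mem_inf.mp hg₀).1)
          (inv_mem (upT_mem_Gamma0 N _))
      · exact (MonoidHom.normal_ker (redSL D)).conj_mem _ (Subgroup.mem_inf.mp hg₀).2 T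
    show f (g₀ * g) - f (T * (g₀ * g)) = f g - f (T * g)
    rw [h.inv g₀ hg₀ g, show T * (g₀ * g) = T * g₀ * T⁻¹ * (T * g) by group, h.inv _ hmem]
  equiv q hq g₀ hg₀ hb hred g := by
    obtain ⟨hqp, hqD, hne⟩ := hts q hq
    set T := upT ((D / q₀ : ℕ) : ℤ)
    have hqdiv : q ∣ D / q₀ := by
      refine Nat.dvd_div_of_mul_dvd ?_
      exact ((Nat.coprime_primes hq₀ hqp).mpr hne.symm).mul_dvd_of_dvd_of_dvd hq₀D hqD
    have hTq : redSL q T = 1 := redSL_upT (Int.natCast_dvd_natCast.mpr hqdiv)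
    have hκ : T * g₀ * T⁻¹ * g₀⁻¹ ∈ kerGrp N D := by
      refine Subgroup.mem_inf.mpr ⟨mul_mem (mul_mem (mul_mem (upT_mem_Gamma0 N _) hg₀)
        (inv_mem (upT_mem_Gamma0 N _))) (inv_mem hg₀), MonoidHom.mem_ker.mpr ?_⟩
      have hcop : Nat.Coprime q (D / q) := by
        refine (Nat.squarefree_mul_iff.mp ?_).1
        rwa [Nat.mul_div_cancel' hqD]
      have := redSL_eq_one_of_mul hcop (g := T * g₀ * T⁻¹ * g₀⁻¹)
        (by simp only [map_mul, map_inv, hTq]; group) (by simp only [map_mul, map_inv, hred]; group)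
      rwa [Nat.mul_div_cancel' hqD] at this
    show f (g₀ * g) - f (T * (g₀ * g)) = _ * (f g - f (T * g))
    rw [h.equiv q (List.mem_cons_of_mem _ hq) g₀ hg₀ hb hred g,
      show T * (g₀ * g) = T * g₀ * T⁻¹ * g₀⁻¹ * (g₀ * (T * g)) by group, h.inv _ hκ,
      h.equiv q (List.mem_cons_of_mem _ hq) g₀ hg₀ hb hred (T * g), mul_sub]

/-- An equivariant function invariant under the translations at one prime vanishes. -/
theorem IsLocallyEquivariant.eq_zero_of_invariant [NeZero D] (hsq : Squarefree D) {N : ℕ}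
    {ψ : DirichletCharacter K D} (hψ : IsPrimitiveSq ψ) {q : ℕ} {ts : List ℕ} {f : SL(2, ℤ) → K}
    (hq : q.Prime) (hqD : q ∣ D) (hqN : ¬ q ∣ N) (h : IsLocallyEquivariant N ψ (q :: ts) f)
    (hT : ∀ g, f (upT ((D / q : ℕ) : ℤ) * g) = f g) : f = 0 := by
  haveI : Fact q.Prime := ⟨hq⟩
  set t : ℕ := D / q with ht
  have htD : q * t = D := Nat.mul_div_cancel' hqD
  have hcop : Nat.Coprime q t := (Nat.squarefree_mul_iff.mp (htD.symm ▸ hsq)).1
  have hTz : ∀ (k : ℤ) g, f (upT ((t : ℤ) * k) * g) = f g := by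
    intro k
    induction k using Int.induction_on with
    | zero => intro g; simp [upT_zero]
    | succ n ih =>
      intro g
      rw [mul_add, mul_one, upT_add, mul_assoc, ih, hT]
    | pred n ih =>
      intro g
      have := hT (upT ((t : ℤ) * (-(n : ℤ) - 1)) * g)
      rw [← mul_assoc, ← upT_add] at this
      rw [← this, show (t : ℤ) + (t : ℤ) * (-(n : ℤ) - 1) = (t : ℤ) * -(n : ℤ) by ring, ih]
  have hlow : ∀ (k : ℤ) g, f (lowT ((N : ℤ) * t * k) * g) = f g := by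
    intro k g
    rw [h.equiv q List.mem_cons_self _ (Gamma0_mem.mpr (by simp [lowT])) (by simp [lowT])
      (redSL_lowT (by rw [← ht]; exact ⟨N * k, by ring⟩))]
    simp [lowT]
  obtain ⟨d, hd1, hdu, hdne⟩ := hψ q hq hqD
  have hδ : ((d : ℤ) : ZMod q) ≠ 0 := by
    have h' := hdu.map (ZMod.castHom hqD (ZMod q))
    rw [map_intCast] at h'
    exact h'.ne_zero
  have ht0 : (t : ZMod q) ≠ 0 := fun h0 => by
    rw [ZMod.natCast_eq_zero_iff] at h0
    exact hq.coprime_iff_not_dvd.mp hcop h0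
  have hN0 : (N : ZMod q) ≠ 0 := fun h0 => hqN ((ZMod.natCast_eq_zero_iff _ _).mp h0)
  set δ : ZMod q := ((d : ℤ) : ZMod q) with hδdef
  set x : ℤ := (t : ℤ) * ((((δ⁻¹ - 1) / δ) / (t : ZMod q)).val : ℤ) with hx
  set z : ℤ := (t : ℤ) * ((((δ - 1) / δ) / (t : ZMod q)).val : ℤ) with hz
  set y : ℤ := (N : ℤ) * t * (((δ / ((N : ZMod q) * t))).val : ℤ) with hy
  set w : ℤ := (N : ℤ) * t * (((-1 / ((N : ZMod q) * t))).val : ℤ) with hw
  have hxq : (x : ZMod q) = (δ⁻¹ - 1) / δ := by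
    rw [hx]; push_cast; rw [ZMod.natCast_zmod_val]; field_simp
  have hzq : (z : ZMod q) = (δ - 1) / δ := by
    rw [hz]; push_cast; rw [ZMod.natCast_zmod_val]; field_simp
  have hyq : (y : ZMod q) = δ := by
    rw [hy]; push_cast; rw [ZMod.natCast_zmod_val]; field_simp
  have hwq : (w : ZMod q) = -1 := by
    rw [hw]; push_cast; rw [ZMod.natCast_zmod_val]; field_simp
  set g₀ : SL(2, ℤ) := upT x * lowT y * upT z * lowT w with hg₀
  have hgN : g₀ ∈ Gamma0 N :=
    mul_mem (mul_mem (mul_mem (upT_mem_Gamma0 N _) (Gamma0_mem.mpr (by simp [lowT, hy])))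
      (upT_mem_Gamma0 N _)) (Gamma0_mem.mpr (by simp [lowT, hw]))
  have hgt : redSL t g₀ = 1 := by
    rw [hg₀, map_mul, map_mul, map_mul, redSL_upT ⟨_, hx⟩, redSL_upT ⟨_, hz⟩,
      redSL_lowT ((Dvd.intro_left _ rfl : (t : ℤ) ∣ (N : ℤ) * t).mul_right _),
      redSL_lowT ((Dvd.intro_left _ rfl : (t : ℤ) ∣ (N : ℤ) * t).mul_right _)]
    simp
  have h01 : g₀ 0 1 = (1 + x * y) * z + x := by
    simp [hg₀, Matrix.mul_apply, Fin.sum_univ_two]
  have h11 : g₀ 1 1 = y * z + 1 := by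
    simp [hg₀, Matrix.mul_apply, Fin.sum_univ_two]
  have hb : (D : ℤ) ∣ g₀ 0 1 := by
    rw [← htD]
    push_cast
    refine (Nat.isCoprime_iff_coprime.mpr hcop).mul_dvd ?_ ((redSL_eq_one_iff.mp hgt).2.1)
    rw [← ZMod.intCast_zmod_eq_zero_iff_dvd, h01]
    push_cast
    rw [hxq, hyq, hzq]
    field_simp
    ring
  have hd : ((g₀ 1 1 : ℤ) : ZMod D) = ((d : ℤ) : ZMod D) := by
    rw [ZMod.intCast_eq_intCast_iff_dvd_sub, ← htD]
    push_cast
    refine (Nat.isCoprime_iff_coprime.mpr hcop).mul_dvd ?_ ?_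
    · rw [← ZMod.intCast_eq_intCast_iff_dvd_sub, h11]
      push_cast
      rw [hyq, hzq, ← hδdef]
      field_simp
      ring
    · have h1 : (t : ℤ) ∣ g₀ 1 1 - 1 := (redSL_eq_one_iff.mp hgt).2.2.2
      have h2 : (t : ℤ) ∣ d - 1 := by
        rw [← ZMod.intCast_zmod_eq_zero_iff_dvd]
        push_cast
        rw [hd1, sub_self]
      simpa using h2.sub h1
  funext g
  have e1 : f (g₀ * g) = f g := by
    rw [hg₀, mul_assoc, mul_assoc, mul_assoc, hx, hTz, hy, hlow, hz, hTz, hw, hlow]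
  rw [h.equiv q List.mem_cons_self g₀ hgN hb hgt g, hd] at e1
  by_contra hne
  exact hdne (mul_right_cancel₀ hne (e1.trans (one_mul _).symm))

theorem eq_zero_of_foldr [NeZero D] (hsq : Squarefree D) {N : ℕ} {ψ : DirichletCharacter K D}
    (hψ : IsPrimitiveSq ψ) (ts : List ℕ) (hts : ∀ q ∈ ts, q.Prime ∧ q ∣ D ∧ ¬ q ∣ N)
    (hnd : ts.Nodup) (f : SL(2, ℤ) → K) (h : IsLocallyEquivariant N ψ ts f)
    (h0 : ts.foldl (fun f (q : ℕ) => leftDiff ((D / q : ℕ) : ℤ) f) f = 0) : f = 0 := by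
  induction ts generalizing f with
  | nil => exact h0
  | cons q ts ih =>
    obtain ⟨hq, hqD, hqN⟩ := hts q List.mem_cons_self
    rw [List.nodup_cons] at hnd
    have h1 := h.leftDiff hsq hq hqD fun q' hq' =>
      ⟨(hts q' (List.mem_cons_of_mem _ hq')).1, (hts q' (List.mem_cons_of_mem _ hq')).2.1,
        fun e => hnd.1 (e ▸ hq')⟩
    have h2 := ih (fun q' hq' => hts q' (List.mem_cons_of_mem _ hq')) hnd.2 _ h1
      (by rwa [List.foldl_cons] at h0)
    exact h.eq_zero_of_invariant hsq hψ hq hqD hqN fun g =>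
      (sub_eq_zero.mp (congrFun h2 g)).symm

/-- `leftDiff` along the orbit of the translations is `shiftDiff`. -/
theorem foldl_leftDiff [NeZero D] (ts : List ℕ) (F : SL(2, ℤ) → K) (g : SL(2, ℤ))
    (hF : ∀ (s t : ℤ), (s : ZMod D) = (t : ZMod D) → ∀ g, F (upT s * g) = F (upT t * g)) :
    (fun a : ZMod D => ts.foldl (fun f (q : ℕ) => leftDiff ((D / q : ℕ) : ℤ) f) F (upT a.val * g))
      = (ts.map fun q : ℕ => ((D / q : ℕ) : ZMod D)).reverse.foldr shiftDiff
          (fun a => F (upT a.val * g)) := by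
  induction ts generalizing F with
  | nil => rfl
  | cons q ts ih =>
    rw [List.foldl_cons, List.map_cons, List.reverse_cons, List.foldr_append, ih]
    · congr 1
      funext a
      show F _ - F _ = F _ - F _
      congr 1
      rw [← mul_assoc, ← upT_add]
      exact hF _ _ (by
        simp only [Int.cast_add, Int.cast_natCast, ZMod.natCast_zmod_val]
        rw [add_comm]) _
    · intro s t hst g
      show F _ - F _ = F _ - F _
      rw [← mul_assoc, ← mul_assoc, ← upT_add, ← upT_add]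
      exact congrArg₂ (· - ·) (hF s t hst g) (hF _ _ (by rw [Int.cast_add, Int.cast_add, hst]) g)

/-- An equivariant function orthogonal to the character along the translations vanishes. -/
theorem eq_zero_of_sum_eq_zero [NeZero D] [CharZero K] (hsq : Squarefree D) {N : ℕ}
    {ψ : DirichletCharacter K D} (hψ : IsPrimitiveSq ψ) (hND : Nat.Coprime D N)
    (f : SL(2, ℤ) → K) (h : IsLocallyEquivariant N ψ D.primeFactors.toList f)
    (hper : ∀ (s t : ℤ), (s : ZMod D) = (t : ZMod D) → ∀ g, f (upT s * g) = f (upT t * g))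
    (hsum : ∀ g, ∑ b : ZMod D, ψ b * f (upT b.val * g) = 0) : f = 0 := by
  -- Fourier analysis
  set ts := D.primeFactors.toList with hts
  have hts' : ∀ q ∈ ts, q.Prime ∧ q ∣ D := fun q hq => by
    rw [hts, Finset.mem_toList, Nat.mem_primeFactors] at hq
    exact ⟨hq.1, hq.2.1⟩
  refine eq_zero_of_foldr hsq hψ ts (fun q hq => ⟨(hts' q hq).1, (hts' q hq).2, fun hqN =>
    (hts' q hq).1.not_dvd_one ((Nat.Coprime.eq_one_of_dvd (hND.coprime_dvd_left (hts' q hq).2)
      hqN) ▸ dvd_rfl)⟩) (Finset.nodup_toList _) f h ?_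
  funext g
  have e := congrFun (foldl_leftDiff ts f g hper) 0
  have hmem : ∀ q : ℕ, q.Prime → q ∣ D → q ∈ ts := fun q hq hqD => by
    rw [hts, Finset.mem_toList, Nat.mem_primeFactors]
    exact ⟨hq, hqD, NeZero.ne D⟩
  rw [foldr_shiftDiff_eq_zero hψ.isPrimitive _ (fun q hq hqD => List.mem_reverse.mpr
    (List.mem_map.mpr ⟨q, hmem q hq hqD, rfl⟩))] at e
  · simpa [upT_zero] using e
  · intro a
    refine Eq.trans (Finset.sum_congr rfl fun b _ => ?_) (hsum (upT a.val * g))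
    rw [← mul_assoc, ← upT_add]
    congr 1
    exact hper _ _ (by push_cast; simp [add_comm]) g

end Descent

section Injective

variable {L D : ℕ} {K : Type*} [Field K]

/-- `g ↦ diag(D, 1)⁻¹ g diag(D, 1)`. -/
def downConj (D : ℕ) : SL(2, ℤ) →* GL (Fin 2) ℝ :=
  (MulAut.conj (ModularForm.heckeDiagMatrix D)⁻¹).toMonoidHom.comp
    (Matrix.SpecialLinearGroup.mapGL ℝ)

theorem exists_eq_downConj [NeZero D] (N : ℕ) (g : SL(2, ℤ)) (hb : (D : ℤ) ∣ g 0 1)
    (hc : (N : ℤ) ∣ g 1 0 * D) :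
    ∃ c : Gamma0 N, gamma0GL N c = downConj D g ∧ (c : SL(2, ℤ)) 1 1 = g 1 1 := by
  obtain ⟨k, hk⟩ := hb
  let M : SL(2, ℤ) := ⟨!![g 0 0, k; g 1 0 * D, g 1 1], by
    rw [Matrix.det_fin_two_of]
    linear_combination det_eq_one g + g 1 0 * hk⟩
  have hM : M ∈ Gamma0 N := Gamma0_mem.mpr ((ZMod.intCast_zmod_eq_zero_iff_dvd _ _).mpr hc)
  refine ⟨⟨M, hM⟩, ?_, rfl⟩
  show _ = (ModularForm.heckeDiagMatrix D)⁻¹ * Matrix.SpecialLinearGroup.mapGL ℝ g
    * (ModularForm.heckeDiagMatrix D)⁻¹⁻¹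
  rw [inv_inv, mul_assoc, eq_inv_mul_iff_mul_eq]
  have hkR := congrArg (Int.cast : ℤ → ℝ) hk
  push_cast at hkR
  refine gamma0_ext_real (N := N) rfl fun i j => ?_
  fin_cases i <;> fin_cases j <;>
    simp [Matrix.mul_apply, Fin.sum_univ_two, NeZero.ne D, mapGL_entry, hkR, mul_comm,
      show (M : Matrix (Fin 2) (Fin 2) ℤ) = !![g 0 0, k; g 1 0 * D, g 1 1] from rfl]

theorem twistBeta_eq_downConj [NeZero D] (b : ZMod D) :
    twistBeta D b = downConj D (upT b.val) := by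
  show _ = (ModularForm.heckeDiagMatrix D)⁻¹ * Matrix.SpecialLinearGroup.mapGL ℝ (upT b.val)
    * (ModularForm.heckeDiagMatrix D)⁻¹⁻¹
  rw [inv_inv, mul_assoc, eq_inv_mul_iff_mul_eq]
  have hDR : (D : ℝ) ≠ 0 := Nat.cast_ne_zero.mpr (NeZero.ne D)
  refine gamma0_ext_real (N := D) rfl fun i j => ?_
  fin_cases i <;> fin_cases j <;>
    simp [twistBeta, mapGL_entry, Matrix.mul_apply, Fin.sum_univ_two, NeZero.ne D,
      -ZMod.natCast_val]
  field_simp

theorem cocycle_conj {Γ : Type*} [Group Γ] {A : Type*} [CommRing A] {Φ : Γ →* A} {M : Type*}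
    [AddCommGroup M] [Module A M] (z : cocycles Φ M) {c x : Γ} (hx : Φ x = 1) :
    (z : Γ → M) (c * x * c⁻¹) = Φ c • (z : Γ → M) x := by
  rw [z.2, z.2, cocycle_inv, map_mul, hx, mul_one, smul_neg, ← mul_smul, ← map_mul,
    mul_inv_cancel, map_one, one_smul]
  abel

variable [NeZero L]

open Classical in
/-- A cocycle as a function on matrices. -/
def onGL (z : Gamma0 L → K) (x : GL (Fin 2) ℝ) : K :=
  if h : ∃ c, gamma0GL L c = x then z h.choose else 0

omit [NeZero L] in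
theorem onGL_apply (z : Gamma0 L → K) {c : Gamma0 L} {x : GL (Fin 2) ℝ} (h : gamma0GL L c = x) :
    onGL z x = z c := by
  have h' : ∃ c, gamma0GL L c = x := ⟨c, h⟩
  rw [onGL, dif_pos h']
  exact congrArg z (Matrix.SpecialLinearGroup.mapGL_injective.comp Subtype.val_injective
    (h'.choose_spec.trans h.symm))

/-- A cocycle of `Γ₀(L)` vanishing on a principal congruence subgroup is a coboundary. -/
theorem exists_coboundary_of_vanish [CharZero K] (hD : D ∣ L) (ψ : DirichletCharacter K D)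
    (z : cocycles (chr hD ψ) K) (M : ℕ) [NeZero M]
    (hz : ∀ γ : Gamma0 L, (γ : SL(2, ℤ)) ∈ Gamma M → (z : Gamma0 L → K) γ = 0) :
    ∃ a, coboundary (chr hD ψ) K a = z := by
  classical
  let H : Subgroup (Gamma0 L) := (Gamma M).subgroupOf (Gamma0 L)
  haveI : H.FiniteIndex := inferInstance
  haveI : Fintype (Gamma0 L ⧸ H) := Fintype.ofFinite _
  have hH : ∀ x y : Gamma0 L, (x : Gamma0 L ⧸ H) = y →
      (z : Gamma0 L → K) x = (z : Gamma0 L → K) y := by
    intro x y h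
    have h0 := hz (x⁻¹ * y) ((QuotientGroup.eq (s := H)).mp h)
    have h1 := z.2 x (x⁻¹ * y)
    rw [h0, smul_zero, add_zero, mul_inv_cancel_left] at h1
    exact h1.symm
  set S := ∑ q : Gamma0 L ⧸ H, (z : Gamma0 L → K) q.out
  set n := Fintype.card (Gamma0 L ⧸ H)
  have hn : (n : K) ≠ 0 := Nat.cast_ne_zero.mpr Fintype.card_ne_zero
  refine ⟨-((n : K)⁻¹ * S), Subtype.ext (funext fun γ => ?_)⟩
  have hS : (n : K) * (z : Gamma0 L → K) γ + chr hD ψ γ * S = S := by
    calc (n : K) * (z : Gamma0 L → K) γ + chr hD ψ γ * S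
        = ∑ q : Gamma0 L ⧸ H, (z : Gamma0 L → K) (γ * q.out) := by
          simp only [mem_cocycles.mp z.2, smul_eq_mul, Finset.sum_add_distrib, ← Finset.mul_sum,
            Finset.sum_const, Finset.card_univ, nsmul_eq_mul, n, S]
      _ = ∑ q : Gamma0 L ⧸ H, (z : Gamma0 L → K) ((γ • q).out) := by
          refine Finset.sum_congr rfl fun q _ => hH _ _ ?_
          rw [QuotientGroup.out_eq']
          conv_rhs => rw [← QuotientGroup.out_eq' q]
          rfl
      _ = S := Equiv.sum_comp (MulAction.toPerm γ)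
          (fun q : Gamma0 L ⧸ H => (z : Gamma0 L → K) q.out)
  rw [coboundary_apply, smul_eq_mul]
  field_simp
  linear_combination -hS

/-- A cocycle in the kernel of `R` vanishes on the conjugate of `Γ(L)`. -/
theorem onGL_eq_zero_of_twistMap_eq_zero [NeZero D] [CharZero K] (hD : D ∣ L) (hsq : Squarefree D)
    (hcop : Nat.Coprime D (L / D)) (ψ : DirichletCharacter K D) (hψ : IsPrimitiveSq ψ)
    (z : cocycles (chr hD ψ) K) (hx : twistMap hD ψ K (Coh.mk (chr hD ψ) K z) = 0)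
    (y : SL(2, ℤ)) (hy : y ∈ Gamma L) : onGL (z : Gamma0 L → K) (downConj D y) = 0 := by
  obtain ⟨N, hLN⟩ : ∃ N, L = N * D := ⟨L / D, (Nat.div_mul_cancel hD).symm⟩
  have hND : Nat.Coprime D N := by
    rwa [hLN, Nat.mul_div_cancel _ (NeZero.pos D)] at hcop
  let f : SL(2, ℤ) → K := fun g => onGL (z : Gamma0 L → K) (downConj D (g * y * g⁻¹))
  have hconj : ∀ g : SL(2, ℤ), ∀ (M : ℕ), M ∣ L * D →
      ∃ c : Gamma0 M, gamma0GL M c = downConj D (g * y * g⁻¹) ∧
        ((((c : SL(2, ℤ)) 1 1 : ℤ)) : ZMod D) = 1 := by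
    intro g M hM
    obtain ⟨h00, h01, h10, h11⟩ := (Gamma_mem.mp ((Gamma_normal L).conj_mem y hy g))
    obtain ⟨c, hc, hc11⟩ := exists_eq_downConj (D := D) M (g * y * g⁻¹)
      ((Int.natCast_dvd_natCast.mpr hD).trans ((ZMod.intCast_zmod_eq_zero_iff_dvd _ _).mp h01))
      ((Int.natCast_dvd_natCast.mpr hM).trans (by
        push_cast
        exact mul_dvd_mul_right ((ZMod.intCast_zmod_eq_zero_iff_dvd _ _).mp h10) _))
    refine ⟨c, hc, ?_⟩
    rw [hc11]
    have := congrArg (ZMod.castHom hD (ZMod D)) h11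
    rwa [map_intCast, map_one] at this
  have hf1 : ∀ g, ∃ c : Gamma0 L, gamma0GL L c = downConj D (g * y * g⁻¹) ∧ chr hD ψ c = 1 := by
    intro g
    obtain ⟨c, hc, hc1⟩ := hconj g L (dvd_mul_right L D)
    exact ⟨c, hc, by rw [chr_apply, hc1, map_one, one_pow]⟩
  have hequiv : ∀ g₀ : SL(2, ℤ), g₀ ∈ Gamma0 N → (D : ℤ) ∣ g₀ 0 1 →
      ∀ g, f (g₀ * g) = ψ ((g₀ 1 1 : ℤ) : ZMod D) ^ 2 * f g := by
    intro g₀ hN hb g
    obtain ⟨c₀, hc₀, hc₀'⟩ := exists_eq_downConj (D := D) L g₀ hb (by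
      rw [hLN]
      push_cast
      exact mul_dvd_mul_right ((ZMod.intCast_zmod_eq_zero_iff_dvd _ _).mp (Gamma0_mem.mp hN)) _)
    obtain ⟨c, hc, hc1⟩ := hf1 g
    show onGL _ (downConj D (g₀ * g * y * (g₀ * g)⁻¹)) = _ * onGL _ (downConj D (g * y * g⁻¹))
    rw [onGL_apply _ hc, show g₀ * g * y * (g₀ * g)⁻¹ = g₀ * (g * y * g⁻¹) * g₀⁻¹ by group,
      map_mul, map_mul, map_inv, ← hc₀, ← hc, ← map_inv, ← map_mul, ← map_mul,
      onGL_apply _ rfl, cocycle_conj z hc1, chr_apply, hc₀', smul_eq_mul]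
  have hloc : ∀ ts, IsLocallyEquivariant N ψ ts f := fun ts => {
    inv := fun g₀ hg₀ g => by
      obtain ⟨hg1, hg2⟩ := Subgroup.mem_inf.mp hg₀
      obtain ⟨-, hb, -, hd⟩ := redSL_eq_one_iff.mp (MonoidHom.mem_ker.mp hg2)
      have hd' : ((g₀ 1 1 : ℤ) : ZMod D) = 1 := by
        have := (ZMod.intCast_zmod_eq_zero_iff_dvd _ _).mpr hd
        push_cast at this
        exact sub_eq_zero.mp this
      rw [hequiv g₀ hg1 hb g, hd', map_one, one_pow, one_mul]
    equiv := fun q _ g₀ h1 h2 _ g => hequiv g₀ h1 h2 g }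
  have hper : ∀ (s t : ℤ), (s : ZMod D) = (t : ZMod D) → ∀ g, f (upT s * g) = f (upT t * g) := by
    intro s t hst g
    have hdv : (D : ℤ) ∣ s - t := (ZMod.intCast_eq_intCast_iff_dvd_sub t s D).mp hst.symm
    rw [show s = (s - t) + t by ring, upT_add, mul_assoc,
      hequiv _ (upT_mem_Gamma0 N _) (by simpa [upT] using hdv)]
    simp [upT]
  have hsum : ∀ g, ∑ b : ZMod D, ψ b * f (upT b.val * g) = 0 := by
    intro g
    obtain ⟨γ, hγ, -⟩ := hconj g (L * D) dvd_rfl
    have hx' := DFunLike.congr_fun hx (Additive.ofMul γ)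
    choose c hc hc1 using fun b : ZMod D => hf1 (upT (b.val : ℤ) * g)
    rw [twistMap_mk hD ψ z γ c id (fun b => by
      rw [twistBeta_eq_downConj, hγ, hc b, id, twistBeta_eq_downConj, ← map_mul, ← map_mul]
      congr 1
      group)] at hx'
    refine Eq.trans (Finset.sum_congr rfl fun b _ => ?_) hx'
    show ψ b * onGL _ _ = ψ b • _
    rw [onGL_apply _ (hc b), smul_eq_mul]
  have h0 : f = 0 := eq_zero_of_sum_eq_zero hsq hψ hND f (hloc _) hper hsum
  have := congrFun h0 1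
  simpa [f] using this

/-- **`R` is injective** in characteristic zero. -/
theorem twistMap_injective [NeZero D] [CharZero K] (hD : D ∣ L) (hsq : Squarefree D)
    (hcop : Nat.Coprime D (L / D)) (ψ : DirichletCharacter K D) (hψ : IsPrimitiveSq ψ) :
    Function.Injective (twistMap hD ψ K) := by
  rw [injective_iff_map_eq_zero]
  intro x hx
  obtain ⟨z, rfl⟩ := Coh.mk_surjective x
  haveI : NeZero (L * D) := ⟨mul_ne_zero (NeZero.ne L) (NeZero.ne D)⟩
  have key := onGL_eq_zero_of_twistMap_eq_zero hD hsq hcop ψ hψ z hx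
  rw [Coh.mk_eq_zero]
  refine exists_coboundary_of_vanish hD ψ z (L * D) fun γ hγ => ?_
  obtain ⟨h00, h01, h10, h11⟩ := Gamma_mem.mp hγ
  obtain ⟨c', hc'⟩ : ((L * D : ℕ) : ℤ) ∣ (γ : SL(2, ℤ)) 1 0 :=
    (ZMod.intCast_zmod_eq_zero_iff_dvd _ _).mp h10
  push_cast at hc'
  let y : SL(2, ℤ) := ⟨!![(γ : SL(2, ℤ)) 0 0, (γ : SL(2, ℤ)) 0 1 * D; L * c',
    (γ : SL(2, ℤ)) 1 1], by
      rw [Matrix.det_fin_two_of]
      linear_combination det_eq_one (γ : SL(2, ℤ)) + (γ : SL(2, ℤ)) 0 1 * hc'⟩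
  have hcast : ∀ x : ℤ, (x : ZMod (L * D)) = 1 → (x : ZMod L) = 1 := fun x hx => by
    simpa using congrArg (ZMod.castHom (dvd_mul_right L D) (ZMod L)) hx
  have hy : y ∈ Gamma L := by
    rw [Gamma_mem]
    refine ⟨hcast _ h00, ?_, by simp [y], hcast _ h11⟩
    have h01' : (((γ : SL(2, ℤ)) 0 1 : ℤ) : ZMod L) = 0 := by
      simpa using congrArg (ZMod.castHom (dvd_mul_right L D) (ZMod L)) h01
    simp [y, h01']
  rw [← key y hy, onGL_apply]
  show _ = (ModularForm.heckeDiagMatrix D)⁻¹ * Matrix.SpecialLinearGroup.mapGL ℝ y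
    * (ModularForm.heckeDiagMatrix D)⁻¹⁻¹
  rw [inv_inv, mul_assoc, eq_inv_mul_iff_mul_eq]
  have hcR := congrArg (Int.cast : ℤ → ℝ) hc'
  push_cast at hcR
  refine gamma0_ext_real (N := L) rfl fun i j => ?_
  fin_cases i <;> fin_cases j <;>
    simp [Matrix.mul_apply, Fin.sum_univ_two, NeZero.ne D, mapGL_entry, hcR,
      show (y : Matrix (Fin 2) (Fin 2) ℤ) = !![(γ : SL(2, ℤ)) 0 0, (γ : SL(2, ℤ)) 0 1 * D;
        L * c', (γ : SL(2, ℤ)) 1 1] from rfl] <;> ring

end Injective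

end Fermat.Agent.Ribet.Twisted
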