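/-
`T_ℓ - (ℓ + 1)` maps homomorphisms of Γ₀(N) to parabolic ones, for a prime `ℓ ≡ 1 (mod N)`:
on the stabiliser of a cusp `δ ∞` use the representatives `δ (1 N j; 0 ℓ) δ⁻¹`, `δ (ℓ 0; 0 1) δ⁻¹`.
-/
import Mathlib
import Fermat.Agent.HeckeCohom.Operators
import Fermat.Agent.Periods.Primitive

set_option autoImplicit false

noncomputable section

namespace Fermat.Agent.Ribet.Twisted.Boundary

open CongruenceSubgroup ModularForm
open scoped MatrixGroups
open Fermat.Agent.HeckeCohom (gamma0GL gamma0GL_entry dvd_apply_one_zero HeckeIdx heckeBeta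
  isCosetSystem heckeHom det_eq_one)

variable {N : ℕ}

theorem mapGL_apply_entry (g : SL(2, ℤ)) (i j : Fin 2) :
    ((Matrix.SpecialLinearGroup.mapGL ℝ g : GL (Fin 2) ℝ) : Matrix (Fin 2) (Fin 2) ℝ) i j
      = ((g i j : ℤ) : ℝ) := by
  simp

/-- Every integral matrix of determinant `ℓ` with `N ∣ c` is in some `Γ₀(N) β`. -/
theorem exists_eq_mul_heckeBeta {ℓ : ℕ} [Fact ℓ.Prime] (hℓN : ¬ ℓ ∣ N) (a b c d : ℤ)
    (hdet : a * d - b * c = ℓ) (hc : (N : ℤ) ∣ c) (x : GL (Fin 2) ℝ)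
    (hx : (x : Matrix (Fin 2) (Fin 2) ℝ) = !![(a : ℝ), b; c, d]) :
    ∃ (i : HeckeIdx N ℓ) (u : Gamma0 N), x = gamma0GL N u * heckeBeta N ℓ i := by
  haveI : NeZero ℓ := ⟨(Fact.out : ℓ.Prime).ne_zero⟩
  have hℓ0 : (ℓ : ℤ) ≠ 0 := by exact_mod_cast NeZero.ne ℓ
  have hdetZ := congrArg (Int.cast : ℤ → ZMod ℓ) hdet
  push_cast at hdetZ
  rw [ZMod.natCast_self] at hdetZ
  by_cases hboth : (a : ZMod ℓ) = 0 ∧ (c : ZMod ℓ) = 0
  · obtain ⟨a', rfl⟩ := (ZMod.intCast_zmod_eq_zero_iff_dvd _ _).mp hboth.1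
    obtain ⟨c', rfl⟩ := (ZMod.intCast_zmod_eq_zero_iff_dvd _ _).mp hboth.2
    let u : SL(2, ℤ) := ⟨!![a', b; c', d], by
      rw [Matrix.det_fin_two_of]
      apply mul_left_cancel₀ hℓ0
      linear_combination hdet⟩
    have hcop : IsCoprime (N : ℤ) (ℓ : ℤ) := Nat.isCoprime_iff_coprime.mpr
      ((Nat.Prime.coprime_iff_not_dvd Fact.out).mpr hℓN).symm
    have hu : u ∈ Gamma0 N :=
      Gamma0_mem.mpr ((ZMod.intCast_zmod_eq_zero_iff_dvd _ _).mpr (hcop.dvd_of_dvd_mul_left hc))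
    refine ⟨⟨none, fun _ => hℓN⟩, ⟨u, hu⟩, Units.ext ?_⟩
    rw [Units.val_mul, hx]
    ext i j
    fin_cases i <;> fin_cases j <;>
      simp [Matrix.mul_apply, Fin.sum_univ_two, heckeBeta, NeZero.ne ℓ, mapGL_apply_entry,
        show (u : Matrix (Fin 2) (Fin 2) ℤ) = !![a', b; c', d] from rfl, mul_comm]
  · set j : ZMod ℓ := if (a : ZMod ℓ) = 0 then (d : ZMod ℓ) / c else (b : ZMod ℓ) / a with hj
    have h1 : (b : ZMod ℓ) = a * j ∧ (d : ZMod ℓ) = c * j := by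
      by_cases ha : (a : ZMod ℓ) = 0
      · have hc0 : (c : ZMod ℓ) ≠ 0 := fun h => hboth ⟨ha, h⟩
        rw [hj, if_pos ha]
        refine ⟨?_, by field_simp⟩
        rw [ha, zero_mul] at hdetZ
        rw [ha, zero_mul]
        exact (mul_eq_zero.mp (neg_eq_zero.mp (by linear_combination hdetZ))).resolve_right hc0
      · rw [hj, if_neg ha]
        refine ⟨by field_simp, ?_⟩
        field_simp
        linear_combination hdetZ
    obtain ⟨e, he⟩ : (ℓ : ℤ) ∣ b - a * j.val := by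
      rw [← ZMod.intCast_zmod_eq_zero_iff_dvd]; push_cast; rw [ZMod.natCast_zmod_val, h1.1, sub_self]
    obtain ⟨f, hf⟩ : (ℓ : ℤ) ∣ d - c * j.val := by
      rw [← ZMod.intCast_zmod_eq_zero_iff_dvd]; push_cast; rw [ZMod.natCast_zmod_val, h1.2, sub_self]
    let u : SL(2, ℤ) := ⟨!![a, e; c, f], by
      rw [Matrix.det_fin_two_of]
      apply mul_left_cancel₀ hℓ0
      linear_combination hdet - a * hf + c * he⟩
    have hu : u ∈ Gamma0 N := Gamma0_mem.mpr ((ZMod.intCast_zmod_eq_zero_iff_dvd _ _).mpr hc)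
    refine ⟨⟨some j, by simp⟩, ⟨u, hu⟩, Units.ext ?_⟩
    rw [Units.val_mul, hx]
    have heR := congrArg (Int.cast : ℤ → ℝ) he
    have hfR := congrArg (Int.cast : ℤ → ℝ) hf
    push_cast at heR hfR
    ext i k
    fin_cases i <;> fin_cases k <;>
      simp [Matrix.mul_apply, Fin.sum_univ_two, heckeBeta, NeZero.ne ℓ, mapGL_apply_entry,
        show (u : Matrix (Fin 2) (Fin 2) ℤ) = !![a, e; c, f] from rfl, -ZMod.natCast_val]
    · linear_combination heR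
    · linear_combination hfR

/-- `(1 N j; 0 ℓ)` and `(ℓ 0; 0 1)`. -/
def stdRep (N ℓ : ℕ) [NeZero ℓ] (i : HeckeIdx N ℓ) : GL (Fin 2) ℝ :=
  i.1.elim (heckeDiagMatrix ℓ)
    fun j => upperTriangularGL 1 ((N : ℝ) * (j.val : ℝ)) ℓ (by simp [NeZero.ne ℓ])

theorem stdRep_eq_of_eq {ℓ : ℕ} [Fact ℓ.Prime] [NeZero ℓ] (hℓN : ¬ ℓ ∣ N) (g : SL(2, ℤ))
    (i k : HeckeIdx N ℓ)
    (e : stdRep N ℓ i = Matrix.SpecialLinearGroup.mapGL ℝ g * stdRep N ℓ k) : i = k := by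
  have hℓ : ℓ ≠ 0 := NeZero.ne ℓ
  have h2 : 2 ≤ ℓ := (Fact.out : ℓ.Prime).two_le
  have hd := det_eq_one g
  obtain ⟨i, hi⟩ := i
  obtain ⟨k, hk⟩ := k
  have e' := congrArg (fun M : GL (Fin 2) ℝ => (M : Matrix (Fin 2) (Fin 2) ℝ)) e
  have e00 := congrFun (congrFun e' 0) 0
  have e01 := congrFun (congrFun e' 0) 1
  have e10 := congrFun (congrFun e' 1) 0
  apply Subtype.ext
  rcases i with _ | u <;> rcases k with _ | v <;>
    simp [stdRep, Matrix.mul_apply, Fin.sum_univ_two, hℓ, mapGL_apply_entry, -ZMod.natCast_val]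
      at e00 e01 e10 ⊢
  · norm_cast at e00 e10
    have hpd : (ℓ : ℤ) ∣ 1 := ⟨g 1 1, by rw [e00]; linear_combination -hd + g 0 1 * e10⟩
    have := Int.le_of_dvd one_pos hpd
    omega
  · norm_cast at e00
    have hpd : (ℓ : ℤ) ∣ 1 := ⟨g 0 0, by linear_combination e00⟩
    have := Int.le_of_dvd one_pos hpd
    omega
  · rw [← e00] at e01
    push_cast at e01
    have hz : (N : ℤ) * u.val = N * v.val + g 0 1 * ℓ := by
      rw [← @Int.cast_inj ℝ]
      push_cast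
      linear_combination e01
    have hN : ((N : ℕ) : ZMod ℓ) ≠ 0 := fun h => hℓN ((ZMod.natCast_eq_zero_iff _ _).mp h)
    have := congrArg (Int.cast : ℤ → ZMod ℓ) hz
    simp at this
    exact this.resolve_right hN

/-- The element `δ T ^ t δ⁻¹`. -/
def cuspElt (δ : SL(2, ℤ)) (t : ℤ) : SL(2, ℤ) := δ * ModularGroup.T ^ t * δ⁻¹

theorem cuspElt_add (δ : SL(2, ℤ)) (s t : ℤ) : cuspElt δ (s + t) = cuspElt δ s * cuspElt δ t := by
  simp only [cuspElt, zpow_add]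
  group

/-- The translations fixing the cusp that lie in `Γ₀(N)`. -/
def cuspLattice (N : ℕ) (δ : SL(2, ℤ)) : AddSubgroup ℤ where
  carrier := {t | cuspElt δ t ∈ Gamma0 N}
  zero_mem' := by
    show cuspElt δ 0 ∈ Gamma0 N
    rw [show cuspElt δ 0 = 1 by simp [cuspElt]]
    exact one_mem _
  add_mem' {s t} hs ht := by
    show cuspElt δ (s + t) ∈ Gamma0 N
    rw [cuspElt_add]
    exact mul_mem hs ht
  neg_mem' {t} ht := by
    show cuspElt δ (-t) ∈ Gamma0 N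
    rw [show cuspElt δ (-t) = (cuspElt δ t)⁻¹ from
      eq_inv_of_mul_eq_one_left (by rw [← cuspElt_add, neg_add_cancel]; simp [cuspElt])]
    exact inv_mem ht

theorem mem_cuspLattice_of_dvd (δ : SL(2, ℤ)) {h t : ℤ} (hh : h ∈ cuspLattice N δ)
    (hdvd : (N : ℤ) ∣ t - h) : t ∈ cuspLattice N δ := by
  obtain ⟨k, hk⟩ := hdvd
  have hmem : cuspElt δ ((N : ℤ) * k) ∈ Gamma0 N := by
    refine Periods.mem_Gamma0_of_mem_Gamma N ?_
    rw [cuspElt, zpow_mul]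
    exact (Gamma_normal N).conj_mem _ (Subgroup.zpow_mem _ (Periods.T_zpow_mem_Gamma N) k) δ
  have := (cuspLattice N δ).add_mem (show (N : ℤ) * k ∈ cuspLattice N δ from hmem) hh
  rwa [← hk, sub_add_cancel] at this

variable {A : Type*} [AddCommGroup A]

/-- The homomorphism on translations. -/
def cuspHom (δ : SL(2, ℤ)) (φ : Additive (Gamma0 N) →+ A) : cuspLattice N δ →+ A :=
  AddMonoidHom.mk' (fun t => φ (Additive.ofMul (⟨cuspElt δ t.1, t.2⟩ : Gamma0 N))) fun s t => by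
    rw [← map_add, ← ofMul_mul]
    exact congrArg _ (congrArg _ (Subtype.ext (cuspElt_add δ s.1 t.1)))

variable {R : Type*} [Semiring R] [Module R A]

/-- `T_ℓ = ℓ + 1` on the unipotent stabiliser of a cusp. -/
theorem heckeHom_cuspElt (ℓ : Nat.Primes) (hℓN : ((ℓ : ℕ) : ZMod N) = 1) (hndvd : ¬ (ℓ : ℕ) ∣ N)
    (δ : SL(2, ℤ)) (φ : Additive (Gamma0 N) →+ A) (h : ℤ) (hh : h ∈ cuspLattice N δ) :
    heckeHom N R A ℓ φ (Additive.ofMul (⟨cuspElt δ h, hh⟩ : Gamma0 N))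
      = ((ℓ : ℕ) + 1) • φ (Additive.ofMul (⟨cuspElt δ h, hh⟩ : Gamma0 N)) := by
  classical
  haveI : Fact (ℓ : ℕ).Prime := ⟨ℓ.2⟩
  haveI : NeZero (ℓ : ℕ) := ⟨ℓ.2.ne_zero⟩
  have hℓ0 : (ℓ : ℕ) ≠ 0 := ℓ.2.ne_zero
  set G := Matrix.SpecialLinearGroup.mapGL ℝ (n := Fin 2) (R := ℤ) with hG
  -- representatives adapted to the cusp
  have hex : ∀ i : HeckeIdx N ℓ, ∃ (p : HeckeIdx N ℓ) (u : Gamma0 N),
      G δ * stdRep N ℓ i * (G δ)⁻¹ = gamma0GL N u * heckeBeta N ℓ p := by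
    intro i
    obtain ⟨M, hM, hdet, hMN⟩ : ∃ M : Matrix (Fin 2) (Fin 2) ℤ,
        (stdRep N ℓ i : Matrix (Fin 2) (Fin 2) ℝ) = M.map (Int.cast : ℤ → ℝ) ∧
        M.det = (ℓ : ℕ) ∧ M.map (Int.cast : ℤ → ZMod N) = 1 := by
      obtain ⟨_ | j, hj⟩ := i
      · refine ⟨!![((ℓ : ℕ) : ℤ), 0; 0, 1], ?_, by simp [Matrix.det_fin_two_of], ?_⟩ <;>
          ext a b <;> fin_cases a <;> fin_cases b <;> simp [stdRep, hℓ0, hℓN]
      · refine ⟨!![1, (N : ℤ) * (j.val : ℤ); 0, ((ℓ : ℕ) : ℤ)], ?_,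
          by simp [Matrix.det_fin_two_of], ?_⟩ <;>
          ext a b <;> fin_cases a <;> fin_cases b <;> simp [stdRep, hℓN, -ZMod.natCast_val]
    set P : Matrix (Fin 2) (Fin 2) ℤ := (δ : Matrix (Fin 2) (Fin 2) ℤ) * M * (δ⁻¹ : SL(2, ℤ)) with hP
    have hPd : P.det = (ℓ : ℕ) := by
      rw [hP, Matrix.det_mul, Matrix.det_mul, δ.det_coe, (δ⁻¹).det_coe, hdet, one_mul, mul_one]
    have hPN : (N : ℤ) ∣ P 1 0 := by
      have e : P.map (Int.cast : ℤ → ZMod N) = 1 := by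
        have h1 : ∀ X Y : Matrix (Fin 2) (Fin 2) ℤ, (X * Y).map (Int.cast : ℤ → ZMod N)
            = X.map (Int.cast : ℤ → ZMod N) * Y.map (Int.cast : ℤ → ZMod N) :=
          fun X Y => Matrix.map_mul (f := Int.castRingHom (ZMod N))
        rw [hP, h1, h1, hMN, mul_one, ← h1, ← Matrix.SpecialLinearGroup.coe_mul, mul_inv_cancel,
          Matrix.SpecialLinearGroup.coe_one]
        exact Matrix.map_one _ (by simp) (by simp)
      rw [← ZMod.intCast_zmod_eq_zero_iff_dvd]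
      exact congrFun (congrFun e 1) 0
    obtain ⟨p, u, hpu⟩ := exists_eq_mul_heckeBeta (N := N) (ℓ := (ℓ : ℕ)) hndvd (P 0 0) (P 0 1)
      (P 1 0) (P 1 1) (by rw [← hPd, Matrix.det_fin_two]) hPN (G δ * stdRep N ℓ i * (G δ)⁻¹) (by
        have hGv : ∀ g : SL(2, ℤ), ((G g : GL (Fin 2) ℝ) : Matrix (Fin 2) (Fin 2) ℝ)
            = (g : Matrix (Fin 2) (Fin 2) ℤ).map (Int.cast : ℤ → ℝ) := fun g => by
          ext a b
          rw [hG, mapGL_apply_entry]
          rfl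
        have h1 : ∀ X Y : Matrix (Fin 2) (Fin 2) ℤ, X.map (Int.cast : ℤ → ℝ) * Y.map (Int.cast : ℤ → ℝ)
            = (X * Y).map (Int.cast : ℤ → ℝ) :=
          fun X Y => (Matrix.map_mul (f := Int.castRingHom ℝ)).symm
        rw [← map_inv, Units.val_mul, Units.val_mul, hGv, hGv, hM, h1, h1, ← hP]
        ext a b
        fin_cases a <;> fin_cases b <;> simp)
    exact ⟨p, u, hpu⟩
  choose π u hu using hex
  have hπ : Function.Bijective π := by
    refine Finite.injective_iff_bijective.mp fun i k hik => ?_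
    refine stdRep_eq_of_eq hndvd (δ⁻¹ * ((u i : SL(2, ℤ)) * (u k : SL(2, ℤ))⁻¹) * δ) i k ?_
    have hi := hu i
    rw [hik] at hi
    have hk := hu k
    rw [← inv_mul_eq_iff_eq_mul] at hk
    rw [← hk] at hi
    simp only [map_mul, map_inv, ← hG]
    simp only [HeckeCohom.gamma0GL_apply, ← hG] at hi
    calc stdRep N ℓ i = (G δ)⁻¹ * (G δ * stdRep N ℓ i * (G δ)⁻¹) * G δ := by group
      _ = _ := by rw [hi]; group
  -- the permutation and translations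
  have hN0 : ((N : ℕ) : ZMod (ℓ : ℕ)) ≠ 0 := fun h0 => hndvd ((ZMod.natCast_eq_zero_iff _ _).mp h0)
  set s : ZMod (ℓ : ℕ) := (h : ZMod (ℓ : ℕ)) / (N : ZMod (ℓ : ℕ)) with hs
  let σ : HeckeIdx N ℓ ≃ HeckeIdx N ℓ :=
    { toFun := fun i => ⟨i.1.map (· + s), fun hi => i.2 (Option.map_eq_none_iff.mp hi)⟩
      invFun := fun i => ⟨i.1.map (· - s), fun hi => i.2 (Option.map_eq_none_iff.mp hi)⟩
      left_inv := fun i => by apply Subtype.ext; rcases i with ⟨_ | x, _⟩ <;> simp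
      right_inv := fun i => by apply Subtype.ext; rcases i with ⟨_ | x, _⟩ <;> simp }
  let v : HeckeIdx N ℓ → ℤ := fun i => i.1.elim 0 fun j => (j.val : ℤ)
  let w : HeckeIdx N ℓ → ℤ := fun i => i.1.elim ((ℓ : ℕ) * h) fun _ => h
  have hT : ∀ i : HeckeIdx N ℓ, ∃ t : cuspLattice N δ,
      stdRep N ℓ i * G (ModularGroup.T ^ h) = G (ModularGroup.T ^ (t : ℤ)) * stdRep N ℓ (σ i) ∧
      (i.1 = none → (t : ℤ) = (ℓ : ℕ) * h) ∧
      (i.1 ≠ none → ((ℓ : ℕ) : ℤ) * t = (N : ℤ) * v i - (N : ℤ) * v (σ i) + h) := by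
    intro i
    obtain ⟨_ | j, hj⟩ := i
    · have hmem : ((ℓ : ℕ) : ℤ) * h ∈ cuspLattice N δ := by
        refine mem_cuspLattice_of_dvd δ hh ?_
        rw [← ZMod.intCast_zmod_eq_zero_iff_dvd]
        push_cast
        rw [hℓN, one_mul, sub_self]
      refine ⟨⟨_, hmem⟩, ?_, fun _ => rfl, fun h' => absurd rfl h'⟩
      refine Units.ext ?_
      ext a b
      fin_cases a <;> fin_cases b <;>
        simp [σ, stdRep, Matrix.mul_apply, Fin.sum_univ_two, hℓ0, hG, mapGL_apply_entry,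
          ModularGroup.coe_T_zpow, -map_zpow]
    · obtain ⟨t, ht⟩ : ((ℓ : ℕ) : ℤ) ∣ (N : ℤ) * j.val - (N : ℤ) * (j + s).val + h := by
        rw [← ZMod.intCast_zmod_eq_zero_iff_dvd]
        push_cast
        rw [ZMod.natCast_zmod_val, ZMod.natCast_zmod_val, hs]
        field_simp
        ring
      have hmem : t ∈ cuspLattice N δ := by
        refine mem_cuspLattice_of_dvd δ hh ?_
        rw [← ZMod.intCast_zmod_eq_zero_iff_dvd]
        have := congrArg (Int.cast : ℤ → ZMod N) ht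
        push_cast at this
        rw [hℓN, ZMod.natCast_self] at this
        push_cast
        linear_combination -this
      refine ⟨⟨t, hmem⟩, ?_, fun h' => absurd h' (by simp), fun _ => ht.symm⟩
      have htR := congrArg (Int.cast : ℤ → ℝ) ht
      push_cast at htR
      refine Units.ext ?_
      ext a b
      fin_cases a <;> fin_cases b <;>
        simp [σ, stdRep, Matrix.mul_apply, Fin.sum_univ_two, hℓ0, hG, mapGL_apply_entry,
          ModularGroup.coe_T_zpow, -map_zpow, -ZMod.natCast_val]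
      linear_combination htR
  choose t ht ht1 ht2 using hT
  have hsum : ∑ i, (t i : ℤ) = ((ℓ : ℕ) + 1) * h := by
    apply mul_left_cancel₀ (show ((ℓ : ℕ) : ℤ) ≠ 0 by exact_mod_cast hℓ0)
    have e : ∀ i, ((ℓ : ℕ) : ℤ) * t i = (N : ℤ) * v i - (N : ℤ) * v (σ i)
        + (if i.1 = none then ((ℓ : ℕ) : ℤ) * ((ℓ : ℕ) * h) else h) := by
      intro i
      split_ifs with hi
      · rw [ht1 i hi]
        obtain ⟨i, hi'⟩ := i
        obtain rfl : i = none := hi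
        simp [v, σ]
      · exact ht2 i hi
    rw [Finset.mul_sum, Finset.sum_congr rfl fun i _ => e i, Finset.sum_add_distrib,
      Finset.sum_sub_distrib, Equiv.sum_comp σ (fun i => (N : ℤ) * v i), sub_self, zero_add]
    let F : Option (ZMod (ℓ : ℕ)) → ℤ :=
      fun x => if x = none then ((ℓ : ℕ) : ℤ) * ((ℓ : ℕ) * h) else h
    show ∑ i : HeckeIdx N ℓ, F i.1 = _
    have hsub : ∑ i : HeckeIdx N ℓ, F i.1 = ∑ x : Option (ZMod (ℓ : ℕ)), F x :=
      Fintype.sum_equiv (Equiv.subtypeUnivEquiv fun x => fun _ => hndvd) _ _ fun _ => rfl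
    rw [hsub, Fintype.sum_option]
    simp [F]
    ring
  -- the computation
  have step : ∀ i, heckeBeta N ℓ (π i) * gamma0GL N ⟨cuspElt δ h, hh⟩
      = gamma0GL N ((u i)⁻¹ * ⟨cuspElt δ (t i), (t i).2⟩ * u (σ i)) * heckeBeta N ℓ (π (σ i)) := by
    intro i
    have h1 : heckeBeta N ℓ (π i) = (gamma0GL N (u i))⁻¹ * (G δ * stdRep N ℓ i * (G δ)⁻¹) := by
      rw [hu, inv_mul_cancel_left]
    rw [map_mul, map_mul, map_inv, mul_assoc _ _ (heckeBeta N ℓ (π (σ i))), ← hu, h1, mul_assoc,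
      mul_assoc (gamma0GL N (u i))⁻¹]
    congr 1
    simp only [HeckeCohom.gamma0GL_apply, cuspElt, ← hG, map_mul, map_inv]
    calc G δ * stdRep N ℓ i * (G δ)⁻¹ * (G δ * G (ModularGroup.T ^ h) * (G δ)⁻¹)
        = G δ * (stdRep N ℓ i * G (ModularGroup.T ^ h)) * (G δ)⁻¹ := by group
      _ = _ := by rw [ht]; group
  let πe := Equiv.ofBijective π hπ
  rw [HeckeCohom.heckeHom_eq_sum ℓ φ _
    (fun p => (u (πe.symm p))⁻¹ * ⟨cuspElt δ (t (πe.symm p)), (t (πe.symm p)).2⟩ * u (σ (πe.symm p)))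
    (fun p => π (σ (πe.symm p))) (fun p => by
      conv_lhs => rw [← πe.apply_symm_apply p]
      exact step (πe.symm p))]
  rw [← Equiv.sum_comp πe]
  simp only [Equiv.symm_apply_apply, ofMul_mul, ofMul_inv, map_add, map_neg,
    Finset.sum_add_distrib, Finset.sum_neg_distrib]
  rw [Equiv.sum_comp σ (fun i => φ (Additive.ofMul (u i)))]
  have hfin : ∑ i, cuspHom δ φ (t i) = ((ℓ : ℕ) + 1) • cuspHom δ φ ⟨h, hh⟩ := by
    rw [← map_sum, ← map_nsmul]
    refine congrArg _ (Subtype.ext ?_)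
    rw [AddSubgroup.val_finsetSum, hsum, AddSubgroup.coe_nsmul, nsmul_eq_mul]
    push_cast
    rfl
  rw [show ∑ i, φ (Additive.ofMul (⟨cuspElt δ (t i), (t i).2⟩ : Gamma0 N))
    = ∑ i, cuspHom δ φ (t i) from rfl, hfin]
  simp only [cuspHom, AddMonoidHom.mk'_apply]
  abel

/-- `T_ℓ - (ℓ + 1)` kills the parabolic elements. -/
theorem heckeHom_parabolic [IsAddTorsionFree A] (ℓ : Nat.Primes) (hℓN : ((ℓ : ℕ) : ZMod N) = 1)
    (hndvd : ¬ (ℓ : ℕ) ∣ N) (φ : Additive (Gamma0 N) →+ A) (γ : Gamma0 N)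
    (hγ : ((γ : SL(2, ℤ)) : Matrix (Fin 2) (Fin 2) ℤ).trace ^ 2 = 4) :
    heckeHom N R A ℓ φ (Additive.ofMul γ) = ((ℓ : ℕ) + 1) • φ (Additive.ofMul γ) := by
  obtain ⟨δ, hδ⟩ := Periods.exists_conj_lower_left_eq_zero _ hγ
  set g := δ⁻¹ * (γ : SL(2, ℤ)) * δ with hg
  have hdet := det_eq_one g
  rw [hδ, mul_zero, sub_zero] at hdet
  have hneg : -(1 : SL(2, ℤ)) ∈ Gamma0 N := by simp [Gamma0_mem]
  have hkill : ∀ ψ : Additive (Gamma0 N) →+ A,
      ψ (Additive.ofMul (⟨-1, hneg⟩ : Gamma0 N)) = 0 := by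
    intro ψ
    have h2 : (2 : ℕ) • ψ (Additive.ofMul (⟨-1, hneg⟩ : Gamma0 N)) = 0 := by
      rw [← map_nsmul, ← ofMul_pow]
      have : (⟨-1, hneg⟩ : Gamma0 N) ^ 2 = 1 := Subtype.ext (by simp)
      rw [this]
      exact map_zero ψ
    exact (nsmul_eq_zero_iff_right two_ne_zero).mp h2
  have main : ∀ t : ℤ, ∀ ht : t ∈ cuspLattice N δ,
      (cuspElt δ t = (γ : SL(2, ℤ)) ∨ cuspElt δ t = -(γ : SL(2, ℤ))) →
      heckeHom N R A ℓ φ (Additive.ofMul γ) = ((ℓ : ℕ) + 1) • φ (Additive.ofMul γ) := by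
    intro t ht hor
    have key := heckeHom_cuspElt (R := R) ℓ hℓN hndvd δ φ t ht
    rcases hor with e | e
    · rwa [show (⟨cuspElt δ t, ht⟩ : Gamma0 N) = γ from Subtype.ext e] at key
    · rw [show (⟨cuspElt δ t, ht⟩ : Gamma0 N) = ⟨-1, hneg⟩ * γ from Subtype.ext (by simp [e]),
        ofMul_mul, map_add, map_add, hkill, hkill, zero_add, zero_add] at key
      exact key
  rcases Int.eq_one_or_neg_one_of_mul_eq_one' hdet with ⟨h0, h1⟩ | ⟨h0, h1⟩
  · have e : ModularGroup.T ^ (g 0 1) = g := by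
      apply Subtype.ext
      rw [ModularGroup.coe_T_zpow]
      ext a b
      fin_cases a <;> fin_cases b <;> simp [h0, h1, hδ]
    have e' : cuspElt δ (g 0 1) = (γ : SL(2, ℤ)) := by rw [cuspElt, e, hg]; group
    exact main _ (by show cuspElt δ _ ∈ Gamma0 N; rw [e']; exact γ.2) (Or.inl e')
  · have e : ModularGroup.T ^ (-g 0 1) = -g := by
      apply Subtype.ext
      rw [ModularGroup.coe_T_zpow, Matrix.SpecialLinearGroup.coe_neg]
      ext a b
      fin_cases a <;> fin_cases b <;> simp [h0, h1, hδ]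
    have e' : cuspElt δ (-g 0 1) = -(γ : SL(2, ℤ)) := by
      rw [cuspElt, e, hg]
      apply Subtype.ext
      have h3 : δ * (δ⁻¹ * (γ : SL(2, ℤ)) * δ) * δ⁻¹ = γ := by group
      conv_rhs => rw [Matrix.SpecialLinearGroup.coe_neg, ← h3]
      simp only [Matrix.SpecialLinearGroup.coe_mul, Matrix.SpecialLinearGroup.coe_neg,
        Matrix.mul_neg, Matrix.neg_mul]
    refine main _ ?_ (Or.inr e')
    show cuspElt δ _ ∈ Gamma0 N
    rw [e']
    have := mul_mem hneg γ.2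
    rwa [neg_one_mul] at this

end Fermat.Agent.Ribet.Twisted.Boundary
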