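/-
Twisting to trivial nebentype: systems of eigenvalues on twisted cohomology come from the weight
two Hecke algebra of Γ₀(L * D).
-/
import Fermat.Agent.Ribet.Twisted.TwistInjective
import Fermat.Agent.Ribet.Twisted.TwistBoundary
import Fermat.Agent.HeckeCohom.Action
import Fermat.Prelude.Def_CuspForm_HeckeAlgebra

set_option autoImplicit false

noncomputable section

namespace Fermat.Agent.Ribet.Twisted

open CongruenceSubgroup
open Fermat.Agent.HeckeCohom (heckeHom heckeParEll heckeAct)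

/-- An eigenvector of `T_ℓ0` with eigenvalue other than `ℓ0 + 1` is parabolic. -/
theorem isParEllHom_of_eigen {N : ℕ} {K : Type*} [Field K] [CharZero K] (ℓ : Nat.Primes)
    (hℓN : ((ℓ : ℕ) : ZMod N) = 1) (hndvd : ¬ (ℓ : ℕ) ∣ N) {a : K}
    (ha : a ≠ ((ℓ : ℕ) : K) + 1) (φ : Additive (Gamma0 N) →+ K)
    (hφ : heckeHom N K K ℓ φ = a • φ) : ParHom.IsParEllHom (Gamma0 N) φ := by
  refine ParHom.isParabolicHom_iff.mp fun γ hγ => ?_
  have h := Boundary.heckeHom_parabolic (R := K) ℓ hℓN hndvd φ γ hγ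
  rw [hφ, AddMonoidHom.smul_apply, smul_eq_mul, nsmul_eq_mul] at h
  push_cast at h
  by_contra hne
  exact ha (mul_right_cancel₀ hne h)

/-- A system of eigenvalues on twisted cohomology is a character of the Hecke algebra of level
`L * D`, away from the Eisenstein systems. -/
theorem exists_hom_of_hasSystem {L D : ℕ} [NeZero L] [NeZero (L * D)] {K : Type*} [Field K]
    [CharZero K] (hD : D ∣ L) (hsq : Squarefree D) (hcop : Nat.Coprime D (L / D))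
    (ψ : DirichletCharacter K D) (hψ : IsPrimitiveSq ψ) (S : Finset ℕ)
    (hDS : ∀ q : ℕ, q.Prime → q ∣ D → q ∈ S) (a : ℕ → K) (ha : HasSystem hD ψ S a)
    (hne : ∃ ℓ : ℕ, ℓ.Prime ∧ ℓ ∉ S ∧ (ℓ : ZMod (L * D)) = 1 ∧ a ℓ ≠ (ℓ : K) + 1) :
    ∃ χ : CuspForm.heckeAlgebra (L * D) 2 (↑S : Set ℕ) →+* K,
      (∀ (ℓ : ℕ) (hℓ : ℓ.Prime) (hℓN : ¬ ℓ ∣ L * D) (hℓS : ℓ ∉ (↑S : Set ℕ)),
        χ (CuspForm.heckeAlgebra.T hℓ hℓN hℓS) = a ℓ) ∧
      ∀ (q : ℕ) (hq : q.Prime) (hqN : q ∣ L * D) (hqS : q ∉ (↑S : Set ℕ)),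
        χ (CuspForm.heckeAlgebra.U hq hqN hqS) = a q := by
  obtain ⟨x, hx0, hx⟩ := ha
  haveI : NeZero D := ⟨right_ne_zero_of_mul (NeZero.ne (L * D))⟩
  set φ := twistMap hD ψ K x with hφdef
  have hφ0 : φ ≠ 0 := fun h0 => hx0 (twistMap_injective hD hsq hcop ψ hψ
    (by rw [← hφdef, h0, map_zero]))
  have heig : ∀ ℓ : Nat.Primes, (ℓ : ℕ) ∉ S → heckeHom (L * D) K K ℓ φ = a ℓ • φ := by
    intro ℓ hℓS
    rw [hφdef, ← twistMap_heckeT' hD ψ ℓ (fun h => hℓS (hDS ℓ ℓ.2 h)), hx ℓ ℓ.2 hℓS, map_smul]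
  obtain ⟨ℓ₀, hℓ₀, hℓ₀S, hℓ₀1, hℓ₀a⟩ := hne
  have hℓ₀N : ¬ ℓ₀ ∣ L * D := by
    intro hdvd
    have h1 : ((1 : ℕ) : ZMod ℓ₀) = ((0 : ℕ) : ZMod ℓ₀) := by
      have := congrArg (ZMod.castHom hdvd (ZMod ℓ₀)) hℓ₀1
      rw [map_natCast, map_one, ZMod.natCast_self] at this
      simpa using this.symm
    haveI : Fact ℓ₀.Prime := ⟨hℓ₀⟩
    exact one_ne_zero (α := ZMod ℓ₀) (by simpa using h1)
  have hpar : φ ∈ ParHom.parEllHoms (Gamma0 (L * D)) K K :=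
    isParEllHom_of_eigen ⟨ℓ₀, hℓ₀⟩ hℓ₀1 hℓ₀N hℓ₀a φ (heig ⟨ℓ₀, hℓ₀⟩ hℓ₀S)
  set φ' : ParHom.parEllHoms (Gamma0 (L * D)) K K := ⟨φ, hpar⟩ with hφ'
  have hφ'0 : φ' ≠ 0 := fun h => hφ0 (congrArg Subtype.val h)
  let incl : CuspForm.heckeAlgebra (L * D) 2 (↑S : Set ℕ) →+* CuspForm.heckeAlgebra (L * D) 2 ∅ :=
    (Subalgebra.inclusion (CuspForm.heckeAlgebra_mono (Set.empty_subset _))).toRingHom
  let ρ := (heckeAct (L * D) K K).comp incl
  have hscal : ∀ t, ∃ c : K, ρ t φ' = c • φ' := by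
    rintro ⟨t, ht⟩
    induction ht using Algebra.adjoin_induction with
    | mem t ht =>
      rcases ht with ⟨ℓ, hℓ, hℓN, hℓS, rfl⟩ | ⟨q, hqN, hq, hqS, rfl⟩
      · refine ⟨a ℓ, ?_⟩
        show heckeAct (L * D) K K (CuspForm.heckeAlgebra.T hℓ hℓN (Set.notMem_empty _)) φ' = _
        rw [HeckeCohom.heckeAct_T]
        exact Subtype.ext (heig ⟨ℓ, hℓ⟩ hℓS)
      · refine ⟨a q, ?_⟩
        show heckeAct (L * D) K K (CuspForm.heckeAlgebra.U hq hqN (Set.notMem_empty _)) φ' = _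
        rw [HeckeCohom.heckeAct_U]
        exact Subtype.ext (heig ⟨q, hq⟩ hqS)
    | algebraMap n =>
      refine ⟨n, ?_⟩
      show ρ (algebraMap ℤ _ n) φ' = _
      rw [eq_intCast, map_intCast, Module.End.intCast_apply]
      exact (Int.cast_smul_eq_zsmul K n φ').symm
    | add t s ht hs iht ihs =>
      obtain ⟨c, hc⟩ := iht; obtain ⟨c', hc'⟩ := ihs
      refine ⟨c + c', ?_⟩
      show ρ (⟨t, ht⟩ + ⟨s, hs⟩) φ' = _
      rw [map_add, LinearMap.add_apply, hc, hc', add_smul]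
    | mul t s ht hs iht ihs =>
      obtain ⟨c, hc⟩ := iht; obtain ⟨c', hc'⟩ := ihs
      refine ⟨c * c', ?_⟩
      show ρ (⟨t, ht⟩ * ⟨s, hs⟩) φ' = _
      rw [map_mul, Module.End.mul_apply, hc', map_smul, hc, smul_smul, mul_comm c c']
  choose c hc using hscal
  have huniq : ∀ {u v : K}, u • φ' = v • φ' → u = v := fun h =>
    smul_left_injective K hφ'0 h
  refine ⟨{ toFun := c
            map_one' := huniq (by rw [← hc, map_one, one_smul]; rfl)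
            map_mul' := fun t s => huniq (by
              rw [← hc, map_mul, Module.End.mul_apply, hc s, map_smul, hc t, smul_smul, mul_comm (c t) (c s)])
            map_zero' := huniq (by rw [← hc, map_zero, zero_smul]; rfl)
            map_add' := fun t s => huniq (by
              rw [← hc, map_add, LinearMap.add_apply, hc t, hc s, add_smul]) }, ?_, ?_⟩
  · intro ℓ hℓ hℓN hℓS
    refine huniq ((hc _).symm.trans ?_)
    show heckeAct (L * D) K K (CuspForm.heckeAlgebra.T hℓ hℓN (Set.notMem_empty _)) φ' = _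
    rw [HeckeCohom.heckeAct_T]
    exact Subtype.ext (heig ⟨ℓ, hℓ⟩ hℓS)
  · intro q hq hqN hqS
    refine huniq ((hc _).symm.trans ?_)
    show heckeAct (L * D) K K (CuspForm.heckeAlgebra.U hq hqN (Set.notMem_empty _)) φ' = _
    rw [HeckeCohom.heckeAct_U]
    exact Subtype.ext (heig ⟨q, hq⟩ hqS)


/-- The twist of a non-Eisenstein eigenclass is parabolic. -/
theorem twistMap_mem_parEllHoms {L D : ℕ} [NeZero D] {K : Type*} [Field K] [CharZero K]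
    (hD : D ∣ L) (ψ : DirichletCharacter K D) {ℓ : ℕ} (hℓ : ℓ.Prime)
    (hℓ1 : (ℓ : ZMod (L * D)) = 1) (hℓN : ¬ ℓ ∣ L * D) {a : K} (ha : a ≠ (ℓ : K) + 1)
    (x : CohL hD ψ K) (hx : heckeT' hD ψ K ℓ x = a • x) :
    twistMap hD ψ K x ∈ ParHom.parEllHoms (Gamma0 (L * D)) K K := by
  refine isParEllHom_of_eigen ⟨ℓ, hℓ⟩ hℓ1 hℓN ha _ ?_
  have h := twistMap_heckeT' hD ψ ⟨ℓ, hℓ⟩ (fun h => hℓN (h.mul_left L)) x
  rw [hx, map_smul] at h
  exact h.symm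

end Fermat.Agent.Ribet.Twisted
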