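/-
Integral matrices as systems of representatives: the weight `ψ(det) ψ(d)⁻²` is multiplicative,
so the weight condition of `OpData` is automatic, and two products of systems with the same
classes give the same composite operator.
-/
import Fermat.Agent.Ribet.Twisted.Hecke

set_option autoImplicit false

noncomputable section

namespace Fermat.Agent.Ribet.Twisted

open CongruenceSubgroup
open scoped MatrixGroups
open Fermat.Agent.HeckeCohom (gamma0GL gamma0GL_entry dvd_apply_one_zero)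

/-- Two by two integral matrices. -/
abbrev Mat : Type := Matrix (Fin 2) (Fin 2) ℤ

/-- An element of `Γ₀(L)` as a matrix. -/
abbrev g0Mat {L : ℕ} (γ : Gamma0 L) : Mat := ((γ : SL(2, ℤ)) : Mat)

theorem g0Mat_mul {L : ℕ} (γ δ : Gamma0 L) : g0Mat (γ * δ) = g0Mat γ * g0Mat δ := rfl

theorem g0Mat_one {L : ℕ} : g0Mat (1 : Gamma0 L) = 1 := rfl

theorem g0Mat_det {L : ℕ} (γ : Gamma0 L) : (g0Mat γ).det = 1 := (γ : SL(2, ℤ)).det_coe

theorem g0Mat_dvd {L : ℕ} (γ : Gamma0 L) : (L : ℤ) ∣ g0Mat γ 1 0 := dvd_apply_one_zero L γ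

theorem g0Mat_inv_mul {L : ℕ} (γ : Gamma0 L) : g0Mat γ⁻¹ * g0Mat γ = 1 := by
  rw [← g0Mat_mul, inv_mul_cancel, g0Mat_one]

theorem g0Mat_mul_inv {L : ℕ} (γ : Gamma0 L) : g0Mat γ * g0Mat γ⁻¹ = 1 := by
  rw [← g0Mat_mul, mul_inv_cancel, g0Mat_one]

/-- An integral matrix of determinant one as an element of `Γ₀(L)`. -/
def g0Mk {L : ℕ} (m : Mat) (h1 : m.det = 1) (h2 : (L : ℤ) ∣ m 1 0) : Gamma0 L :=
  ⟨⟨m, h1⟩, Gamma0_mem.mpr ((ZMod.intCast_zmod_eq_zero_iff_dvd _ _).mpr h2)⟩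

@[simp] theorem g0Mat_g0Mk {L : ℕ} (m : Mat) (h1 : m.det = 1) (h2 : (L : ℤ) ∣ m 1 0) :
    g0Mat (g0Mk m h1 h2) = m := rfl

/-- An integral matrix of nonzero determinant in `GL₂(ℝ)` (`1` otherwise). -/
def toGL (m : Mat) : GL (Fin 2) ℝ :=
  if h : m.det ≠ 0 then
    Matrix.GeneralLinearGroup.mkOfDetNeZero (m.map fun x : ℤ => (x : ℝ))
      (by rw [← Int.cast_det]; exact_mod_cast h)
  else 1

theorem toGL_coe {m : Mat} (h : m.det ≠ 0) :
    ((toGL m : GL (Fin 2) ℝ) : Matrix (Fin 2) (Fin 2) ℝ) = m.map fun x : ℤ => (x : ℝ) := by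
  rw [toGL, dif_pos h]; rfl

theorem toGL_mul {m n : Mat} (hm : m.det ≠ 0) (hn : n.det ≠ 0) :
    toGL (m * n) = toGL m * toGL n := by
  apply Units.ext
  rw [Units.val_mul, toGL_coe hm, toGL_coe hn, toGL_coe (by rw [Matrix.det_mul]; exact mul_ne_zero hm hn)]
  exact Matrix.map_mul (f := Int.castRingHom ℝ)

theorem toGL_inj {m n : Mat} (hm : m.det ≠ 0) (hn : n.det ≠ 0) : toGL m = toGL n ↔ m = n := by
  refine ⟨fun h => ?_, fun h => by rw [h]⟩
  have h' := congrArg (fun g : GL (Fin 2) ℝ => (g : Matrix (Fin 2) (Fin 2) ℝ)) h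
  simp only [toGL_coe hm, toGL_coe hn] at h'
  ext i j
  have := congrFun (congrFun h' i) j
  simpa using this

theorem gamma0GL_eq_toGL {L : ℕ} (γ : Gamma0 L) : gamma0GL L γ = toGL (g0Mat γ) := by
  apply Units.ext
  rw [toGL_coe (by rw [g0Mat_det]; exact one_ne_zero)]
  ext i j
  rw [gamma0GL_entry, Matrix.map_apply]

theorem det_g0Mat_mul {L : ℕ} (γ : Gamma0 L) (m : Mat) : (g0Mat γ * m).det = m.det := by
  rw [Matrix.det_mul, g0Mat_det, one_mul]

theorem toGL_g0Mat_mul {L : ℕ} (γ : Gamma0 L) {m : Mat} (hm : m.det ≠ 0) :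
    toGL (g0Mat γ * m) = gamma0GL L γ * toGL m := by
  rw [gamma0GL_eq_toGL, toGL_mul (by rw [g0Mat_det]; exact one_ne_zero) hm]

theorem toGL_mul_g0Mat {L : ℕ} {m : Mat} (hm : m.det ≠ 0) (γ : Gamma0 L) :
    toGL (m * g0Mat γ) = toGL m * gamma0GL L γ := by
  rw [gamma0GL_eq_toGL, toGL_mul hm (by rw [g0Mat_det]; exact one_ne_zero)]

/-- Matrices on which the weight is multiplicative. -/
structure Good (D : ℕ) (m : Mat) : Prop where
  dvd : (D : ℤ) ∣ m 1 0
  unit : IsUnit ((m.det : ℤ) : ZMod D)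
  ne : m.det ≠ 0

variable {D : ℕ} {A : Type*} [CommRing A]

theorem Good.mul {m n : Mat} (hm : Good D m) (hn : Good D n) : Good D (m * n) where
  dvd := by
    rw [Matrix.mul_apply, Fin.sum_univ_two]
    exact dvd_add (hm.dvd.mul_right _) (hn.dvd.mul_left _)
  unit := by rw [Matrix.det_mul, Int.cast_mul]; exact hm.unit.mul hn.unit
  ne := by rw [Matrix.det_mul]; exact mul_ne_zero hm.ne hn.ne

theorem good_g0Mat {L : ℕ} (hD : D ∣ L) (γ : Gamma0 L) : Good D (g0Mat γ) where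
  dvd := (Int.natCast_dvd_natCast.mpr hD).trans (g0Mat_dvd γ)
  unit := by rw [g0Mat_det, Int.cast_one]; exact isUnit_one
  ne := by rw [g0Mat_det]; exact one_ne_zero

/-- The weight `ψ(det) ψ(d)⁻²`. -/
def wt (ψ : DirichletCharacter A D) (m : Mat) : A :=
  ψ ((m.det : ℤ) : ZMod D) * ψ⁻¹ ((m 1 1 : ℤ) : ZMod D) ^ 2

theorem wt_mul (ψ : DirichletCharacter A D) {m n : Mat} (hm : Good D m) :
    wt ψ (m * n) = wt ψ m * wt ψ n := by
  have h11 : (((m * n) 1 1 : ℤ) : ZMod D) = (m 1 1 : ZMod D) * (n 1 1 : ZMod D) := by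
    rw [Matrix.mul_apply, Fin.sum_univ_two, Int.cast_add, Int.cast_mul, Int.cast_mul,
      (ZMod.intCast_zmod_eq_zero_iff_dvd _ _).mpr hm.dvd, zero_mul, zero_add]
  rw [wt, wt, wt, Matrix.det_mul, Int.cast_mul, h11, map_mul, map_mul]
  ring

theorem isUnit_g0Mat_11 {L : ℕ} (hD : D ∣ L) (γ : Gamma0 L) :
    IsUnit ((g0Mat γ 1 1 : ℤ) : ZMod D) := by
  have h := congrArg (Int.cast : ℤ → ZMod D) (g0Mat_det γ)
  rw [Matrix.det_fin_two, Int.cast_sub, Int.cast_mul, Int.cast_mul,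
    (ZMod.intCast_zmod_eq_zero_iff_dvd _ _).mpr (good_g0Mat hD γ).dvd, mul_zero, sub_zero,
    Int.cast_one] at h
  exact IsUnit.of_mul_eq_one _ (by rwa [mul_comm] at h)

theorem wt_g0Mat {L : ℕ} (hD : D ∣ L) (ψ : DirichletCharacter A D) (γ : Gamma0 L) :
    wt ψ (g0Mat γ) * chr hD ψ γ = 1 := by
  rw [wt, g0Mat_det, Int.cast_one, map_one, one_mul, chr_apply, ← mul_pow, ← MulChar.mul_apply,
    inv_mul_cancel, MulChar.one_apply (isUnit_g0Mat_11 hD γ), one_pow]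

/-- A system of integral representatives from level `L` to level `L'`. -/
structure IntSys (D L L' : ℕ) {I : Type*} (m : I → Mat) : Prop where
  good : ∀ i, Good D (m i)
  step : ∀ (γ : Gamma0 L') (i : I), ∃ (c : Gamma0 L) (j : I), m i * g0Mat γ = g0Mat c * m j
  dist : ∀ (c : Gamma0 L) (i j : I), m i = g0Mat c * m j → i = j

variable {L L' : ℕ} {I : Type*} {m : I → Mat}

theorem IntSys.opData (hs : IntSys D L L' m) (hD : D ∣ L) (hD' : D ∣ L')
    (ψ : DirichletCharacter A D) :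
    OpData (gamma0GL L) (gamma0GL L') (fun i => toGL (m i)) (chr hD ψ) (chr hD' ψ)
      (fun i => wt ψ (m i)) where
  inj := (Matrix.SpecialLinearGroup.mapGL_injective).comp Subtype.val_injective
  exists_step γ i := by
    obtain ⟨c, j, e⟩ := hs.step γ i
    refine ⟨c, j, ?_⟩
    rw [← toGL_mul_g0Mat (hs.good i).ne, e, toGL_g0Mat_mul _ (hs.good j).ne]
  eq_of_eq c i j e := by
    rw [← toGL_g0Mat_mul _ (hs.good j).ne,
      toGL_inj (hs.good i).ne (by rw [det_g0Mat_mul]; exact (hs.good j).ne)] at e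
    exact hs.dist c i j e
  weight γ c i j e := by
    rw [← toGL_mul_g0Mat (hs.good i).ne, ← toGL_g0Mat_mul _ (hs.good j).ne,
      toGL_inj ((hs.good i).mul (good_g0Mat hD' γ)).ne
        ((good_g0Mat hD c).mul (hs.good j)).ne] at e
    have h := congrArg (wt ψ) e
    rw [wt_mul ψ (hs.good i), wt_mul ψ (good_g0Mat hD c)] at h
    calc wt ψ (m i) * chr hD ψ c
        = wt ψ (m i) * (wt ψ (g0Mat γ) * chr hD' ψ γ) * chr hD ψ c := by
          rw [wt_g0Mat, mul_one]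
      _ = wt ψ (g0Mat c) * wt ψ (m j) * (chr hD' ψ γ * chr hD ψ c) := by rw [← h]; ring
      _ = (wt ψ (g0Mat c) * chr hD ψ c) * (chr hD' ψ γ * wt ψ (m j)) := by ring
      _ = chr hD' ψ γ * wt ψ (m j) := by rw [wt_g0Mat, one_mul]

/-- The operator attached to a system. -/
def IntSys.op [Fintype I] (hs : IntSys D L L' m) (hD : D ∣ L) (hD' : D ∣ L')
    (ψ : DirichletCharacter A D) (M : Type*) [AddCommGroup M] [Module A M] :
    CohL hD ψ M →ₗ[A] CohL hD' ψ M :=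
  (hs.opData hD hD' ψ).op M

theorem op_congr {Γ Γ' G : Type*} [Group Γ] [Group Γ'] [Group G] [Fintype I]
    {ι : Γ →* G} {ι' : Γ' →* G} {β β₂ : I → G} {Φ : Γ →* A} {Φ' : Γ' →* A} {w w₂ : I → A}
    (h : OpData ι ι' β Φ Φ' w) (h₂ : OpData ι ι' β₂ Φ Φ' w₂) (hβ : β = β₂) (hw : w = w₂)
    (M : Type*) [AddCommGroup M] [Module A M] : h.op M = h₂.op M := by
  subst hβ hw
  rfl

/-- Cancelling a factor of coprime determinant: a class identity between products descends. -/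
theorem exists_of_mul_eq_mul {L : ℕ} {a a' b b' : Mat} {c : Gamma0 L}
    (hdet : a.det = a'.det) (hdet' : b.det = b'.det) (hcop : IsCoprime a.det b.det)
    (ha : a.det ≠ 0) (hb : b.det ≠ 0) (h : a * b = g0Mat c * (a' * b')) :
    ∃ g : Mat, g.det = 1 ∧ g * b = b' ∧ a' * g = g0Mat c⁻¹ * a := by
  have h1 : g0Mat c⁻¹ * (a * b) = a' * b' := by
    rw [h, ← Matrix.mul_assoc, g0Mat_inv_mul, Matrix.one_mul]
  have h2 : a'.adjugate * g0Mat c⁻¹ * a * b = a.det • b' := by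
    rw [Matrix.mul_assoc _ a b, Matrix.mul_assoc, h1, ← Matrix.mul_assoc, Matrix.adjugate_mul,
      ← hdet, Matrix.smul_mul, Matrix.one_mul]
  have h3 : b.det • (a'.adjugate * g0Mat c⁻¹ * a) = a.det • (b' * b.adjugate) := by
    rw [← Matrix.smul_mul a.det b' b.adjugate, ← h2, Matrix.mul_assoc _ b, Matrix.mul_adjugate, Matrix.mul_smul,
      Matrix.mul_one]
  have h4 : ∀ i j, a.det ∣ (a'.adjugate * g0Mat c⁻¹ * a) i j := fun i j =>
    hcop.dvd_of_dvd_mul_left ⟨(b' * b.adjugate) i j, congrFun (congrFun h3 i) j⟩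
  choose g hg using h4
  have hg' : a'.adjugate * g0Mat c⁻¹ * a = a.det • (Matrix.of g) := by
    ext i j
    exact hg i j
  have h5 : Matrix.of g * b = b' := by
    apply smul_right_injective Mat ha
    show a.det • (Matrix.of g * b) = a.det • b'
    rw [← Matrix.smul_mul, ← hg', h2]
  refine ⟨Matrix.of g, ?_, h5, ?_⟩
  · have := congrArg Matrix.det h5
    rw [Matrix.det_mul, ← hdet'] at this
    exact mul_right_cancel₀ hb (this.trans (one_mul _).symm)
  · apply smul_right_injective Mat ha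
    show a.det • (a' * Matrix.of g) = a.det • (g0Mat c⁻¹ * a)
    rw [← Matrix.mul_smul, ← hg', ← Matrix.mul_assoc, ← Matrix.mul_assoc, Matrix.mul_adjugate,
      ← hdet, Matrix.smul_mul, Matrix.one_mul, Matrix.smul_mul]

section Square

variable {L₁ L₂ L₃ L₄ : ℕ} {IA IB IA' IB' : Type*}
  [Fintype IA] [Fintype IB] [Fintype IA'] [Fintype IB']
  {mA : IA → Mat} {mB : IB → Mat} {mA' : IA' → Mat} {mB' : IB' → Mat}

/-- Two composites with the same classes are equal. -/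
theorem comp_eq_comp (hA : IntSys D L₁ L₂ mA) (hB : IntSys D L₂ L₄ mB)
    (hA' : IntSys D L₁ L₃ mA') (hB' : IntSys D L₃ L₄ mB')
    (hne : ∀ (c : Gamma0 L₁) (x y : IA × IB),
      mA x.1 * mB x.2 = g0Mat c * (mA y.1 * mB y.2) → x = y)
    (hne' : ∀ (c : Gamma0 L₁) (x y : IA' × IB'),
      mA' x.1 * mB' x.2 = g0Mat c * (mA' y.1 * mB' y.2) → x = y)
    (hcard : Fintype.card (IA × IB) = Fintype.card (IA' × IB'))
    (hex : ∀ x : IA × IB, ∃ (y : IA' × IB') (c : Gamma0 L₁),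
      mA' y.1 * mB' y.2 = g0Mat c * (mA x.1 * mB x.2))
    (h₁ : D ∣ L₁) (h₂ : D ∣ L₂) (h₃ : D ∣ L₃) (h₄ : D ∣ L₄) (ψ : DirichletCharacter A D)
    (M : Type*) [AddCommGroup M] [Module A M] :
    (hB.op h₂ h₄ ψ M).comp (hA.op h₁ h₂ ψ M) = (hB'.op h₃ h₄ ψ M).comp (hA'.op h₁ h₃ ψ M) := by
  have gP : ∀ x : IA × IB, Good D (mA x.1 * mB x.2) := fun x => (hA.good x.1).mul (hB.good x.2)
  have gP' : ∀ y : IA' × IB', Good D (mA' y.1 * mB' y.2) :=
    fun y => (hA'.good y.1).mul (hB'.good y.2)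
  have hP := opData_prod (hA.opData h₁ h₂ ψ) (hB.opData h₂ h₄ ψ) (fun c x y e => by
    rw [← toGL_mul (hA.good x.1).ne (hB.good x.2).ne,
      ← toGL_mul (hA.good y.1).ne (hB.good y.2).ne, ← toGL_g0Mat_mul _ (gP y).ne,
      toGL_inj (gP x).ne ((good_g0Mat h₁ c).mul (gP y)).ne] at e
    exact hne c x y e)
  have hP' := opData_prod (hA'.opData h₁ h₃ ψ) (hB'.opData h₃ h₄ ψ) (fun c x y e => by
    rw [← toGL_mul (hA'.good x.1).ne (hB'.good x.2).ne,
      ← toGL_mul (hA'.good y.1).ne (hB'.good y.2).ne, ← toGL_g0Mat_mul _ (gP' y).ne,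
      toGL_inj (gP' x).ne ((good_g0Mat h₁ c).mul (gP' y)).ne] at e
    exact hne' c x y e)
  simp only [IntSys.op]
  rw [op_comp (hA.opData h₁ h₂ ψ) (hB.opData h₂ h₄ ψ) hP,
    op_comp (hA'.opData h₁ h₃ ψ) (hB'.opData h₃ h₄ ψ) hP']
  choose f u hu using hex
  have hinj : Function.Injective f := fun x y hxy => by
    refine hne ((u x)⁻¹ * u y) x y ?_
    have e : g0Mat (u x) * (mA x.1 * mB x.2) = g0Mat (u y) * (mA y.1 * mB y.2) := by
      rw [← hu x, ← hu y, hxy]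
    rw [g0Mat_mul, Matrix.mul_assoc, ← e, ← Matrix.mul_assoc, g0Mat_inv_mul, Matrix.one_mul]
  refine OpData.op_eq_of_equiv hP hP'
    (Equiv.ofBijective f ((Fintype.bijective_iff_injective_and_card f).mpr ⟨hinj, hcard⟩)) u
    (fun x => ?_) (fun x => ?_)
  · simp only [Equiv.ofBijective_apply]
    rw [← toGL_mul (hA'.good _).ne (hB'.good _).ne, ← toGL_mul (hA.good _).ne (hB.good _).ne,
      hu, toGL_g0Mat_mul _ (gP x).ne]
  · simp only [Equiv.ofBijective_apply]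
    rw [← wt_mul ψ (hA'.good _), ← wt_mul ψ (hA.good _), hu, wt_mul ψ (good_g0Mat h₁ _),
      mul_right_comm, wt_g0Mat, one_mul]

end Square

end Fermat.Agent.Ribet.Twisted
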