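/-
The systems of integral matrices used for the change of level: the Hecke system, the two
degeneracy systems from `Γ₀(L q)` to `Γ₀(L)` and the Atkin-Lehner element.
-/
import Fermat.Agent.Ribet.Twisted.LevelBasic

set_option autoImplicit false

noncomputable section

namespace Fermat.Agent.Ribet.Twisted

open CongruenceSubgroup
open scoped MatrixGroups
open Fermat.Agent.HeckeCohom (gamma0GL HeckeIdx heckeBeta isCosetSystem)

variable {L D : ℕ}

/-! ### The Hecke system -/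

/-- The representatives `(1 x; 0 ℓ)` and `(ℓ 0; 0 1)`. -/
def hmat (L ℓ : ℕ) (i : HeckeIdx L ℓ) : Mat :=
  i.1.elim !![(ℓ : ℤ), 0; 0, 1] fun x => !![1, (x.val : ℤ); 0, (ℓ : ℤ)]

theorem hmat_shape {ℓ : ℕ} (hℓ : ℓ.Prime) (i : HeckeIdx L ℓ) :
    ∃ a b d : ℤ, hmat L ℓ i = !![a, b; 0, d] ∧ a * d = ℓ ∧ IsCoprime a (L : ℤ) := by
  obtain ⟨_ | x, hi⟩ := i
  · exact ⟨_, _, _, rfl, mul_one _,
      (Nat.isCoprime_iff_coprime).mpr ((Nat.Prime.coprime_iff_not_dvd hℓ).mpr (hi rfl))⟩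
  · exact ⟨_, _, _, rfl, one_mul _, isCoprime_one_left⟩

theorem hmat_det {ℓ : ℕ} (i : HeckeIdx L ℓ) : (hmat L ℓ i).det = ℓ := by
  obtain ⟨_ | x, hi⟩ := i <;> simp [hmat, Matrix.det_fin_two_of]

theorem hmat_10 {ℓ : ℕ} (i : HeckeIdx L ℓ) : hmat L ℓ i 1 0 = 0 := by
  obtain ⟨_ | x, hi⟩ := i <;> simp [hmat]

theorem heckeBeta_eq_toGL {ℓ : ℕ} (hℓ : ℓ ≠ 0) (i : HeckeIdx L ℓ) :
    heckeBeta L ℓ i = toGL (hmat L ℓ i) := by
  apply Units.ext
  rw [toGL_coe (by rw [hmat_det]; exact_mod_cast hℓ)]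
  obtain ⟨_ | x, hi⟩ := i <;> ext a b <;> fin_cases a <;> fin_cases b <;>
    simp [heckeBeta, hmat, hℓ, -ZMod.natCast_val]

/-- A matrix of determinant divisible by `ℓ` factors through a representative. -/
theorem exists_eq_mul_hmat {ℓ : ℕ} (hℓ : ℓ.Prime) {g : Mat} (hdet : (ℓ : ℤ) ∣ g.det)
    (h10 : (L : ℤ) ∣ g 1 0) (h00 : IsCoprime (g 0 0) (L : ℤ)) :
    ∃ (h : Mat) (i : HeckeIdx L ℓ), g = h * hmat L ℓ i ∧ (L : ℤ) ∣ h 1 0 ∧
      IsCoprime (h 0 0) (L : ℤ) := by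
  haveI : Fact ℓ.Prime := ⟨hℓ⟩
  rw [Matrix.det_fin_two, ← ZMod.intCast_zmod_eq_zero_iff_dvd, Int.cast_sub, Int.cast_mul,
    Int.cast_mul] at hdet
  by_cases hboth : (g 0 0 : ZMod ℓ) = 0 ∧ (g 1 0 : ZMod ℓ) = 0
  · obtain ⟨ha, hc⟩ := hboth
    rw [ZMod.intCast_zmod_eq_zero_iff_dvd] at ha hc
    have hℓL : ¬ ℓ ∣ L := fun h => (Nat.prime_iff_prime_int.mp hℓ).not_isUnit
      (h00.isUnit_of_dvd' ha (Int.natCast_dvd_natCast.mpr h))
    have hcop : IsCoprime (L : ℤ) (ℓ : ℤ) :=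
      ((Nat.isCoprime_iff_coprime).mpr ((Nat.Prime.coprime_iff_not_dvd hℓ).mpr hℓL)).symm
    obtain ⟨a, ha⟩ := ha
    obtain ⟨c, hc⟩ := hc
    refine ⟨!![a, g 0 1; c, g 1 1], ⟨none, fun _ => hℓL⟩, ?_, ?_, ?_⟩
    · ext r s
      fin_cases r <;> fin_cases s <;>
        simp [hmat, Matrix.mul_apply, Fin.sum_univ_two, ha, hc, mul_comm]
    · simpa using hcop.dvd_of_dvd_mul_left (hc ▸ h10)
    · have h := (ha ▸ h00 : IsCoprime ((ℓ : ℤ) * a) (L : ℤ))
      simpa using h.of_mul_left_right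
  · obtain ⟨x, hxb, hxd⟩ : ∃ x : ZMod ℓ, (g 0 1 : ZMod ℓ) = (g 0 0 : ZMod ℓ) * x ∧
        (g 1 1 : ZMod ℓ) = (g 1 0 : ZMod ℓ) * x := by
      rcases not_and_or.mp hboth with h | h
      · refine ⟨(g 0 1 : ZMod ℓ) / (g 0 0 : ZMod ℓ), (mul_div_cancel₀ _ h).symm, ?_⟩
        field_simp
        linear_combination hdet
      · refine ⟨(g 1 1 : ZMod ℓ) / (g 1 0 : ZMod ℓ), ?_, (mul_div_cancel₀ _ h).symm⟩
        field_simp
        linear_combination -hdet
    obtain ⟨b, hb⟩ : (ℓ : ℤ) ∣ g 0 1 - g 0 0 * x.val := by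
      rw [← ZMod.intCast_zmod_eq_zero_iff_dvd]; simp [hxb]
    obtain ⟨d, hd⟩ : (ℓ : ℤ) ∣ g 1 1 - g 1 0 * x.val := by
      rw [← ZMod.intCast_zmod_eq_zero_iff_dvd]; simp [hxd]
    refine ⟨!![g 0 0, b; g 1 0, d], ⟨some x, by simp⟩, ?_, by simpa using h10, by simpa using h00⟩
    ext r s
    fin_cases r <;> fin_cases s <;>
      simp [hmat, Matrix.mul_apply, Fin.sum_univ_two, -ZMod.natCast_val]
    · linear_combination hb
    · linear_combination hd

theorem exists_g0Mat_mul_hmat {ℓ : ℕ} (hℓ : ℓ.Prime) {g : Mat} (hdet : g.det = ℓ)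
    (h10 : (L : ℤ) ∣ g 1 0) (h00 : IsCoprime (g 0 0) (L : ℤ)) :
    ∃ (c : Gamma0 L) (i : HeckeIdx L ℓ), g = g0Mat c * hmat L ℓ i := by
  obtain ⟨h, i, rfl, hh10, -⟩ := exists_eq_mul_hmat hℓ (by rw [hdet]) h10 h00
  refine ⟨g0Mk h ?_ hh10, i, rfl⟩
  rw [Matrix.det_mul, hmat_det] at hdet
  exact mul_right_cancel₀ (Int.natCast_ne_zero.mpr hℓ.ne_zero) (hdet.trans (one_mul _).symm)

theorem isCoprime_g0Mat_00 (γ : Gamma0 L) : IsCoprime (g0Mat γ 0 0) (L : ℤ) := by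
  obtain ⟨c, hc⟩ := g0Mat_dvd γ
  exact ⟨g0Mat γ 1 1, -(g0Mat γ 0 1 * c), by
    have h := g0Mat_det γ
    rw [Matrix.det_fin_two, hc] at h
    linear_combination h⟩

/-- Products keep `L ∣ c` and `gcd (a, L) = 1`. -/
theorem mul_mem_delta {g h : Mat} (hg : (L : ℤ) ∣ g 1 0) (hg' : IsCoprime (g 0 0) (L : ℤ))
    (hh : (L : ℤ) ∣ h 1 0) (hh' : IsCoprime (h 0 0) (L : ℤ)) :
    (L : ℤ) ∣ (g * h) 1 0 ∧ IsCoprime ((g * h) 0 0) (L : ℤ) := by
  simp only [Matrix.mul_apply, Fin.sum_univ_two]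
  refine ⟨dvd_add (hg.mul_right _) (hh.mul_left _), ?_⟩
  obtain ⟨c, hc⟩ := hh
  rw [hc, mul_left_comm]
  exact (hg'.mul_left hh').add_mul_left_left _

theorem hmat_intSys {ℓ : ℕ} (hℓ : ℓ.Prime) (hℓD : ¬ ℓ ∣ D) :
    IntSys D L L (hmat L ℓ) where
  good i :=
    { dvd := by rw [hmat_10]; exact dvd_zero _
      unit := by
        rw [hmat_det, Int.cast_natCast]
        exact (ZMod.isUnit_iff_coprime ℓ D).mpr ((Nat.Prime.coprime_iff_not_dvd hℓ).mpr hℓD)
      ne := by rw [hmat_det]; exact_mod_cast hℓ.ne_zero }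
  step γ i := by
    obtain ⟨a, b, d, hi, -, ha⟩ := hmat_shape hℓ i
    have h := mul_mem_delta (g := hmat L ℓ i) (h := g0Mat γ) (by rw [hmat_10]; exact dvd_zero _)
      (by rw [hi]; simpa using ha) (g0Mat_dvd γ) (isCoprime_g0Mat_00 γ)
    exact exists_g0Mat_mul_hmat hℓ (by rw [Matrix.det_mul, g0Mat_det, mul_one, hmat_det]) h.1 h.2
  dist c i j e := by
    haveI : Fact ℓ.Prime := ⟨hℓ⟩
    refine (isCosetSystem L ℓ).eq_of_eq c i j ?_
    rw [heckeBeta_eq_toGL hℓ.ne_zero, heckeBeta_eq_toGL hℓ.ne_zero,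
      ← toGL_g0Mat_mul _ (by rw [hmat_det]; exact_mod_cast hℓ.ne_zero), e]

/-! ### The degeneracy systems -/

variable (L) (q : ℕ) (u v : ℤ)

/-- Representatives of `Γ₀(L q) \ Γ₀(L)`. -/
def fmat₁ (k : Option (ZMod q)) : Mat :=
  k.elim 1 fun x => !![u, u * x.val - v; (L : ℤ), (L : ℤ) * x.val + q]

/-- Representatives of the second degeneracy double coset. -/
def fmat₂ (k : Option (ZMod q)) : Mat :=
  k.elim !![(q : ℤ) * u, -v; (q : ℤ) * L, q] fun x => !![1, (x.val : ℤ); 0, (q : ℤ)]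

variable {L q u v}

/-- A family `m k = δ r k` with `δ = (1 0; 0 t)`, `r k ∈ Γ₀(L)`, exhausting `Γ₀(L q) \ δ Γ₀(L)`. -/
structure DegSys (L q : ℕ) (t : ℤ) (m : Option (ZMod q) → Mat) : Prop where
  det_eq : ∀ k, (m k).det = t
  exists_r : ∀ k, ∃ r : Gamma0 L, m k = !![1, 0; 0, t] * g0Mat r
  complete : ∀ c : Gamma0 L, ∃ (c' : Gamma0 (L * q)) (k : Option (ZMod q)),
    !![1, 0; 0, t] * g0Mat c = g0Mat c' * m k
  dist : ∀ (c : Gamma0 (L * q)) (i j : Option (ZMod q)), m i = g0Mat c * m j → i = j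

theorem DegSys.intSys {t : ℤ} {m : Option (ZMod q) → Mat} (hm : DegSys L q t m) (hD : D ∣ L)
    (ht : IsUnit (t : ZMod D)) (ht0 : t ≠ 0) : IntSys D (L * q) L m where
  good k :=
    { dvd := by
        obtain ⟨r, hr⟩ := hm.exists_r k
        rw [hr, Matrix.mul_apply, Fin.sum_univ_two]
        simpa using ((Int.natCast_dvd_natCast.mpr hD).trans (g0Mat_dvd r)).mul_left t
      unit := by rw [hm.det_eq]; exact ht
      ne := by rw [hm.det_eq]; exact ht0 }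
  step γ k := by
    obtain ⟨r, hr⟩ := hm.exists_r k
    obtain ⟨c', k', h⟩ := hm.complete (r * γ)
    exact ⟨c', k', by rw [hr, Matrix.mul_assoc, ← g0Mat_mul, h]⟩
  dist := hm.dist

theorem not_dvd_coe {q : ℕ} (hqL : ¬ q ∣ L) : (L : ZMod q) ≠ 0 :=
  fun h => hqL ((ZMod.natCast_eq_zero_iff L q).mp h)

theorem dvd_mul_level [Fact q.Prime] (hqL : ¬ q ∣ L) {z : ℤ} (h₁ : (L : ℤ) ∣ z)
    (h₂ : (z : ZMod q) = 0) : ((L * q : ℕ) : ℤ) ∣ z := by
  rw [Nat.cast_mul]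
  exact ((Nat.isCoprime_iff_coprime).mpr
    ((Nat.Prime.coprime_iff_not_dvd (Fact.out : q.Prime)).mpr hqL)).symm.mul_dvd h₁
    ((ZMod.intCast_zmod_eq_zero_iff_dvd _ _).mp h₂)

theorem g0Mat_10_cast (c : Gamma0 (L * q)) : ((g0Mat c 1 0 : ℤ) : ZMod q) = 0 :=
  (ZMod.intCast_zmod_eq_zero_iff_dvd _ _).mpr
    ((Int.natCast_dvd_natCast.mpr (dvd_mul_left q L)).trans (g0Mat_dvd c))

theorem degSys₁ [Fact q.Prime] (hqL : ¬ q ∣ L) (huv : (q : ℤ) * u + L * v = 1) :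
    DegSys L q 1 (fmat₁ L q u v) where
  det_eq k := by
    rcases k with _ | x
    · simp [fmat₁]
    · simp [fmat₁, Matrix.det_fin_two_of, -ZMod.natCast_val]
      linear_combination huv
  exists_r k := by
    rcases k with _ | x
    · exact ⟨1, by simp [fmat₁, g0Mat_one, Matrix.one_fin_two]⟩
    · refine ⟨g0Mk !![u, u * x.val - v; (L : ℤ), (L : ℤ) * x.val + q]
        (by rw [Matrix.det_fin_two_of]; linear_combination huv) (by simp), ?_⟩
      simp [fmat₁, ← Matrix.one_fin_two]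
  complete c := by
    rw [← Matrix.one_fin_two, Matrix.one_mul]
    have hdet := g0Mat_det c
    rw [Matrix.det_fin_two] at hdet
    by_cases h : (g0Mat c 1 0 : ZMod q) = 0
    · exact ⟨g0Mk (g0Mat c) (g0Mat_det c) (dvd_mul_level hqL (g0Mat_dvd c) h), none,
        by simp [fmat₁]⟩
    · set x : ZMod q := (g0Mat c 1 1 : ZMod q) / (g0Mat c 1 0 : ZMod q) with hx
      let M : Mat := g0Mat c * !![(L : ℤ) * x.val + q, -(u * x.val - v); -(L : ℤ), u]
      have hM1 : M.det = 1 := by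
        rw [Matrix.det_mul, g0Mat_det, Matrix.det_fin_two_of]
        linear_combination huv
      have hM2 : (L : ℤ) ∣ M 1 0 := by
        simp only [M, Matrix.mul_apply, Fin.sum_univ_two]
        simpa using dvd_add ((g0Mat_dvd c).mul_right ((L : ℤ) * x.val + q))
          (dvd_neg.mpr (dvd_mul_left (L : ℤ) (g0Mat c 1 1)))
      have hM3 : ((M 1 0 : ℤ) : ZMod q) = 0 := by
        have hcx : (g0Mat c 1 0 : ZMod q) * x = (g0Mat c 1 1 : ZMod q) :=
          mul_div_cancel₀ _ h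
        simp [M, Matrix.mul_apply, Fin.sum_univ_two]
        linear_combination (L : ZMod q) * hcx
      refine ⟨g0Mk M hM1 (dvd_mul_level hqL hM2 hM3), some x, ?_⟩
      rw [g0Mat_g0Mk, Matrix.mul_assoc]
      conv_lhs => rw [← Matrix.mul_one (g0Mat c), Matrix.one_fin_two]
      congr 1
      simp [fmat₁, Matrix.mul_fin_two, -ZMod.natCast_val]
      refine ⟨⟨?_, ?_⟩, ?_, ?_⟩ <;> first | linear_combination -huv | ring
  dist c i j e := by
    have hc := g0Mat_10_cast c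
    have hL := not_dvd_coe hqL
    have e0 := congrArg (Int.cast : ℤ → ZMod q) (congrFun (congrFun e 1) 0)
    have e1 := congrArg (Int.cast : ℤ → ZMod q) (congrFun (congrFun e 1) 1)
    rcases i with _ | x <;> rcases j with _ | y <;>
      simp [fmat₁, Matrix.mul_apply, Fin.sum_univ_two, hc] at e0 e1 ⊢
    · rcases e0 with h | h
      · first | exact hL h | simp [h] at e1
      · first | exact hL h | simp [h] at e1
    · exact hL e0
    · have h1 : ((g0Mat c 1 1 : ℤ) : ZMod q) = 1 :=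
        mul_right_cancel₀ hL (e0.symm.trans (one_mul _).symm)
      rw [h1, one_mul] at e1
      exact mul_left_cancel₀ hL e1

theorem degSys₂ [Fact q.Prime] (hqL : ¬ q ∣ L) (huv : (q : ℤ) * u + L * v = 1) :
    DegSys L q q (fmat₂ L q u v) where
  det_eq k := by
    rcases k with _ | x
    · simp [fmat₂, Matrix.det_fin_two_of]
      linear_combination (q : ℤ) * huv
    · simp [fmat₂, Matrix.det_fin_two_of]
  exists_r k := by
    rcases k with _ | x
    · refine ⟨g0Mk !![(q : ℤ) * u, -v; (L : ℤ), 1]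
        (by rw [Matrix.det_fin_two_of]; linear_combination huv) (by simp), ?_⟩
      simp [fmat₂, Matrix.mul_fin_two]
    · refine ⟨g0Mk !![1, (x.val : ℤ); 0, 1] (by rw [Matrix.det_fin_two_of]; ring) (by simp), ?_⟩
      simp [fmat₂, Matrix.mul_fin_two]
  complete c := by
    have hdet := g0Mat_det c
    rw [Matrix.det_fin_two] at hdet
    by_cases h : (g0Mat c 0 0 : ZMod q) = 0
    · obtain ⟨k, hk⟩ : (q : ℤ) ∣ g0Mat c 0 0 := (ZMod.intCast_zmod_eq_zero_iff_dvd _ _).mp h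
      obtain ⟨l, hl⟩ := g0Mat_dvd c
      let C : Mat := !![g0Mat c 0 0 - g0Mat c 0 1 * L, k * v + g0Mat c 0 1 * u;
        (q : ℤ) * (g0Mat c 1 0 - g0Mat c 1 1 * L), g0Mat c 1 0 * v + g0Mat c 1 1 * (q * u)]
      have hC1 : C.det = 1 := by
        rw [Matrix.det_fin_two_of]
        linear_combination hdet + (g0Mat c 0 0 * g0Mat c 1 1 - g0Mat c 0 1 * g0Mat c 1 0) * huv
          + v * (g0Mat c 1 0 - g0Mat c 1 1 * L) * hk
      have hC2 : ((L * q : ℕ) : ℤ) ∣ C 1 0 := ⟨l - g0Mat c 1 1, by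
        simp [C, hl]; ring⟩
      refine ⟨g0Mk C hC1 hC2, none, ?_⟩
      rw [g0Mat_g0Mk]
      ext r s
      fin_cases r <;> fin_cases s <;> simp [C, fmat₂, Matrix.mul_apply, Fin.sum_univ_two]
      · linear_combination -(g0Mat c 0 0) * huv + (L : ℤ) * v * hk
      · linear_combination -(g0Mat c 0 1) * huv + v * hk - v * g0Mat c 0 1 * (L : ℤ) * 0
      · linear_combination -((q : ℤ) * g0Mat c 1 0) * huv
      · linear_combination -((q : ℤ) * g0Mat c 1 1) * huv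
    · set x : ZMod q := (g0Mat c 0 1 : ZMod q) / (g0Mat c 0 0 : ZMod q) with hx
      obtain ⟨k, hk⟩ : (q : ℤ) ∣ g0Mat c 0 1 - g0Mat c 0 0 * x.val := by
        rw [← ZMod.intCast_zmod_eq_zero_iff_dvd]
        simp [hx, mul_div_cancel₀ _ h]
      obtain ⟨l, hl⟩ := g0Mat_dvd c
      let C : Mat := !![g0Mat c 0 0, k; (q : ℤ) * g0Mat c 1 0,
        g0Mat c 1 1 - g0Mat c 1 0 * x.val]
      have hC1 : C.det = 1 := by
        rw [Matrix.det_fin_two_of]
        linear_combination hdet + g0Mat c 1 0 * hk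
      have hC2 : ((L * q : ℕ) : ℤ) ∣ C 1 0 := ⟨l, by simp [C, hl]; ring⟩
      refine ⟨g0Mk C hC1 hC2, some x, ?_⟩
      rw [g0Mat_g0Mk]
      ext r s
      fin_cases r <;> fin_cases s <;>
        simp [C, fmat₂, Matrix.mul_apply, Fin.sum_univ_two, -ZMod.natCast_val]
      · linear_combination hk
      · ring
  dist c i j e := by
    have e0 := congrArg (Int.cast : ℤ → ZMod q) (congrFun (congrFun e 0) 0)
    have e1 := congrArg (Int.cast : ℤ → ZMod q) (congrFun (congrFun e 0) 1)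
    have huv' : (L : ZMod q) * (v : ZMod q) = 1 := by
      simpa using congrArg (Int.cast : ℤ → ZMod q) huv
    rcases i with _ | x <;> rcases j with _ | y <;>
      simp [fmat₂, Matrix.mul_apply, Fin.sum_univ_two] at e0 e1 ⊢
    · simp [← e0] at e1
      simp [e1] at huv'
    · simpa [← e0] using e1

end Fermat.Agent.Ribet.Twisted
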