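/-
Commutation of the operators and the change of level by a prime not dividing the nebentype.

The two degeneracy maps `f₁, f₂` from level `L q` to level `L` satisfy, after restriction back
to level `L q`, the identities `res ∘ f₁ = 1 + U' ∘ W` and `res ∘ f₂ = U' + W` on cocycles,
`W` the Atkin-Lehner operator; so `U' ∘ U' = 1` on their common kernel.
-/
import Fermat.Agent.Ribet.Twisted.Hecke
import Fermat.Agent.Ribet.Twisted.LevelReps

set_option autoImplicit false

noncomputable section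

namespace Fermat.Agent.Ribet.Twisted

open CongruenceSubgroup
open scoped MatrixGroups
open Fermat.Agent.HeckeCohom (gamma0GL HeckeIdx heckeBeta)

variable {L D : ℕ} {A : Type*} [CommRing A] {M : Type*} [AddCommGroup M] [Module A M]

theorem wt_hmat {ℓ : ℕ} (hℓ : ℓ.Prime) (hℓD : ¬ ℓ ∣ D) (ψ : DirichletCharacter A D)
    (i : HeckeIdx L ℓ) : wt ψ (hmat L ℓ i) = heckeWeight L ψ ℓ i := by
  have h := inv_apply_mul_apply hℓ hℓD ψ
  rw [wt, hmat_det, Int.cast_natCast]
  obtain ⟨_ | x, hi⟩ := i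
  · simp [hmat, heckeWeight]
  · simp [hmat, heckeWeight]
    linear_combination ψ⁻¹ (ℓ : ZMod D) * h

/-- `T'_ℓ` as the operator of a system of integral matrices. -/
theorem heckeT'_eq_intSys (hD : D ∣ L) (ψ : DirichletCharacter A D) {ℓ : ℕ} [Fact ℓ.Prime]
    (hℓD : ¬ ℓ ∣ D) :
    heckeT' hD ψ M ℓ = (hmat_intSys (L := L) (Fact.out : ℓ.Prime) hℓD).op hD hD ψ M := by
  rw [heckeT'_eq hD ψ M hℓD]
  exact op_congr _ _ (funext fun i => heckeBeta_eq_toGL (Fact.out : ℓ.Prime).ne_zero i)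
    (funext fun i => (wt_hmat Fact.out hℓD ψ i).symm) M

theorem mat_cancel_right {a a' b : Mat} (hb : b.det ≠ 0) (h : a * b = a' * b) : a = a' := by
  have h' := congrArg (fun x => x * b.adjugate) h
  simp only [Matrix.mul_assoc, Matrix.mul_adjugate, Matrix.mul_smul, Matrix.mul_one] at h'
  exact smul_right_injective Mat hb h'

/-- Products with a Hecke system on the right give distinct classes. -/
theorem dist_mul_hmat {L₁ : ℕ} {I : Type*} {m : I → Mat} (hm : IntSys D L₁ L m) {t : ℤ}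
    (ht : ∀ i, (m i).det = t) (ht0 : t ≠ 0) {ℓ : ℕ} (hℓ : ℓ.Prime) (hℓD : ¬ ℓ ∣ D)
    (hcop : IsCoprime t (ℓ : ℤ)) (c : Gamma0 L₁) (x y : I × HeckeIdx L ℓ)
    (e : m x.1 * hmat L ℓ x.2 = g0Mat c * (m y.1 * hmat L ℓ y.2)) : x = y := by
  obtain ⟨g, hg, hgb, -⟩ := exists_of_mul_eq_mul (a := m x.1) (a' := m y.1)
    (b := hmat L ℓ x.2) (b' := hmat L ℓ y.2) (by rw [ht, ht]) (by rw [hmat_det, hmat_det])
    (by rw [ht, hmat_det]; exact hcop) (by rw [ht]; exact ht0)
    (by rw [hmat_det]; exact_mod_cast hℓ.ne_zero) e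
  obtain ⟨a, b, d, hx, had, -⟩ := hmat_shape hℓ x.2
  have ha : a ≠ 0 := fun h => by
    rw [h, zero_mul] at had; exact hℓ.ne_zero (by exact_mod_cast had.symm)
  have hg10 : g 1 0 = 0 := by
    have h := congrFun (congrFun hgb 1) 0
    rw [hmat_10, hx] at h
    simpa [Matrix.mul_apply, Fin.sum_univ_two, ha] using h
  have h2 : x.2 = y.2 :=
    ((hmat_intSys hℓ hℓD).dist (g0Mk g hg (by rw [hg10]; exact dvd_zero _)) y.2 x.2 hgb.symm).symm
  rw [← h2, ← Matrix.mul_assoc] at e
  have h1 : x.1 = y.1 :=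
    hm.dist c _ _ (mat_cancel_right (by rw [hmat_det]; exact_mod_cast hℓ.ne_zero) e)
  exact Prod.ext h1 h2

/-- The operators commute. -/
theorem heckeT'_comm [NeZero L] (hD : D ∣ L) (ψ : DirichletCharacter A D) (ℓ m : ℕ) :
    Commute (heckeT' hD ψ M ℓ) (heckeT' hD ψ M m) := by
  by_cases h1 : ℓ.Prime ∧ ¬ ℓ ∣ D
  swap
  · rw [heckeT', dif_neg h1]; exact Commute.zero_left _
  by_cases h2 : m.Prime ∧ ¬ m ∣ D
  swap
  · rw [heckeT', heckeT', dif_neg h2]; exact Commute.zero_right _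
  rcases eq_or_ne ℓ m with rfl | hne
  · exact Commute.refl _
  haveI : Fact ℓ.Prime := ⟨h1.1⟩
  haveI : Fact m.Prime := ⟨h2.1⟩
  rw [heckeT'_eq_intSys hD ψ h1.2, heckeT'_eq_intSys hD ψ h2.2]
  have hcop : IsCoprime (ℓ : ℤ) (m : ℤ) :=
    (Nat.isCoprime_iff_coprime).mpr ((Nat.coprime_primes h1.1 h2.1).mpr hne)
  have hl := hmat_intSys (L := L) h1.1 h1.2
  have hm := hmat_intSys (L := L) h2.1 h2.2
  refine comp_eq_comp hm hl hl hm
    (dist_mul_hmat hm hmat_det (by exact_mod_cast h2.1.ne_zero) h1.1 h1.2 hcop.symm)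
    (dist_mul_hmat hl hmat_det (by exact_mod_cast h1.1.ne_zero) h2.1 h2.2 hcop)
    (by simp [Fintype.card_prod, mul_comm]) (fun x => ?_) hD hD hD hD ψ M
  obtain ⟨a, b, d, hx, -, ha⟩ := hmat_shape h2.1 x.1
  obtain ⟨a', b', d', hy, -, ha'⟩ := hmat_shape h1.1 x.2
  have hd := mul_mem_delta (g := hmat L m x.1) (h := hmat L ℓ x.2)
    (by rw [hmat_10]; exact dvd_zero _) (by rw [hx]; simpa using ha)
    (by rw [hmat_10]; exact dvd_zero _) (by rw [hy]; simpa using ha')
  obtain ⟨h, k, hk, hh, hh0⟩ := exists_eq_mul_hmat (L := L) h2.1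
    (by rw [Matrix.det_mul, hmat_det, hmat_det]; exact dvd_mul_right _ _) hd.1 hd.2
  have hdet : h.det = ℓ := by
    have := congrArg Matrix.det hk
    rw [Matrix.det_mul, Matrix.det_mul, hmat_det, hmat_det, hmat_det, mul_comm (m : ℤ)] at this
    exact (mul_right_cancel₀ (Int.natCast_ne_zero.mpr h2.1.ne_zero) this).symm
  obtain ⟨c, l, hc⟩ := exists_g0Mat_mul_hmat h1.1 hdet hh hh0
  exact ⟨(l, k), c⁻¹, by
    rw [hk, hc, Matrix.mul_assoc (g0Mat c), ← Matrix.mul_assoc, g0Mat_inv_mul, Matrix.one_mul]⟩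

section Lowering

variable {q : ℕ}

/-- A degeneracy map commutes with the operators away from `q`. -/
theorem degSys_comm [Fact q.Prime] (hqL : ¬ q ∣ L) (hD : D ∣ L) (ψ : DirichletCharacter A D)
    {t : ℤ} {m : Option (ZMod q) → Mat} (hm : DegSys L q t m) (ht : IsUnit (t : ZMod D))
    (ht0 : t ≠ 0) {ℓ : ℕ} [NeZero ℓ] (hℓ : ℓ.Prime) (hℓq : ℓ ≠ q) (hℓD : ¬ ℓ ∣ D)
    (htℓ : IsCoprime t (ℓ : ℤ)) :
    ((hm.intSys hD ht ht0).op (hD.trans (Nat.dvd_mul_right L q)) hD ψ M).comp
        ((hmat_intSys (L := L * q) hℓ hℓD).op (hD.trans (Nat.dvd_mul_right L q))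
          (hD.trans (Nat.dvd_mul_right L q)) ψ M) =
      ((hmat_intSys (L := L) hℓ hℓD).op hD hD ψ M).comp
        ((hm.intSys hD ht ht0).op (hD.trans (Nat.dvd_mul_right L q)) hD ψ M) := by
  haveI : Fact ℓ.Prime := ⟨hℓ⟩
  have hℓq' : (ℓ : ZMod q) ≠ 0 := fun h => hℓq
    ((Nat.prime_dvd_prime_iff_eq (Fact.out : q.Prime) hℓ).mp
      ((ZMod.natCast_eq_zero_iff ℓ q).mp h)).symm
  refine comp_eq_comp (hmat_intSys hℓ hℓD) (hm.intSys hD ht ht0) (hm.intSys hD ht ht0)
    (hmat_intSys hℓ hℓD) ?_ (dist_mul_hmat (hm.intSys hD ht ht0) hm.det_eq ht0 hℓ hℓD htℓ)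
    ?_ ?_ _ _ hD hD ψ M
  · intro c x y e
    obtain ⟨g, hg, hgb, hga⟩ := exists_of_mul_eq_mul (a := hmat (L * q) ℓ x.1)
      (a' := hmat (L * q) ℓ y.1) (b := m x.2) (b' := m y.2) (by rw [hmat_det, hmat_det])
      (by rw [hm.det_eq, hm.det_eq]) (by rw [hmat_det, hm.det_eq]; exact htℓ.symm)
      (by rw [hmat_det]; exact_mod_cast hℓ.ne_zero) (by rw [hm.det_eq]; exact ht0) e
    have hqg : ((g 1 0 : ℤ) : ZMod q) = 0 := by
      obtain ⟨a, b, d, hy, had, -⟩ := hmat_shape hℓ y.1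
      obtain ⟨a', b', d', hx, -, -⟩ := hmat_shape hℓ x.1
      have h := congrArg (Int.cast : ℤ → ZMod q) (congrFun (congrFun hga 1) 0)
      rw [hy, hx] at h
      simp [Matrix.mul_apply, Fin.sum_univ_two, g0Mat_10_cast] at h
      refine h.resolve_left fun hd => hℓq' ?_
      have := congrArg (Int.cast : ℤ → ZMod q) had
      simp [hd] at this
      exact this.symm
    obtain ⟨r, hr⟩ := hm.exists_r x.2
    obtain ⟨r', hr'⟩ := hm.exists_r y.2
    have hLg : (L : ℤ) ∣ g 1 0 := by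
      have h' : g * !![1, 0; 0, t] = !![1, 0; 0, t] * g0Mat (r' * r⁻¹) := by
        rw [g0Mat_mul, ← Matrix.mul_assoc, ← hr', ← hgb, hr, Matrix.mul_assoc,
          Matrix.mul_assoc, g0Mat_mul_inv, Matrix.mul_one]
      have h := congrFun (congrFun h' 1) 0
      simp [Matrix.mul_apply, Fin.sum_univ_two] at h
      rw [h]
      exact (g0Mat_dvd (r' * r⁻¹)).mul_left t
    have h2 : x.2 = y.2 :=
      (hm.dist (g0Mk g hg (dvd_mul_level hqL hLg hqg)) y.2 x.2 hgb.symm).symm
    rw [← h2, ← Matrix.mul_assoc] at e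
    have h1 : x.1 = y.1 := (hmat_intSys hℓ hℓD).dist c _ _
      (mat_cancel_right (by rw [hm.det_eq]; exact ht0) e)
    exact Prod.ext h1 h2
  · have hiff : ∀ x : Option (ZMod ℓ),
        (x = none → ¬ ℓ ∣ L * q) ↔ (x = none → ¬ ℓ ∣ L) := fun x =>
      imp_congr_right fun _ => not_congr ⟨fun h => (hℓ.dvd_mul.mp h).resolve_right
        (fun h' => hℓq ((Nat.prime_dvd_prime_iff_eq hℓ Fact.out).mp h')),
        fun h => h.mul_right q⟩
    rw [Fintype.card_prod, Fintype.card_prod,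
      Fintype.card_congr (Equiv.subtypeEquivRight hiff : HeckeIdx (L * q) ℓ ≃ HeckeIdx L ℓ),
      mul_comm]
  · intro x
    obtain ⟨a, b, d, hx, had, ha⟩ := hmat_shape hℓ x.1
    obtain ⟨r, hr⟩ := hm.exists_r x.2
    have hmul : hmat (L * q) ℓ x.1 * !![1, 0; 0, t] = !![1, 0; 0, t] * !![a, t * b; 0, d] := by
      rw [hx, Matrix.mul_fin_two, Matrix.mul_fin_two]
      simp [mul_comm]
    rw [Nat.cast_mul] at ha
    have hd := mul_mem_delta (L := L) (g := !![a, t * b; 0, d]) (h := g0Mat r) (by simp)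
      (by simpa using ha.of_mul_right_left) (g0Mat_dvd r) (isCoprime_g0Mat_00 r)
    obtain ⟨c, l, hc⟩ := exists_g0Mat_mul_hmat hℓ
      (by rw [Matrix.det_mul, g0Mat_det, mul_one, Matrix.det_fin_two_of, mul_zero, sub_zero, had])
      hd.1 hd.2
    obtain ⟨c', k, hk⟩ := hm.complete c
    refine ⟨(k, l), c'⁻¹, ?_⟩
    rw [hr, ← Matrix.mul_assoc (hmat _ _ _), hmul, Matrix.mul_assoc, hc, ← Matrix.mul_assoc _ _
      (hmat L ℓ l), hk, Matrix.mul_assoc (g0Mat c'), ← Matrix.mul_assoc (g0Mat c'⁻¹),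
      g0Mat_inv_mul, Matrix.one_mul]

theorem gamma0_mul_le : Gamma0 (L * q) ≤ Gamma0 L := fun g hg => by
  rw [Gamma0_mem, ZMod.intCast_zmod_eq_zero_iff_dvd] at hg ⊢
  exact (Int.natCast_dvd_natCast.mpr (Nat.dvd_mul_right L q)).trans hg

/-- `Γ₀(L q) ⊆ Γ₀(L)`. -/
def inclLevel : Gamma0 (L * q) →* Gamma0 L := Subgroup.inclusion gamma0_mul_le

theorem g0Mat_inclLevel (γ : Gamma0 (L * q)) : g0Mat (inclLevel γ) = g0Mat γ := rfl

theorem chr_inclLevel (hD : D ∣ L) (ψ : DirichletCharacter A D) (γ : Gamma0 (L * q)) :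
    chr hD ψ (inclLevel γ) = chr (hD.trans (Nat.dvd_mul_right L q)) ψ γ := by
  rw [chr_apply, chr_apply]
  rfl

variable (q) in
/-- Restriction of cocycles from level `L` to level `L q`. -/
def resCocycle (hD : D ∣ L) (ψ : DirichletCharacter A D) :
    cocycles (chr hD ψ) M →ₗ[A] cocycles (chr (hD.trans (Nat.dvd_mul_right L q)) ψ) M where
  toFun z := ⟨fun γ => (z : Gamma0 L → M) (inclLevel γ), fun g h => by
    simp only [map_mul, z.2 _ _, chr_inclLevel hD ψ]⟩
  map_add' _ _ := rfl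
  map_smul' _ _ := rfl

variable (q) in
/-- Restriction from level `L` to level `L q`. -/
def resLevel (hD : D ∣ L) (ψ : DirichletCharacter A D) :
    CohL hD ψ M →ₗ[A] CohL (hD.trans (Nat.dvd_mul_right L q)) ψ M :=
  Submodule.mapQ _ _ (resCocycle q hD ψ) (by
    rintro _ ⟨a, rfl⟩
    exact ⟨a, Subtype.ext (funext fun γ => by
      simp [resCocycle, chr_inclLevel hD ψ])⟩)

theorem resLevel_mk (hD : D ∣ L) (ψ : DirichletCharacter A D) (z : cocycles (chr hD ψ) M) :
    resLevel (M := M) q hD ψ (Coh.mk _ M z) = Coh.mk _ M (resCocycle q hD ψ z) := rfl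

/-- The chosen witnesses, as an identity of integral matrices. -/
theorem IntSys.step_spec {L₁ L₂ : ℕ} {I : Type*} {m : I → Mat} (hs : IntSys D L₁ L₂ m)
    (h₁ : D ∣ L₁) (h₂ : D ∣ L₂) (ψ : DirichletCharacter A D) (γ : Gamma0 L₂) (i : I) :
    m i * g0Mat γ = g0Mat ((hs.opData h₁ h₂ ψ).step γ i) * m ((hs.opData h₁ h₂ ψ).perm γ i) := by
  have h := (hs.opData h₁ h₂ ψ).spec γ i
  rwa [← toGL_mul_g0Mat (hs.good i).ne, ← toGL_g0Mat_mul _ (hs.good _).ne,
    toGL_inj ((hs.good i).mul (good_g0Mat h₂ γ)).ne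
      ((good_g0Mat h₁ _).mul (hs.good _)).ne] at h

/-- The Atkin-Lehner element normalises `Γ₀(L q)`. -/
theorem alSys [Fact q.Prime] (hqL : ¬ q ∣ L) (hD : D ∣ L) (hqD : IsUnit (q : ZMod D)) {u v : ℤ}
    (huv : (q : ℤ) * u + L * v = 1) :
    IntSys D (L * q) (L * q) (fun _ : Unit => fmat₂ L q u v none) where
  good _ := ((degSys₂ hqL huv).intSys hD (by simpa using hqD)
    (Int.natCast_ne_zero.mpr (Fact.out : q.Prime).ne_zero)).good none
  step γ _ := by
    obtain ⟨r, hr⟩ := (degSys₂ hqL huv).exists_r none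
    obtain ⟨c, k, hk⟩ := (degSys₂ hqL huv).complete (r * inclLevel γ)
    rw [g0Mat_mul, ← Matrix.mul_assoc, ← hr, g0Mat_inclLevel] at hk
    rcases k with _ | y
    · exact ⟨c, (), hk⟩
    · exfalso
      have h := congrArg (Int.cast : ℤ → ZMod q) (congrFun (congrFun hk 0) 0)
      simp [fmat₂, Matrix.mul_apply, Fin.sum_univ_two, g0Mat_10_cast] at h
      have hd := congrArg (Int.cast : ℤ → ZMod q) (g0Mat_det c)
      rw [Matrix.det_fin_two] at hd
      simp [g0Mat_10_cast, ← h] at hd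
  dist _ _ _ _ := rfl

theorem mul_hmat_none [Fact q.Prime] {u v : ℤ} (x : HeckeIdx (L * q) q) :
    ∃ y : ZMod q, x.1 = some y ∧ fmat₂ L q u v none * hmat (L * q) q x
      = (q : ℤ) • fmat₁ L q u v (some y) := by
  obtain ⟨_ | y, hi⟩ := x
  · exact absurd (dvd_mul_left q L) (hi rfl)
  · refine ⟨y, rfl, ?_⟩
    ext a b
    fin_cases a <;> fin_cases b <;>
      simp [fmat₁, fmat₂, hmat, Matrix.mul_apply, Fin.sum_univ_two, -ZMod.natCast_val] <;> ring

/-- The index set of `U_q` is `ℤ/q`. -/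
def someIdx (L q : ℕ) : ZMod q ≃ HeckeIdx (L * q) q :=
  Equiv.ofBijective (fun x => ⟨some x, fun h => absurd h (Option.some_ne_none x)⟩)
    ⟨fun x y h => Option.some_injective _ (congrArg Subtype.val h), fun i => by
      obtain ⟨_ | y, hi⟩ := i
      · exact absurd (dvd_mul_left q L) (hi rfl)
      · exact ⟨y, rfl⟩⟩

theorem sum_someIdx [Fact q.Prime] {X : Type*} [AddCommMonoid X] (F : HeckeIdx (L * q) q → X) :
    ∑ i, F i = ∑ x : ZMod q, F ⟨some x, fun h => absurd h (Option.some_ne_none x)⟩ :=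
  (Equiv.sum_comp (someIdx L q) F).symm

/-- On the common kernel of the two degeneracy maps `U'_q` is an involution. -/
theorem sq_of_lowering_eq_zero [NeZero L] [Fact q.Prime] (hD : D ∣ L) (ψ : DirichletCharacter A D)
    (hqL : ¬ q ∣ L) {u v : ℤ} (huv : (q : ℤ) * u + L * v = 1)
    (h1u : IsUnit ((1 : ℤ) : ZMod D)) (hqu' : IsUnit (((q : ℤ)) : ZMod D)) (hq0 : (q : ℤ) ≠ 0)
    (x : CohL (hD.trans (Nat.dvd_mul_right L q)) ψ M)
    (hx : (((degSys₁ hqL huv).intSys hD h1u one_ne_zero).op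
        (hD.trans (Nat.dvd_mul_right L q)) hD ψ M).prod
      (((degSys₂ hqL huv).intSys hD hqu' hq0).op (hD.trans (Nat.dvd_mul_right L q)) hD ψ M) x = 0) :
    heckeT' (hD.trans (Nat.dvd_mul_right L q)) ψ M q
      (heckeT' (hD.trans (Nat.dvd_mul_right L q)) ψ M q x) = x := by
  have hq : q.Prime := Fact.out
  have hD' : D ∣ L * q := hD.trans (Nat.dvd_mul_right L q)
  have hqD : ¬ q ∣ D := fun h => hqL (h.trans hD)
  have hqu : IsUnit (q : ZMod D) := by simpa using hqu'
  have d₁ := degSys₁ hqL huv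
  have d₂ := degSys₂ hqL huv
  have hal := alSys hqL hD hqu huv
  have hU := hmat_intSys (L := L * q) hq hqD
  rw [heckeT'_eq_intSys hD' ψ hqD]
  obtain ⟨z, rfl⟩ := Coh.mk_surjective x
  have hx1 : resLevel (M := M) q hD ψ
      (((d₁.intSys hD h1u one_ne_zero).opData hD' hD ψ).op M (Coh.mk _ M z)) = 0 :=
    by
      have h := congrArg Prod.fst hx
      rw [show ((d₁.intSys hD h1u one_ne_zero).opData hD' hD ψ).op M (Coh.mk _ M z) = 0 from h,
        map_zero]
  have hx2 : resLevel (M := M) q hD ψ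
      (((d₂.intSys hD hqu' hq0).opData hD' hD ψ).op M (Coh.mk _ M z)) = 0 :=
    by
      have h := congrArg Prod.snd hx
      rw [show ((d₂.intSys hD hqu' hq0).opData hD' hD ψ).op M (Coh.mk _ M z) = 0 from h,
        map_zero]
  -- the restriction of the second map is `U + W`
  have key2 : resCocycle q hD ψ (((d₂.intSys hD hqu' hq0).opData hD' hD ψ).opCocycle M z)
      = (hU.opData hD' hD' ψ).opCocycle M z + (hal.opData hD' hD' ψ).opCocycle M z := by
    refine Subtype.ext (funext fun γ => ?_)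
    simp only [Submodule.coe_add, Pi.add_apply]
    show (((d₂.intSys hD hqu' hq0).opData hD' hD ψ).opCocycle M z : Gamma0 L → M)
      (inclLevel γ) = _
    rw [OpData.opCocycle_eq_sum _ z (inclLevel γ)
      (fun k => k.elim ((hal.opData hD' hD' ψ).step γ ())
        fun y => (hU.opData hD' hD' ψ).step γ ⟨some y, fun h => absurd h (Option.some_ne_none y)⟩)
      (fun k => k.elim none
        fun y => ((hU.opData hD' hD' ψ).perm γ
          ⟨some y, fun h => absurd h (Option.some_ne_none y)⟩).1)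
      ?_]
    · rw [Fintype.sum_option, OpData.opCocycle_apply, OpData.opCocycle_apply, sum_someIdx,
        add_comm]
      simp only [Option.elim_some, Option.elim_none, Finset.univ_unique, Finset.sum_singleton]
      rfl
    · rintro (_ | y)
      · exact (hal.opData hD' hD' ψ).spec γ ()
      · have h := (hU.opData hD' hD' ψ).spec γ
          ⟨some y, fun h => absurd h (Option.some_ne_none y)⟩
        simp only [Option.elim_some]
        generalize (hU.opData hD' hD' ψ).perm γ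
          ⟨some y, fun h => absurd h (Option.some_ne_none y)⟩ = j at h ⊢
        obtain ⟨_ | w, hj⟩ := j
        · exact absurd (dvd_mul_left q L) (hj rfl)
        · exact h
  -- the restriction of the first map is `1 + U ∘ W`
  have key1 : resCocycle q hD ψ (((d₁.intSys hD h1u one_ne_zero).opData hD' hD ψ).opCocycle M z)
      = z + (hU.opData hD' hD' ψ).opCocycle M ((hal.opData hD' hD' ψ).opCocycle M z) := by
    refine Subtype.ext (funext fun γ => ?_)
    simp only [Submodule.coe_add, Pi.add_apply]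
    show (((d₁.intSys hD h1u one_ne_zero).opData hD' hD ψ).opCocycle M z : Gamma0 L → M)
      (inclLevel γ) = _
    rw [OpData.opCocycle_eq_sum _ z (inclLevel γ)
      (fun k => k.elim γ fun y => (hal.opData hD' hD' ψ).step ((hU.opData hD' hD' ψ).step γ
        ⟨some y, fun h => absurd h (Option.some_ne_none y)⟩) ())
      (fun k => k.elim none
        fun y => ((hU.opData hD' hD' ψ).perm γ
          ⟨some y, fun h => absurd h (Option.some_ne_none y)⟩).1)
      ?_]
    · rw [Fintype.sum_option, OpData.opCocycle_apply, sum_someIdx]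
      simp only [Option.elim_some, Option.elim_none, OpData.opCocycle_apply,
        Finset.univ_unique, Finset.sum_singleton, ← mul_smul]
      refine congrArg₂ (· + ·) ?_ (Finset.sum_congr rfl fun y _ => ?_)
      · have : wt ψ (fmat₁ L q u v none) = 1 := by simp [fmat₁, wt]
        rw [this, one_smul]
      · obtain ⟨y', hy', hmul⟩ := mul_hmat_none (L := L) (u := u) (v := v)
          ⟨some y, fun h => absurd h (Option.some_ne_none y)⟩
        obtain rfl : y = y' := Option.some_injective _ hy'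
        have hsmul : (q : ℤ) • fmat₁ L q u v (some y)
            = !![(q : ℤ), 0; 0, q] * fmat₁ L q u v (some y) := by
          simp [fmat₁, Matrix.mul_fin_two, Matrix.smul_of]
        have hg : Good D !![(q : ℤ), 0; 0, q] :=
          ⟨by simp, by simp [Matrix.det_fin_two_of, hqu], by
            simp [Matrix.det_fin_two_of, hq.ne_zero]⟩
        have hq1 : wt ψ !![(q : ℤ), 0; 0, q] = 1 := by
          have h := inv_apply_mul_apply hq hqD ψ
          simp [wt, Matrix.det_fin_two_of]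
          linear_combination (ψ⁻¹ (q : ZMod D) * ψ (q : ZMod D) + 1) * h
        show _ = (wt ψ (hmat (L * q) q _) * wt ψ (fmat₂ L q u v none)) • _
        congr 1
        rw [mul_comm, ← wt_mul ψ (hal.good ()), hmul, hsmul, wt_mul ψ hg, hq1, one_mul]
    · rintro (_ | y)
      · simp only [Option.elim_none]
        show toGL (fmat₁ L q u v none) * gamma0GL (L * q) γ
          = gamma0GL (L * q) γ * toGL (fmat₁ L q u v none)
        have h1 : toGL (fmat₁ L q u v none) = 1 := by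
          apply Units.ext
          rw [toGL_coe (by simp [fmat₁])]
          simp [fmat₁]
        rw [h1, one_mul, mul_one]
      · have eU := hU.step_spec hD' hD' ψ γ ⟨some y, fun h => absurd h (Option.some_ne_none y)⟩
        obtain ⟨y', hy', hmul⟩ := mul_hmat_none (L := L) (u := u) (v := v)
          ⟨some y, fun h => absurd h (Option.some_ne_none y)⟩
        obtain rfl : y = y' := Option.some_injective _ hy'
        simp only [Option.elim_some]
        generalize (hU.opData hD' hD' ψ).perm γ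
          ⟨some y, fun h => absurd h (Option.some_ne_none y)⟩ = j at eU ⊢
        generalize (hU.opData hD' hD' ψ).step γ
          ⟨some y, fun h => absurd h (Option.some_ne_none y)⟩ = s at eU ⊢
        obtain ⟨w, hw, hmulj⟩ := mul_hmat_none (L := L) (u := u) (v := v) j
        have eV := hal.step_spec hD' hD' ψ s ()
        generalize (hal.opData hD' hD' ψ).step s () = c at eV ⊢
        rw [hw]
        have e : fmat₁ L q u v (some y) * g0Mat γ = g0Mat c * fmat₁ L q u v (some w) := by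
          apply smul_right_injective Mat hq0
          show (q : ℤ) • (fmat₁ L q u v (some y) * g0Mat γ)
            = (q : ℤ) • (g0Mat c * fmat₁ L q u v (some w))
          rw [← Matrix.smul_mul, ← hmul, ← Matrix.mul_smul, ← hmulj, Matrix.mul_assoc, eU,
            ← Matrix.mul_assoc, eV, Matrix.mul_assoc]
        have hne : ∀ k, (fmat₁ L q u v k).det ≠ 0 := fun k => by
          rw [d₁.det_eq]; exact one_ne_zero
        show toGL (fmat₁ L q u v (some y)) * gamma0GL L (inclLevel γ)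
          = gamma0GL (L * q) c * toGL (fmat₁ L q u v (some w))
        rw [← toGL_mul_g0Mat (hne _), ← toGL_g0Mat_mul _ (hne _), g0Mat_inclLevel, e]
  simp only [IntSys.op]
  rw [OpData.op_mk, resLevel_mk] at hx1 hx2
  rw [key1, map_add] at hx1
  rw [key2, map_add] at hx2
  have hW := eq_neg_of_add_eq_zero_right hx2
  rw [← OpData.op_mk, hW, map_neg, OpData.op_mk, ← sub_eq_add_neg, sub_eq_zero] at hx1
  rw [OpData.op_mk, OpData.op_mk]
  exact hx1.symm

/-- Lowering the level by `q`: a linear map commuting with the good operators on whose kernel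
`U'_q` is an involution. -/
theorem exists_lowering [NeZero L] (hD : D ∣ L) (ψ : DirichletCharacter A D) {q : ℕ}
    (hq : q.Prime) (hqL : ¬ q ∣ L) :
    ∃ f : CohL (hD.trans (Nat.dvd_mul_right L q)) ψ M →ₗ[A] CohL hD ψ M × CohL hD ψ M,
      (∀ ℓ : ℕ, ℓ.Prime → ℓ ≠ q → ∀ x,
        f (heckeT' (hD.trans (Nat.dvd_mul_right L q)) ψ M ℓ x)
          = (heckeT' hD ψ M ℓ (f x).1, heckeT' hD ψ M ℓ (f x).2)) ∧
      ∀ x, f x = 0 → heckeT' (hD.trans (Nat.dvd_mul_right L q)) ψ M q
        (heckeT' (hD.trans (Nat.dvd_mul_right L q)) ψ M q x) = x := by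
  haveI : Fact q.Prime := ⟨hq⟩
  have hD' : D ∣ L * q := hD.trans (Nat.dvd_mul_right L q)
  have hqD : ¬ q ∣ D := fun h => hqL (h.trans hD)
  have hqu : IsUnit (q : ZMod D) :=
    (ZMod.isUnit_iff_coprime q D).mpr ((Nat.Prime.coprime_iff_not_dvd hq).mpr hqD)
  obtain ⟨u, v, huv'⟩ : IsCoprime (q : ℤ) (L : ℤ) :=
    (Nat.isCoprime_iff_coprime).mpr ((Nat.Prime.coprime_iff_not_dvd hq).mpr hqL)
  have huv : (q : ℤ) * u + L * v = 1 := by linear_combination huv'
  have d₁ := degSys₁ hqL huv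
  have d₂ := degSys₂ hqL huv
  have hq0 : (q : ℤ) ≠ 0 := Int.natCast_ne_zero.mpr hq.ne_zero
  have h1u : IsUnit ((1 : ℤ) : ZMod D) := by simp
  have hqu' : IsUnit (((q : ℤ)) : ZMod D) := by simpa using hqu
  refine ⟨((d₁.intSys hD h1u one_ne_zero).op hD' hD ψ M).prod
    ((d₂.intSys hD hqu' hq0).op hD' hD ψ M), ?_, ?_⟩
  · intro ℓ hℓ hℓq x
    by_cases hℓD : ℓ ∣ D
    · rw [heckeT', dif_neg (by tauto), heckeT', dif_neg (by tauto)]
      simp only [LinearMap.zero_apply, map_zero]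
      rfl
    haveI : Fact ℓ.Prime := ⟨hℓ⟩
    rw [heckeT'_eq_intSys hD' ψ hℓD, heckeT'_eq_intSys hD ψ hℓD]
    refine Prod.ext ?_ ?_
    · exact LinearMap.congr_fun
        (degSys_comm hqL hD ψ d₁ h1u one_ne_zero hℓ hℓq hℓD isCoprime_one_left) x
    · exact LinearMap.congr_fun (degSys_comm hqL hD ψ d₂ hqu' hq0 hℓ hℓq hℓD
        ((Nat.isCoprime_iff_coprime).mpr ((Nat.coprime_primes hq hℓ).mpr (Ne.symm hℓq)))) x
  · exact sq_of_lowering_eq_zero hD ψ hqL huv h1u hqu' hq0

end Lowering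

end Fermat.Agent.Ribet.Twisted
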