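/-
Lifting of cocycles of Γ₀(L) along surjections (2 and 3 invertible), exactness, finiteness.
-/
import Fermat.Agent.Ribet.Twisted.Hecke
import Fermat.Agent.ParHom.Cocycle
import Fermat.Agent.ParHom.ParAb

set_option autoImplicit false

set_option linter.unusedSectionVars false

noncomputable section

namespace Fermat.Agent.Ribet.Twisted

open CongruenceSubgroup
open scoped MatrixGroups
open ModularGroup (S T)

section General

open Fermat.Agent.ParHom (Cosets U)

variable {Γ : Subgroup SL(2, ℤ)}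

/-- The element of `Γ` attached to `g` and a coset. -/
def transition (Γ : Subgroup SL(2, ℤ)) (g : SL(2, ℤ)) (x : Cosets Γ) : Γ :=
  ⟨((g • x).out)⁻¹ * g * x.out, by
    rw [mul_assoc, ← QuotientGroup.eq, QuotientGroup.out_eq']
    conv_lhs => rw [← QuotientGroup.out_eq' x]
    rfl⟩

theorem transition_mul (g h : SL(2, ℤ)) (x : Cosets Γ) :
    transition Γ (g * h) x = transition Γ g (h • x) * transition Γ h x := by
  apply Subtype.ext
  simp [transition, mul_smul, mul_assoc]

theorem transition_one (x : Cosets Γ) : transition Γ 1 x = 1 := by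
  apply Subtype.ext
  simp [transition]

theorem transition_neg_one (hneg : -1 ∈ Γ) (x : Cosets Γ) :
    transition Γ (-1) x = ⟨-1, hneg⟩ := by
  apply Subtype.ext
  simp [transition, ParHom.neg_one_smul_coset hneg]

variable {A : Type*} [CommRing A] {Φ : Γ →* A}
  {N P : Type*} [AddCommGroup N] [Module A N] [AddCommGroup P] [Module A P]

/-- The affine permutation of `Cosets × N`. -/
def affinePerm (Φ : Γ →* A) (g : SL(2, ℤ)) (a : Cosets Γ → N) : Equiv.Perm (Cosets Γ × N) where
  toFun p := (g • p.1, a p.1 + Φ (transition Γ g p.1) • p.2)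
  invFun p := (g⁻¹ • p.1, Φ (transition Γ g (g⁻¹ • p.1))⁻¹ • (p.2 - a (g⁻¹ • p.1)))
  left_inv p := by
    simp [← mul_smul, ← map_mul]
  right_inv p := by
    simp [← mul_smul, ← map_mul]

theorem affinePerm_apply (g : SL(2, ℤ)) (a : Cosets Γ → N) (x : Cosets Γ) (v : N) :
    affinePerm Φ g a (x, v) = (g • x, a x + Φ (transition Γ g x) • v) := rfl

/-- Cocycles of a subgroup of `SL(2, ℤ)` lift along surjections when `2` and `3` are invertible. -/
theorem exists_cocycle_lift (hneg : -1 ∈ Γ) (hΦ : Φ ⟨-1, hneg⟩ = 1) (h2 : IsUnit (2 : A))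
    (h3 : IsUnit (3 : A)) (f : N →ₗ[A] P) (hf : Function.Surjective f) (z : cocycles Φ P) :
    ∃ y : cocycles Φ N, ∀ γ, f ((y : Γ → N) γ) = (z : Γ → P) γ := by
  obtain ⟨half, hhalf⟩ := h2.exists_left_inv
  obtain ⟨third, hthird⟩ := h3.exists_left_inv
  choose g₀ hg₀ using hf
  set e : SL(2, ℤ) → Cosets Γ → A := fun g x => Φ (transition Γ g x) with he
  set c : SL(2, ℤ) → Cosets Γ → P := fun g x => (z : Γ → P) (transition Γ g x) with hc
  have hemul : ∀ g h x, e (g * h) x = e g (h • x) * e h x := fun g h x => by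
    simp only [he, transition_mul, map_mul]
  have hcmul : ∀ g h x, c (g * h) x = c g (h • x) + e g (h • x) • c h x := fun g h x => by
    simp only [hc, he, transition_mul, z.2 _ _]
  have he1 : ∀ x, e (-1) x = 1 := fun x => by simp only [he, transition_neg_one hneg, hΦ]
  have hc1 : ∀ x, c (-1) x = 0 := by
    intro x
    simp only [hc, transition_neg_one hneg]
    have h := z.2 ⟨-1, hneg⟩ ⟨-1, hneg⟩
    rw [show (⟨-1, hneg⟩ : Γ) * ⟨-1, hneg⟩ = 1 from Subtype.ext (by simp), cocycle_one, hΦ,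
      one_smul] at h
    have h' : ((2 : A) • (z : Γ → P) ⟨-1, hneg⟩) = 0 := by rw [two_smul]; exact h.symm
    calc (z : Γ → P) ⟨-1, hneg⟩ = (half * 2 : A) • (z : Γ → P) ⟨-1, hneg⟩ := by
          rw [hhalf, one_smul]
      _ = 0 := by rw [mul_smul, h', smul_zero]
  have hSS : ∀ x : Cosets Γ, S • S • x = x := fun x => by
    rw [← mul_smul, ParHom.S_sq, ParHom.neg_one_smul_coset hneg]
  have hUUU : ∀ x : Cosets Γ, U • U • U • x = x := fun x => by
    rw [← mul_smul, ← mul_smul, ParHom.U_cube, ParHom.neg_one_smul_coset hneg]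
  have heS : ∀ x, e S (S • x) * e S x = 1 := fun x => by
    rw [← hemul, ParHom.S_sq, he1]
  have hcS : ∀ x, c S (S • x) + e S (S • x) • c S x = 0 := fun x => by
    rw [← hcmul, ParHom.S_sq, hc1]
  have heU : ∀ x, e U (U • U • x) * e U (U • x) * e U x = 1 := fun x => by
    have := hemul (U * U) U x
    rw [ParHom.U_cube, he1, hemul] at this
    exact this.symm
  have hcU : ∀ x, c U (U • U • x) + e U (U • U • x) • c U (U • x)
      + (e U (U • U • x) * e U (U • x)) • c U x = 0 := fun x => by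
    have := hcmul (U * U) U x
    rw [ParHom.U_cube, hc1, hcmul, hemul] at this
    exact this.symm
  have smA : ∀ (r s : A) (v : N), r • s • v = (r * s) • v := fun r s v => smul_smul r s v
  -- lifts satisfying the relations
  obtain ⟨a, haf, ha⟩ : ∃ a : Cosets Γ → N, (∀ x, f (a x) = c S x) ∧
      ∀ x, a (S • x) + e S (S • x) • a x = 0 := by
    let k : Cosets Γ → N := fun x => g₀ (c S (S • x)) + e S (S • x) • g₀ (c S x)
    have hfk : ∀ x, f (k x) = 0 := fun x => by simp [k, hg₀, hcS]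
    have hk : ∀ x, e S (S • x) • k (S • x) = k x := fun x => by
      simp only [k, hSS, smul_add, smA, heS, one_smul]
      exact add_comm _ _
    refine ⟨fun x => g₀ (c S x) - half • k (S • x), fun x => by simp [hfk, hg₀], fun x => ?_⟩
    simp only [hSS, smul_sub]
    rw [smul_comm _ half, hk]
    calc _ = k x - ((half * 2 : A)) • k x := by
          simp only [k, mul_smul, two_smul, smul_add]; abel
      _ = 0 := by rw [hhalf, one_smul, sub_self]
  obtain ⟨b, hbf, hb⟩ : ∃ b : Cosets Γ → N, (∀ x, f (b x) = c U x) ∧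
      ∀ x, b (U • U • x) + e U (U • U • x) • b (U • x)
        + (e U (U • U • x) * e U (U • x)) • b x = 0 := by
    let k : Cosets Γ → N := fun x => g₀ (c U (U • U • x)) + e U (U • U • x) • g₀ (c U (U • x))
      + (e U (U • U • x) * e U (U • x)) • g₀ (c U x)
    have hfk : ∀ x, f (k x) = 0 := fun x => by simp [k, hg₀, hcU]
    have hk : ∀ x, k (U • x) = e U x • k x := fun x => by
      simp only [k, hUUU, smul_add, smA]
      rw [show e U x * (e U (U • U • x) * e U (U • x)) = 1 by rw [← heU x]; ring, one_smul]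
      abel
    refine ⟨fun x => g₀ (c U x) - third • k (U • x), fun x => by simp [hfk, hg₀], fun x => ?_⟩
    simp only [hUUU, smul_sub, smul_comm _ third]
    have h1 : e U (U • U • x) • k (U • U • x) = k x := by
      rw [← hk (U • U • x), hUUU]
    have h2' : (e U (U • U • x) * e U (U • x)) • k (U • x) = k x := by
      rw [mul_smul, ← hk (U • x), h1]
    rw [h1, h2']
    calc _ = k x - (third * 3 : A) • k x := by
          rw [show third * 3 = third + third + third by ring, add_smul, add_smul]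
          simp only [k]; abel
      _ = 0 := by rw [hthird, one_smul, sub_self]
  -- the action
  have hσ : affinePerm Φ S a ^ 2 = 1 := by
    refine Equiv.ext fun p => ?_
    obtain ⟨x, v⟩ := p
    rw [pow_two, Equiv.Perm.mul_apply, affinePerm_apply, affinePerm_apply, hSS]
    show (_, a (S • x) + e S (S • x) • (a x + e S x • v)) = (x, v)
    rw [smul_add, ← mul_smul, heS, one_smul, ← add_assoc, ha, zero_add]
  have hτ : affinePerm Φ U b ^ 3 = 1 := by
    refine Equiv.ext fun p => ?_
    obtain ⟨x, v⟩ := p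
    rw [pow_succ, pow_two, Equiv.Perm.mul_apply, Equiv.Perm.mul_apply, affinePerm_apply,
      affinePerm_apply, affinePerm_apply, hUUU]
    show (_, b (U • U • x) + e U (U • U • x) • (b (U • x) + e U (U • x) • (b x + e U x • v)))
      = (x, v)
    simp only [smul_add, smA]
    rw [← mul_assoc, heU, one_smul, ← add_assoc, ← add_assoc, hb, zero_add]
  obtain ⟨Ψ, hS, hU⟩ := ParHom.exists_hom_SL2Z _ _ hσ hτ
  let G : Subgroup SL(2, ℤ) :=
    { carrier := {g | ∀ x v, Ψ g (x, v) = (g • x, (Ψ g (x, 0)).2 + e g x • v) ∧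
        f (Ψ g (x, 0)).2 = c g x}
      one_mem' := by
        intro x v
        simp [he, hc, transition_one, cocycle_one]
      mul_mem' := by
        intro g h hg hh x v
        have hcomp : ∀ w, Ψ (g * h) (x, w) = ((g * h) • x,
            (Ψ g (h • x, 0)).2 + e g (h • x) • ((Ψ h (x, 0)).2 + e h x • w)) := by
          intro w
          rw [map_mul, Equiv.Perm.mul_apply, (hh x w).1, (hg (h • x) _).1, mul_smul]
        refine ⟨?_, ?_⟩
        · rw [hcomp v, hcomp 0, hemul, mul_smul (e g (h • x))]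
          simp [smul_add, add_assoc]
        · rw [hcomp 0, hcmul]
          simp [(hg (h • x) 0).2, (hh x 0).2]
      inv_mem' := by
        intro g hg x v
        set y := g⁻¹ • x with hy
        have hx : g • y = x := by rw [hy, smul_inv_smul]
        have hmulone : e g⁻¹ x * e g y = 1 := by
          rw [← hx, ← hemul, inv_mul_cancel]
          simp [he, transition_one]
        have hinv : ∀ w, Ψ g⁻¹ (x, w) = (y, e g⁻¹ x • (w - (Ψ g (y, 0)).2)) := by
          intro w
          rw [map_inv, Equiv.Perm.inv_def, Equiv.symm_apply_eq, (hg y _).1, hx, ← mul_smul,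
            mul_comm (e g y), hmulone, one_smul, add_sub_cancel]
        refine ⟨?_, ?_⟩
        · rw [hinv v, hinv 0]
          simp only [smul_sub, zero_sub, smul_neg]
          rw [sub_eq_neg_add]
        · have h1 := hcmul g⁻¹ g y
          rw [inv_mul_cancel, show c 1 y = 0 by simp [hc, transition_one, cocycle_one], hx] at h1
          rw [hinv 0]
          simp only [zero_sub, map_smul, map_neg, (hg y 0).2, smul_neg]
          exact (eq_neg_of_add_eq_zero_left h1.symm).symm }
  have hSG : S ∈ G := fun x v => by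
    simp only [hS, affinePerm_apply]
    exact ⟨by simp [he], by simp [haf]⟩
  have hUG : U ∈ G := fun x v => by
    simp only [hU, affinePerm_apply]
    exact ⟨by simp [he], by simp [hbf]⟩
  have hall : ∀ g, g ∈ G := by
    have hle : Subgroup.closure ({S, T} : Set SL(2, ℤ)) ≤ G := by
      rw [Subgroup.closure_le]
      rintro x (rfl | rfl)
      · exact hSG
      · rw [ParHom.T_eq]; exact mul_mem (inv_mem hSG) hUG
    exact fun g => hle (by rw [SpecialLinearGroup.SL2Z_generators]; trivial)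
  -- restrict to the subgroup
  set x₀ := ParHom.base Γ
  have hs₀ : x₀.out ∈ Γ := by
    have h := QuotientGroup.out_eq' x₀
    rw [show x₀ = ((1 : SL(2, ℤ)) : Cosets Γ) from rfl, QuotientGroup.eq, mul_one,
      inv_mem_iff] at h
    exact h
  let s₀ : Γ := ⟨x₀.out, hs₀⟩
  let conj : Γ → Γ := fun γ => s₀ * γ * s₀⁻¹
  have hj : ∀ γ, transition Γ (conj γ : SL(2, ℤ)) x₀ = γ := fun γ => by
    apply Subtype.ext
    simp only [transition]
    rw [ParHom.smul_base (conj γ)]
    simp [conj, s₀, x₀, mul_assoc]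
  refine ⟨⟨fun γ => (Ψ (conj γ : SL(2, ℤ)) (x₀, 0)).2, fun γ δ => ?_⟩, fun γ => ?_⟩
  · show (Ψ (conj (γ * δ) : SL(2, ℤ)) (x₀, 0)).2 = _
    rw [show conj (γ * δ) = conj γ * conj δ by simp [conj, mul_assoc], Subgroup.coe_mul, map_mul,
      Equiv.Perm.mul_apply, (hall (conj δ : SL(2, ℤ)) x₀ 0).1, ParHom.smul_base,
      (hall (conj γ : SL(2, ℤ)) x₀ _).1]
    simp [he, hj]
  · show f (Ψ (conj γ : SL(2, ℤ)) (x₀, 0)).2 = _
    rw [(hall _ x₀ 0).2]
    simp [hc, hj]

theorem cocycle_eq_zero_of_closure {ι : Type*} [Group ι] {Ξ : ι →* A} {s : Set ι}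
    (hs : Subgroup.closure s = ⊤) (z : cocycles Ξ N) (hz : ∀ g ∈ s, (z : ι → N) g = 0) : z = 0 := by
  refine Subtype.ext (funext fun g => ?_)
  show (z : ι → N) g = 0
  have hg : g ∈ Subgroup.closure s := by rw [hs]; trivial
  induction hg using Subgroup.closure_induction with
  | mem g h => exact hz g h
  | one => exact cocycle_one z
  | mul g h _ _ hg hh => rw [z.2, hg, hh, smul_zero, add_zero]
  | inv g _ hg => rw [cocycle_inv, hg, smul_zero, neg_zero]

theorem module_finite_cocycles [IsNoetherianRing A] [Module.Finite A N] [Γ.FiniteIndex]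
    (Φ : Γ →* A) : Module.Finite A (cocycles Φ N) := by
  have := ParHom.group_fg_SL2Z
  have : Group.FG Γ := Subgroup.fg_of_index_ne_zero Γ
  obtain ⟨s, hs, hfin⟩ := Group.fg_iff.1 this
  have : Finite s := hfin.to_subtype
  let ev : cocycles Φ N →ₗ[A] (s → N) :=
    { toFun := fun z g => (z : Γ → N) g.1
      map_add' := fun _ _ => rfl
      map_smul' := fun _ _ => rfl }
  refine Module.Finite.of_injective ev ?_
  rw [← LinearMap.ker_eq_bot, LinearMap.ker_eq_bot']
  exact fun z hz => cocycle_eq_zero_of_closure hs z fun g hg => congrFun hz ⟨g, hg⟩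

end General

variable {L D : ℕ} [NeZero L] {A : Type*} [CommRing A] (hD : D ∣ L) (ψ : DirichletCharacter A D)
  {M N P : Type*} [AddCommGroup M] [Module A M] [AddCommGroup N] [Module A N]
  [AddCommGroup P] [Module A P]

theorem neg_one_mem_Gamma0 (L : ℕ) : (-1 : SL(2, ℤ)) ∈ Gamma0 L := by
  simp [Gamma0_mem]

omit [NeZero L] in
theorem chr_neg_one : chr hD ψ ⟨-1, neg_one_mem_Gamma0 L⟩ = 1 := by
  rw [chr_apply, ← map_pow]
  simp

/-- Cocycles lift along surjections of coefficients. -/
theorem cocyclesMap_surjective (h2 : IsUnit (2 : A)) (h3 : IsUnit (3 : A)) (f : N →ₗ[A] P)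
    (hf : Function.Surjective f) :
    Function.Surjective
      (cocyclesMap (Φ := chr hD ψ) (Ψ := chr hD ψ) (φ := RingHom.id A) (fun _ => rfl) f) := by
  intro z
  obtain ⟨y, hy⟩ :=
    exists_cocycle_lift (neg_one_mem_Gamma0 L) (chr_neg_one hD ψ) h2 h3 f hf z
  exact ⟨y, Subtype.ext (funext hy)⟩

/-- Right exactness. -/
theorem map_surjective (h2 : IsUnit (2 : A)) (h3 : IsUnit (3 : A)) (f : N →ₗ[A] P)
    (hf : Function.Surjective f) :
    Function.Surjective
      (Coh.map (Φ := chr hD ψ) (Ψ := chr hD ψ) (φ := RingHom.id A) (fun _ => rfl) f) := by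
  intro x
  obtain ⟨z, rfl⟩ := Coh.mk_surjective x
  obtain ⟨y, rfl⟩ := cocyclesMap_surjective hD ψ h2 h3 f hf z
  exact ⟨Coh.mk (chr hD ψ) N y, rfl⟩

/-- Exactness in the middle. -/
theorem exact_map (i : M →ₗ[A] N) (f : N →ₗ[A] P) (hi : Function.Exact i f)
    (hinj : Function.Injective i) (hf : Function.Surjective f) :
    Function.Exact
      (Coh.map (Φ := chr hD ψ) (Ψ := chr hD ψ) (φ := RingHom.id A) (fun _ => rfl) i)
      (Coh.map (Φ := chr hD ψ) (Ψ := chr hD ψ) (φ := RingHom.id A) (fun _ => rfl) f) := by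
  intro x
  constructor
  · intro hx
    obtain ⟨z, rfl⟩ := Coh.mk_surjective x
    rw [Coh.map_mk, Coh.mk_eq_zero] at hx
    obtain ⟨p, hp⟩ := hx
    obtain ⟨n, rfl⟩ := hf p
    set z' := z - coboundary (chr hD ψ) N n with hz'
    have hker : ∀ g, f ((z' : Gamma0 L → N) g) = 0 := fun g => by
      have h := congrFun (congrArg Subtype.val hp) g
      simp [hz'] at h ⊢
      rw [← h]; abel
    choose y hy using fun g => (hi _).1 (hker g)
    have hyc : y ∈ cocycles (chr hD ψ) M := fun g h => hinj (by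
      rw [map_add, map_smul, hy, hy, hy]; exact z'.2 g h)
    have heq : cocyclesMap (Φ := chr hD ψ) (Ψ := chr hD ψ) (φ := RingHom.id A) (fun _ => rfl) i
        ⟨y, hyc⟩ = z' := Subtype.ext (funext fun g => hy g)
    refine ⟨Coh.mk (chr hD ψ) M ⟨y, hyc⟩, ?_⟩
    rw [Coh.map_mk, heq, hz', map_sub, Coh.mk_eq_zero.2 ⟨n, rfl⟩, sub_zero]
  · rintro ⟨y, rfl⟩
    obtain ⟨y, rfl⟩ := Coh.mk_surjective y
    rw [Coh.map_mk, Coh.map_mk, Coh.mk_eq_zero]
    refine ⟨0, Subtype.ext (funext fun g => ?_)⟩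
    simp [hi.apply_apply_eq_zero]

omit [NeZero L] in
/-- The sum of the weights of the representatives. -/
theorem sum_heckeWeight {ℓ : ℕ} [NeZero ℓ] (hℓL : ¬ ℓ ∣ L) :
    ∑ i, heckeWeight L ψ ℓ i = (ℓ : A) * ψ⁻¹ (ℓ : ZMod D) + ψ (ℓ : ZMod D) := by
  let w : Option (ZMod ℓ) → A := fun o => o.elim (ψ (ℓ : ZMod D)) fun _ => ψ⁻¹ (ℓ : ZMod D)
  show ∑ i : HeckeCohom.HeckeIdx L ℓ, w i.1 = _
  rw [show ∑ i : HeckeCohom.HeckeIdx L ℓ, w i.1 = ∑ o : Option (ZMod ℓ), w o from
    Fintype.sum_equiv (Equiv.subtypeUnivEquiv fun _ _ => hℓL) _ _ fun _ => rfl,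
    Fintype.sum_option]
  simp [w, ZMod.card, add_comm]

omit [Module A P] in
/-- Classes killed by an injective change of coefficients are Eisenstein. -/
theorem heckeT'_of_map_eq_zero {B : Type*} [CommRing B] (φ : A →+* B) [Module B P]
    (g : M →ₛₗ[φ] P) (hg : Function.Injective g) (x : CohL hD ψ M)
    (hx : Coh.map (Φ := chr hD ψ) (Ψ := chr hD (ψ.ringHomComp φ))
      (chr_ringHomComp φ hD ψ) g x = 0)
    (ℓ : ℕ) (hℓ : ℓ.Prime) (hℓL : ¬ ℓ ∣ L) :
    heckeT' hD ψ M ℓ x = ((ℓ : A) * ψ⁻¹ (ℓ : ZMod D) + ψ (ℓ : ZMod D)) • x := by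
  have : Fact ℓ.Prime := ⟨hℓ⟩
  have : NeZero ℓ := ⟨hℓ.ne_zero⟩
  have hℓD : ¬ ℓ ∣ D := fun h => hℓL (h.trans hD)
  obtain ⟨z, rfl⟩ := Coh.mk_surjective x
  rw [Coh.map_mk, Coh.mk_eq_zero] at hx
  obtain ⟨p, hp⟩ := hx
  rw [heckeT'_eq hD ψ M hℓD, OpData.op_mk, ← sum_heckeWeight ψ hℓL, ← map_smul]
  set h := heckeOpData hD ψ (Fact.out : ℓ.Prime) hℓD
  have hB := h.pushforward φ (chr_ringHomComp φ hD ψ) (chr_ringHomComp φ hD ψ)
  refine congrArg _ (Subtype.ext (funext fun γ => hg ?_))
  have key := congrFun (congrArg Subtype.val (hB.opCocycle_coboundary (M := P) p)) γ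
  rw [hp, hB.opCocycle_eq_sum _ γ (h.step γ) (h.perm γ) (h.spec γ)] at key
  simp only [OpData.opCocycle_apply, map_sum, LinearMap.map_smulₛₗ, Submodule.coe_smul,
    Pi.smul_apply]
  refine key.trans ?_
  rw [map_smul, Submodule.coe_smul, Pi.smul_apply, hp]
  simp

/-- Finiteness. -/
theorem finite_cohL [IsNoetherianRing A] [Module.Finite A M] : Module.Finite A (CohL hD ψ M) :=
  haveI := module_finite_cocycles (N := M) (chr hD ψ)
  Module.Finite.quotient A _

end Fermat.Agent.Ribet.Twisted
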